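import Fermat.Agent.ModField.Semistable.Mono.Eta.Elt
import Fermat.Agent.JTorsion.Kummer

/-!
# The square root `η(z)¹² / η(pz)¹²` of `Δ(z) / Δ(pz)`

The multiplier of `η¹²` is the sign of the matrix modulo two, so for odd `p` the quotient is
invariant under `Γ₀(p)`; its square is in the function field, hence so is the quotient.
-/

set_option autoImplicit false
set_option linter.style.haveILetI false
set_option linter.unusedSectionVars false
set_option synthInstance.maxHeartbeats 200000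
set_option maxHeartbeats 800000

noncomputable section

namespace FA.CuspClass

open UpperHalfPlane hiding I
open Complex CongruenceSubgroup ModularCurve FA.Level FA.ModField FA.ModField.EtaQ
open scoped MatrixGroups Manifold

/-- The formula for the multiplier of `η¹²`, modulo two. -/
def formula2 (a b c d : ZMod 2) : ZMod 2 := if c = 1 then a + d + 1 else b

theorem formula_two : formula2 1 0 0 1 = 0 ∧
    (∀ a b c d, a * d - b * c = 1 →
      formula2 a (a + b) c (c + d) = formula2 a b c d + formula2 1 1 0 1) ∧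
    (∀ a b c d, a * d - b * c = 1 →
      formula2 b (-a) d (-c) = formula2 a b c d + formula2 0 (-1) 1 0) ∧
    formula2 1 1 0 1 = 1 ∧ formula2 0 (-1) 1 0 = 1 := by
  decide +kernel

/-- The multiplier of `η¹²` depends on the matrix modulo two only. -/
theorem exists_mult_six : ∃ χ : SL(2, ZMod 2) → ℂ, (∀ x, χ x ^ 2 = 1) ∧
    ∀ (g : SL(2, ℤ)) (z : ℍ),
      etaPow 6 (g • z) = χ (redMod 2 g) * denom g z ^ 6 * etaPow 6 z := by
  obtain ⟨a1, a2, a3, a4, a5⟩ := formula_two
  refine exists_mult_of_formula 6 2 rfl formula2 a1 a2 a3 a4 ?_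
  rw [a5, show (1 : ZMod 2).val = 1 from rfl, pow_one, rootC,
    show (2 : ℂ) * Real.pi * I / ((2 : ℕ) : ℂ) = Real.pi * I by push_cast; ring,
    Complex.exp_pi_mul_I, inv_pow, show (6 : ℕ) = 2 * 3 from rfl, pow_mul, Complex.I_sq]
  norm_num

variable (N p : ℕ) [NeZero N] [NeZero p]

/-- `η(z)¹² / η(pz)¹²` is invariant under `Γ₀(N)` for odd `p ∣ N`. -/
theorem etaQuot_six_smul (hp : p ∣ N) (hodd : p % 2 = 1) {g : SL(2, ℤ)} (hg : g ∈ Gamma0 N)
    (z : ℍ) : etaQuot 6 1 p (g • z) = etaQuot 6 1 p z := by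
  obtain ⟨χ, hχ1, hχ⟩ := exists_mult_six
  rw [Gamma0_mem, ZMod.intCast_zmod_eq_zero_iff_dvd] at hg
  obtain ⟨c, hc⟩ := (Int.natCast_dvd_natCast.2 hp).trans hg
  have hdet : g 0 0 * g 1 1 - g 0 1 * g 1 0 = 1 := by
    have := g.det_coe; rwa [Matrix.det_fin_two] at this
  obtain ⟨g', hg'⟩ : ∃ g' : SL(2, ℤ),
      (g' : Matrix (Fin 2) (Fin 2) ℤ) = !![g 0 0, (p : ℤ) * g 0 1; c, g 1 1] :=
    ⟨⟨_, by rw [Matrix.det_fin_two_of]; linear_combination hdet + g 0 1 * hc⟩, rfl⟩
  have hc' : ((g 1 0 : ℤ) : ℂ) = (p : ℂ) * c := by exact_mod_cast hc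
  have e1 : ∀ y : ℍ, scaleH 1 y = y := fun y => UpperHalfPlane.ext (by rw [coe_scaleH]; simp)
  have ep : scaleH p (g • z) = g' • scaleH p z := by
    ext
    rw [coe_scaleH, coe_smul_int, coe_smul_int, hg']
    simp only [Matrix.of_apply, Matrix.cons_val', Matrix.cons_val_zero, Matrix.cons_val_one,
      Matrix.empty_val', Matrix.cons_val_fin_one, coe_scaleH, Int.cast_mul, Int.cast_natCast, hc']
    rw [← mul_div_assoc]
    congr 1 <;> ring
  have dp : denom g' (scaleH p z) = denom g z := by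
    rw [denom_SL, denom_SL, hg']
    simp only [Matrix.of_apply, Matrix.cons_val', Matrix.cons_val_zero, Matrix.cons_val_one,
      Matrix.empty_val', Matrix.cons_val_fin_one, coe_scaleH, hc']
    ring
  have hp2 : (p : ZMod 2) = 1 := by
    rw [← ZMod.natCast_mod, hodd, Nat.cast_one]
  have hc2 : ((g 1 0 : ℤ) : ZMod 2) = (c : ZMod 2) := by
    rw [hc, Int.cast_mul, Int.cast_natCast, hp2, one_mul]
  have hred : redMod 2 g = redMod 2 g' := redMod_eq fun i j => by
    fin_cases i <;> fin_cases j <;> simp [hg', hp2, hc2]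
  rw [etaQuot_eq 6 1 p (by norm_num), etaQuot_eq 6 1 p (by norm_num), e1, e1, ep, hχ, hχ, hred, dp]
  have hd : denom g z ≠ 0 := by rw [denom_SL]; exact smul_denom_ne g z
  have hχ0 : χ (redMod 2 g') ≠ 0 := fun h0 => by
    have := hχ1 (redMod 2 g')
    rw [h0, zero_pow two_ne_zero] at this
    exact zero_ne_one this
  rw [mul_div_mul_left _ _ (mul_ne_zero hχ0 (pow_ne_zero _ hd))]

theorem etaQuot_six_sq (z : ℍ) : etaQuot 6 1 p z ^ 2 = etaQuot 12 1 p z := by
  rw [etaQuot_eq 6 1 p (by norm_num), etaQuot_eq 12 1 p le_rfl, div_pow, etaPow, etaPow, etaPow,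
    etaPow, ← pow_mul, ← pow_mul]

variable (L : Type) [Field L] [IsAlgClosed L] [Algebra ℚ L] [Algebra L ℂ]

/-- The unit as an element of `Mer`. -/
theorem theta_etaElt {w m a b : ℕ} [NeZero a] [NeZero b] (h : Adm N w m a b)
    (e : (lvlGamma0 N).fld L) (he : (e : LaurentSeries L) = etaSer w a b m L) :
    theta e = toMer (⟨_, mdiff_etaQuot w a b⟩ : holSub) := by
  obtain ⟨x, y, hy, hxy⟩ := (lvlGamma0 N).exists_fraction L e
  have hy0 : toMer (genHol y) ≠ 0 := fun h0 => hy (genHol_injective (by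
    rw [map_zero]; exact toMer_injective (h0.trans (map_zero _).symm)))
  have hser : etaSer w a b m L * (y : LaurentSeries L) = (x : LaurentSeries L) := by
    have h1 := congrArg Subtype.val hxy
    rw [MulMemClass.coe_mul, he] at h1
    exact h1
  have hfun : etaQuot w a b * (lvlGamma0 N).funHom L y = (lvlGamma0 N).funHom L x := by
    refine ((hasExp_adm (L := L) h).mul (qp_ne_zero 1) ((lvlGamma0 N).funHom_exp L y)).fun_unique ?_
    rw [← map_mul, hser]
    exact (lvlGamma0 N).funHom_exp L x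
  refine mul_right_cancel₀ hy0 ?_
  rw [← theta_toFld, ← map_mul, hxy, theta_toFld, theta_toFld, ← map_mul]
  exact congrArg toMer (Subtype.ext hfun.symm)

/-- **`Δ(z) / Δ(pz)` is a square in the function field of level `N` for odd `p ∣ N`.** -/
theorem exists_sqrt_unit (hp : p ∣ N) (hodd : p % 2 = 1) (h : Adm N 12 1 1 p)
    (e : (lvlGamma0 N).fld L) (he : (e : LaurentSeries L) = etaSer 12 1 p 1 L) :
    ∃ g : (lvlGamma0 N).fld L, g ^ 2 = e := by
  have hR : MDiff (etaQuot 6 1 p) := mdiff_etaQuot 6 1 p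
  have hsq : (⟨_, hR⟩ : holSub) ^ 2 = ⟨_, mdiff_etaQuot 12 1 p⟩ :=
    Subtype.ext (funext fun z => etaQuot_six_sq p z)
  have hpow : toMer (⟨_, hR⟩ : holSub) ^ 2 = theta e := by
    rw [theta_etaElt N L h e he, ← map_pow, hsq]
  obtain ⟨g, hg⟩ := exists_theta_of_invariant (V := lvlGamma0 N) two_ne_zero hpow
    fun γ hγ => by
      have hinv : ∀ z : ℍ, etaQuot 6 1 p (γ • z) = etaQuot 6 1 p z := fun z =>
        etaQuot_six_smul N p hp hodd hγ z
      rw [merSL_toMer]
      exact congrArg toMer (Subtype.ext (funext hinv))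
  exact ⟨g, theta.injective (by rw [map_pow, hg, hpow])⟩

end FA.CuspClass

end
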