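import Fermat.Agent.ModField.Semistable.Mono.Eta.Flip
import Fermat.Agent.ModField.Semistable.RedModular
import Fermat.Agent.Mazur.DiscSpl
import Fermat.Agent.JTorsion.Descent
import Fermat.Agent.Mazur.DiscHecke
import Fermat.Agent.CuspClass.EtaTwelve

/-!
# The two cusps of `X₀(p)` as places of the function field over `ℚ̄`

`infty p` reads off the order of the series and `zero p` is its image under the Atkin–Lehner
involution. They are the only poles of `j`, and are fixed by `Gal(ℚ̄ / ℚ)`.
-/

set_option autoImplicit false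
set_option linter.style.haveILetI false
set_option linter.unusedSectionVars false
set_option synthInstance.maxHeartbeats 400000
set_option maxHeartbeats 1600000

noncomputable section

namespace FA.CuspClass

open ModularCurve AlgebraicCurve FA.Curve FA.Level FA.ModField
open HahnSeries (ofPowerSeries single)

local notation "Qb" => AlgebraicClosure ℚ
local notation "GQ" => AlgebraicClosure ℚ ≃ₐ[ℚ] AlgebraicClosure ℚ

variable [Algebra Qb ℂ] (p : ℕ) [hp : Fact p.Prime] [NeZero p]

local notation "FF" => levelField (1 * p) Qb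

theorem not_dvd_one : ¬ p ∣ 1 := hp.out.not_dvd_one

/-- The Atkin–Lehner involution of level `p`. -/
def flipW : FF ≃ₐ[Qb] FF := wLvl 1 p Qb (not_dvd_one p)

theorem flipW_flipW (f : FF) : flipW p (flipW p f) = f := wLvl_wLvl 1 p Qb (not_dvd_one p) f

theorem exists_infty : ∃ v : Place Qb FF, ∀ f : FF, v.ord f = (f : LaurentSeries Qb).order := by
  have hj : ((levelJ (1 * p) Qb : FF) : LaurentSeries Qb).order = -1 :=
    FA.Mazur.order_jqModC_eq Qb
  rcases exists_place_of_embedding (levelField (1 * p) Qb).val with h | ⟨v, k, hk, h⟩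
  · exact absurd ((h (levelJ (1 * p) Qb)).symm.trans hj) (by norm_num)
  · have hj' : k * v.ord (levelJ (1 * p) Qb) = -1 := (h (levelJ (1 * p) Qb)).symm.trans hj
    have hk1 : k = 1 := Int.eq_one_of_dvd_one hk.le ⟨-v.ord (levelJ (1 * p) Qb), by linarith⟩
    exact ⟨v, fun f => by
      have := h f
      rw [hk1, Int.one_mul] at this
      exact this.symm⟩

/-- The cusp `∞`. -/
def infty : Place Qb FF := (exists_infty p).choose

theorem ord_infty (f : FF) : (infty p).ord f = (f : LaurentSeries Qb).order :=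
  (exists_infty p).choose_spec f

/-- The cusp `0`. -/
def zero : Place Qb FF := flipW p • infty p

theorem ord_zero' (f : FF) : (zero p).ord f = (infty p).ord (flipW p f) := by
  have h := Place.ord_smul (flipW p) (infty p) (flipW p f)
  rw [flipW_flipW] at h
  exact h

theorem ord_levelJ_infty : (infty p).ord (levelJ (1 * p) Qb) = -1 := by
  rw [ord_infty, coe_levelJ]
  exact FA.Mazur.order_jqModC_eq Qb

theorem order_qExpand_jq : (qExpand Qb p (jqModC Qb)).order = -(p : ℤ) := by
  have hc : (qExpand Qb p (jqModC Qb)).coeff ((p : ℤ) * -1) ≠ 0 := by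
    rw [qExpand_coeff_mul, coeff_jqModC_neg_one]
    exact one_ne_zero
  have hne : qExpand Qb p (jqModC Qb) ≠ 0 := HahnSeries.ne_zero_of_coeff_ne_zero hc
  refine le_antisymm ((HahnSeries.order_le_of_coeff_ne_zero hc).trans (by omega)) ?_
  by_contra hlt
  refine HahnSeries.coeff_order_eq_zero.not.mpr hne ?_
  by_cases hd : (p : ℤ) ∣ (qExpand Qb p (jqModC Qb)).order
  · obtain ⟨k, hk⟩ := hd
    rw [hk, qExpand_coeff_mul]
    refine coeff_jqModC_of_lt Qb ?_
    rw [hk] at hlt
    have hp0 : (0 : ℤ) < p := Int.natCast_pos.2 hp.out.pos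
    nlinarith
  · exact qExpand_coeff_of_not_dvd p _ hd

theorem ord_levelJ_zero : (zero p).ord (levelJ (1 * p) Qb) = -(p : ℤ) := by
  rw [ord_zero', ord_infty]
  have hs : swapDiv p 1 = p := by rw [swapDiv, if_neg (not_dvd_one p), one_mul]
  haveI : NeZero (swapDiv p 1) := ⟨by rw [hs]; exact hp.out.ne_zero⟩
  have hJ : levelJ (1 * p) Qb = lvlGenD Qb (1 * p) 1 (one_dvd _) :=
    Subtype.ext (by rw [coe_levelJ, coe_lvlGenD, qExpand_one_apply])
  rw [flipW, hJ, coe_wLvl_gen 1 p Qb (not_dvd_one p) 1 (one_dvd _), qExpand_congr hs]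
  exact order_qExpand_jq p

theorem infty_ne_zero : infty p ≠ zero p := fun h => by
  have h1 := ord_levelJ_infty p
  rw [h, ord_levelJ_zero] at h1
  have := hp.out.two_le
  omega

/-- **The cusps are the only poles of `j`.** -/
theorem eq_cusp_of_pole {v : Place Qb FF} (hv : v.ord (levelJ (1 * p) Qb) < 0) :
    v = infty p ∨ v = zero p := by
  classical
  by_contra hne
  push Not at hne
  have hF := isFunctionField_level Qb (1 * p)
  have hdeg := degree_poleDiv hF (levelJ_transcendental (1 * p) Qb)
  rw [finrank_levelJ, show dedekindPsi (1 * p) = p + 1 by rw [one_mul, dedekindPsi_prime hp.out]]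
    at hdeg
  set D : Divisor Qb FF := Finsupp.single (infty p) 1 + Finsupp.single (zero p) (p : ℤ) +
    Finsupp.single v 1 with hD
  have hle : D ≤ poleDiv hF (levelJ (1 * p) Qb) := by
    refine Finsupp.le_def.2 fun w => ?_
    rw [poleDiv_apply, hD, Finsupp.add_apply, Finsupp.add_apply, Finsupp.single_apply,
      Finsupp.single_apply, Finsupp.single_apply]
    by_cases h1 : infty p = w
    · subst h1
      rw [if_pos rfl, if_neg (infty_ne_zero p).symm, if_neg hne.1, ord_levelJ_infty]
      omega
    by_cases h2 : zero p = w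
    · subst h2
      rw [if_neg h1, if_pos rfl, if_neg hne.2, ord_levelJ_zero]
      omega
    rw [if_neg h1, if_neg h2]
    split_ifs with h3
    · subst h3; omega
    · omega
  have h := degree_mono hF hle
  rw [hdeg, hD, map_add, map_add, Divisor.degree_single, Divisor.degree_single,
    Divisor.degree_single, hF.deg_eq_one, hF.deg_eq_one, hF.deg_eq_one] at h
  push_cast at h
  omega

/-- Non-zero constants have order zero. -/
theorem ord_const {K F : Type*} [Field K] [Field F] [Algebra K F] (v : Place K F) {c : K}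
    (hc : c ≠ 0) : v.ord (algebraMap K F c) = 0 := by
  have hne : ∀ {x : K}, x ≠ 0 → algebraMap K F x ≠ 0 := fun hx => (_root_.map_ne_zero _).2 hx
  have h1 := (atLeast_iff (hne hc)).1 (atLeast_algebraMap (v := v) c)
  have h2 := (atLeast_iff (hne (inv_ne_zero hc))).1 (atLeast_algebraMap (v := v) c⁻¹)
  rw [map_inv₀, v.ord_inv] at h2
  omega

/-! ### The units -/

theorem order_etaSer (w a b m : ℕ) [NeZero a] [NeZero b] :
    (EtaQ.etaSer w a b m Qb).order = ((a : ℤ) - b) / m := by
  have hc : (EtaQ.etaSer w a b m Qb).coeff (((a : ℤ) - b) / m) ≠ 0 := by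
    rw [EtaQ.etaSer_coeff_lead]; exact one_ne_zero
  refine le_antisymm (HahnSeries.order_le_of_coeff_ne_zero hc) ?_
  by_contra hlt
  refine HahnSeries.coeff_order_eq_zero.not.mpr (EtaQ.etaSer_ne_zero w a b m Qb) ?_
  rw [EtaQ.etaSer, HahnSeries.coeff_single_mul, one_mul]
  refine ofPowerSeries_coeff_of_neg _ ?_
  rw [← EtaQ.etaSer]
  omega

variable {p}

open scoped Classical in
/-- `η(z)^(2w) / η(pz)^(2w)` has its zeros and poles at the cusps only. -/
theorem ord_unit {w m : ℕ} (h : EtaQ.Adm (1 * p) w m 1 p) (v : Place Qb FF) :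
    v.ord (EtaQ.etaElt Qb h) =
      if v = infty p then (1 - (p : ℤ)) / m else if v = zero p then ((p : ℤ) - 1) / m else 0 := by
  split_ifs with h1 h2
  · rw [h1, ord_infty, EtaQ.coe_etaElt, order_etaSer, Nat.cast_one]
  · have h' : EtaQ.Adm (1 * p) w m (1 * p) 1 :=
      ⟨h.hwm, h.hw, dvd_rfl, one_dvd _, by simpa using h.hab.neg_right,
        by simpa using h.symm.hcop⟩
    obtain ⟨d, hd, hW⟩ := EtaQ.exists_wLvl_etaElt (L := Qb) (not_dvd_one p) (r := 1) dvd_rfl h h'
    have hd0 : algebraMap Qb FF d ≠ 0 := (_root_.map_ne_zero _).2 fun e => by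
      rw [e, zero_pow h.m_ne] at hd
      exact pow_ne_zero _ (Nat.cast_ne_zero.2 hp.out.ne_zero) hd.symm
    rw [h2, ord_zero', show flipW p (EtaQ.etaElt Qb h) = _ from hW,
      Place.ord_mul _ hd0 (EtaQ.etaElt_ne_zero h'),
      ord_const _ (fun e => hd0 (by rw [e, map_zero])),
      zero_add, ord_infty,
      EtaQ.coe_etaElt, order_etaSer, Nat.cast_mul, Nat.cast_one, one_mul]
  · refine EtaQ.ord_etaElt h ?_
    by_contra hlt
    rcases eq_cusp_of_pole p (not_le.1 hlt) with e | e
    · exact h1 e
    · exact h2 e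

variable (p)

/-! ### The Galois action -/

theorem gal_infty (σ : GQ) : galAut (1 * p) Qb σ • infty p = infty p := by
  refine (FA.Mazur.place_eq_of_ord one_pos one_pos fun f => ?_).1
  rw [Int.one_mul, Int.one_mul]
  conv_lhs => rw [show f = galAut (1 * p) Qb σ • ((galAut (1 * p) Qb σ)⁻¹ • f) from
    (smul_inv_smul _ f).symm]
  rw [SemilinearAut.ord_smul, ord_infty, ord_infty]
  conv_rhs => rw [show f = galAut (1 * p) Qb σ • ((galAut (1 * p) Qb σ)⁻¹ • f) from
    (smul_inv_smul _ f).symm]
  rw [show galAut (1 * p) Qb σ = arithmeticGalois (modularFunctionFieldFull (1 * p)) σ from rfl,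
    coe_arithmeticGalois_smul]
  exact (FA.JTorsion.order_coeffMap _ _).symm

theorem gal_zero (σ : GQ) : galAut (1 * p) Qb σ • zero p = zero p := by
  refine (FA.Mazur.place_eq_of_ord one_pos one_pos fun f => ?_).1
  rw [Int.one_mul, Int.one_mul]
  set g := galAut (1 * p) Qb σ
  conv_lhs => rw [show f = g • (g⁻¹ • f) from (smul_inv_smul _ f).symm]
  rw [SemilinearAut.ord_smul, ord_zero', ord_zero']
  conv_rhs => rw [show f = g • (g⁻¹ • f) from (smul_inv_smul _ f).symm]
  rw [show flipW p (g • (g⁻¹ • f)) = g • flipW p (g⁻¹ • f) from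
    wLvl_gal (L := Qb) (hqM := not_dvd_one p) 1 p σ _]
  conv_lhs => rw [← SemilinearAut.ord_smul g (infty p), gal_infty p σ]

end FA.CuspClass

end
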