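import Fermat.Agent.CuspClass.HeckeRational
import Fermat.Agent.EisReducible.AtLevel

/-!
# The Eisenstein ideal kills rational torsion of `J₀(p)` of order prime to `6 p`

`T_q = 1 + q` there and `U_p` is an involution; on a vector where it is `-1` the annihilator would
give an Eisenstein system with the value `-1` at `U_p`. So the order divides the numerator.
-/

set_option autoImplicit false
set_option linter.style.haveILetI false
set_option linter.unusedSectionVars false
set_option synthInstance.maxHeartbeats 400000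
set_option maxHeartbeats 1000000

noncomputable section

open ModularCurve FA.JTorsion FA.Mazur FA.Eis CuspForm

namespace FA.CuspClass

local notation "Qb" => AlgebraicClosure ℚ
local notation "GQ" => AlgebraicClosure ℚ ≃ₐ[ℚ] AlgebraicClosure ℚ

variable [Algebra Qb ℂ] {p : ℕ} [hp : Fact p.Prime] (n : ℕ) [NeZero n]
  (hn : n.Coprime (6 * p)) {q₀ : ModN p (∅ : Set ℕ) n}
  (hfix : ∀ σ : GQ, σ • toTors p (∅ : Set ℕ) n q₀ = toTors p (∅ : Set ℕ) n q₀)

include hn hfix

theorem tGen_smul_of_fixed (r : Nat.Primes) (hr : (r : ℕ) ≠ p) :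
    tGen p r • q₀ = (1 + (r : ℕ)) • q₀ := by
  have hrN : ¬ (r : ℕ) ∣ p := fun h => hr ((Nat.prime_dvd_prime_iff_eq r.2 hp.out).1 h)
  rw [show tGen p r = CuspForm.heckeAlgebra.T (k := 2) r.2 hrN (Set.notMem_empty _) from
    CuspForm.heckeEvalForms_heckeGen_of_not_dvd (ℓ := r) hrN]
  by_cases h2 : (r : ℕ) = 2
  · refine heckeT_smul_of_fixed p n q₀ hfix r.2 hrN fun h => ?_
    rw [h2] at h
    exact absurd (Nat.eq_one_of_dvd_coprimes hn h (by omega)) (by norm_num)
  · haveI : Fact (r : ℕ).Prime := ⟨r.2⟩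
    haveI : NeZero (r : ℕ) := ⟨r.2.ne_zero⟩
    refine toTors_injective p (∅ : Set ℕ) n ?_
    rw [toTors_T_smul p n r.2 hrN (Set.notMem_empty _), map_nsmul]
    exact hecke_eq_of_fixed p h2 hrN
      (isOfFinAddOrder_iff_nsmul_eq_zero.2 ⟨n, NeZero.pos n, nsmul_toTors p (∅ : Set ℕ) n q₀⟩) hfix

/-- **`U_p = 1` on the class.** -/
theorem level_smul_of_fixed : tGen p ⟨p, hp.out⟩ • q₀ = q₀ := by
  classical
  set U := tGen p ⟨p, hp.out⟩
  by_contra hne
  set z := U • q₀ - q₀ with hz
  have hz0 : z ≠ 0 := sub_ne_zero.2 hne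
  have hUz : U • z = -z := by
    rw [hz, smul_sub, smul_smul, FA.EisReducible.tGen_level_sq, one_smul, neg_sub]
  have hTz : ∀ r : Nat.Primes, (r : ℕ) ≠ p → tGen p r • z = (1 + (r : ℕ)) • z := fun r hr => by
    rw [hz, smul_sub, smul_comm, tGen_smul_of_fixed n hn hfix r hr, nsmul_sub,
      smul_comm (1 + (r : ℕ)) U]
  let I : Ideal (TAlg p) :=
    { carrier := {t | t • z = 0}
      add_mem' := fun {s t} (hs : s • z = 0) (ht : t • z = 0) =>
        show (s + t) • z = 0 by rw [add_smul, hs, ht, add_zero]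
      zero_mem' := zero_smul _ z
      smul_mem' := fun s t (ht : t • z = 0) =>
        show (s * t) • z = 0 by rw [mul_smul, ht, smul_zero] }
  have hI : I ≠ ⊤ := fun h => hz0 (by
    have h1 : (1 : TAlg p) • z = 0 := (h.symm ▸ Submodule.mem_top : (1 : TAlg p) ∈ I)
    rwa [one_smul] at h1)
  obtain ⟨m, hm, hIm⟩ := Ideal.exists_le_maximal I hI
  letI := Ideal.Quotient.field m
  set θ : TAlg p →+* TAlg p ⧸ m := Ideal.Quotient.mk m
  have hkill : ∀ t : TAlg p, t • z = 0 → θ t = 0 := fun t ht =>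
    Ideal.Quotient.eq_zero_iff_mem.2 (hIm ht)
  have hn0 : ((n : ℕ) : TAlg p ⧸ m) = 0 := by
    rw [← map_natCast θ]
    refine hkill _ ?_
    rw [Nat.cast_smul_eq_nsmul]
    exact toTors_injective p (∅ : Set ℕ) n (by rw [map_nsmul, nsmul_toTors, map_zero])
  obtain ⟨l, hlc⟩ := CharP.exists (TAlg p ⧸ m)
  have hln : l ∣ n := (CharP.cast_eq_zero_iff _ l n).1 hn0
  have hl : l.Prime := (CharP.char_is_prime_or_zero (TAlg p ⧸ m) l).resolve_right fun h =>
    NeZero.ne n (zero_dvd_iff.1 (h ▸ hln))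
  haveI := Fact.mk hl
  have hcop : ∀ d : ℕ, d ∣ 6 * p → l ≠ d := fun d hd h =>
    hl.one_lt.ne' (Nat.eq_one_of_dvd_coprimes hn hln (h ▸ hd))
  have h2 : l ≠ 2 := hcop 2 ((by norm_num : 2 ∣ 6).mul_right p)
  have h3 : l ≠ 3 := hcop 3 ((by norm_num : 3 ∣ 6).mul_right p)
  have h4 : l ≠ 4 := fun h => by rw [h] at hl; norm_num at hl
  have h5 : 5 ≤ l := by have := hl.two_le; omega
  have heis : ∀ r : Nat.Primes, (r : ℕ) ≠ p →
      θ (tGen p r) = 1 + ((r : ℕ) : TAlg p ⧸ m) := fun r hr => by
    have h := hTz r hr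
    rw [← Nat.cast_smul_eq_nsmul (TAlg p), ← sub_eq_zero, ← sub_smul] at h
    have h' := hkill _ h
    rwa [map_sub, sub_eq_zero, map_natCast, Nat.cast_add, Nat.cast_one] at h'
  have hone : θ U = 1 :=
    FA.EisReducible.value_at_level_eq_one h5 (hcop p (dvd_mul_left p 6)) θ heis
  have hneg : θ U + 1 = 0 := by
    rw [← map_one θ, ← map_add]
    exact hkill _ (by rw [add_smul, one_smul, hUz, neg_add_cancel])
  rw [hone, one_add_one_eq_two] at hneg
  exact h2 ((Nat.prime_dvd_prime_iff_eq hl Nat.prime_two).1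
    ((CharP.cast_eq_zero_iff (TAlg p ⧸ m) l 2).1 (by exact_mod_cast hneg)))

/-- **The numerator kills the class.** -/
theorem numerator_nsmul_of_fixed : eisensteinNumerator p • q₀ = 0 := by
  have heval : ∀ x : HeckeAlg, heckeEvalForms p 2 x • q₀ =
      ((MvPolynomial.aeval (eisensteinSystem p) x : ℤ) : TAlg p) • q₀ := by
    intro x
    induction x using MvPolynomial.induction_on with
    | C r => simp
    | add x y hx hy => simp only [map_add, add_smul, hx, hy]; push_cast; rw [add_smul]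
    | mul_X x r hx =>
      have hr : tGen p r • q₀ = ((eisensteinSystem p r : ℤ) : TAlg p) • q₀ := by
        rw [eisensteinSystem_eq]
        split_ifs with h
        · rw [Int.cast_one, one_smul]
          have he : r = ⟨p, hp.out⟩ := Subtype.ext h
          rw [he]
          exact level_smul_of_fixed n hn hfix
        · rw [tGen_smul_of_fixed n hn hfix r h, ← Nat.cast_smul_eq_nsmul (TAlg p)]
          push_cast
          rfl
      simp only [map_mul, MvPolynomial.aeval_X, Int.cast_mul]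
      rw [show heckeEvalForms p 2 (MvPolynomial.X r) = tGen p r from rfl, mul_smul, hr, smul_comm,
        hx, ← mul_smul, mul_comm, mul_smul]
  obtain ⟨e⟩ := FA.EisensteinPrime.quotient_equiv (p := p)
  have hmem : (eisensteinNumerator p : ↥(heckeLatticeAlgebra p ∅)) ∈
      Ideal.map (latEval p) (eisensteinIdeal p) := by
    rw [← Ideal.Quotient.eq_zero_iff_mem]
    apply e.injective
    simp
  obtain ⟨x, hx, hxn⟩ := (Ideal.mem_map_iff_of_surjective _ latEval_surjective).mp hmem
  have hxT : heckeEvalForms p 2 x = (eisensteinNumerator p : TAlg p) :=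
    (latticeRestrictHom_bijective p ∅ (FA.Period.hasIntegralStructure p 2)).1
      (hxn.trans (map_natCast _ _).symm)
  have h0 := heval x
  rwa [hxT, (mem_eigenIdeal_iff _ x).mp hx, Int.cast_zero, zero_smul,
    Nat.cast_smul_eq_nsmul] at h0

end FA.CuspClass

end
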