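import Fermat.Agent.EisReducible.PowerTrace
import Fermat.Agent.EisReducible.AtLevel
import Fermat.Agent.Tau.PrimeLevelDuality
import Fermat.Agent.Tau.ModTwentyFour
import Fermat.Agent.Tau.Mordell
import Fermat.Agent.ModField.Elliptic

/-!
# No Eisenstein system modulo `3` with `U = -1`

Such a system gives a weight two form of level `p` whose series is `e(q ^ p)` modulo `9`. The trace
of its product with `Δ(p τ)` has weight `14`, so is zero, which forces `p ≡ -1 (mod 9)`. Then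
`e ≡ -2 E₂` and the trace to level one of `(g E₄ - c E₆) ^ (2 m)` is divisible by `81 ^ m`, while
at `ρ` it is `(1 + p) (2 E₆) ^ (2 m)`: so `3 ^ m` divides `p + 1` for every `m`.
-/

set_option autoImplicit false
set_option maxHeartbeats 1000000

noncomputable section

open UpperHalfPlane hiding I
open PowerSeries CongruenceSubgroup FA.Eis
open ModularForm (E₄ E₆)
open scoped MatrixGroups ModularForm ArithmeticFunction.sigma

namespace FA.CuspClass

local notation "ρ9" => PowerSeries.map (Int.castRingHom (ZMod 9))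

theorem hasQ_unique {f : ℍ → ℂ} {A B : PowerSeries ℂ} (h : HasQ 1 f A) (h' : HasQ 1 f B) :
    A = B := by
  have h2 := h.sub h'
  rw [sub_self] at h2
  exact sub_eq_zero.1 (HasQ.eq_zero_of_fun h2 one_pos)

theorem Dz_eq_deltaInt : Dz = FA.Tau.deltaInt :=
  toC_injective (hasQ_unique FA.Eis.hasQ_discriminant FA.Tau.hasQ_discriminant)

theorem Qz_eq_eFourInt : Qz = FA.Tau.eFourInt :=
  toC_injective (hasQ_unique FA.Eis.hasQ_E₄ FA.Tau.hasQ_eFour)

theorem Rz_eq_eSixInt : Rz = FA.Tau.eSixInt :=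
  toC_injective (hasQ_unique FA.Eis.hasQ_E₆ FA.Tau.hasQ_eSix)

/-- `E₂ E₄ ≡ E₆ (mod 9)`. -/
theorem map_e2_mul_Qz : ρ9 FA.Tau.eTwoInt * ρ9 Qz = ρ9 Rz := by
  have h := congrArg (fun A : PowerSeries ℤ => ρ9 A) FA.Tau.theta_eFour
  simp only [map_mul, map_sub, map_ofNat] at h
  rw [Qz_eq_eFourInt, Rz_eq_eSixInt, ← sub_eq_zero, ← h]
  ext n
  rw [show (3 : PowerSeries (ZMod 9)) = C 3 from (map_ofNat C 3).symm, coeff_C_mul, map_zero,
    coeff_map, FA.Tau.thetaInt, coeff_mk, FA.Tau.eFourInt, coeff_mk, eq_intCast]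
  split_ifs with h0
  · simp [h0]
  · push_cast
    rw [show (240 : ZMod 9) = 6 from rfl]
    have h9 : (9 : ZMod 9) = 0 := rfl
    linear_combination (2 * (n : ZMod 9) * ((σ 3 n : ℕ) : ZMod 9)) * h9

variable {p : ℕ} [hp : Fact p.Prime]

/-- **A form congruent to `e(q ^ p)` modulo `9` forces `p ≡ -1 (mod 9)`.** -/
theorem false_of_small (h5 : 5 ≤ p) {g : ℍ → ℂ} {G : PowerSeries ℤ} (hg : IsLv p 2 g)
    (hQ : HasQ 1 g (toC G)) {e : PowerSeries (ZMod 9)} (hG : ρ9 G = Vp p e)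
    (h0 : coeff 0 e = (p : ZMod 9) - 1) (h1 : coeff 1 e = 48) (hp9 : p % 9 ≠ 8) : False := by
  obtain ⟨P, hP, hPQ⟩ := FA.EisReducible.exists_trace_pow hg hQ (k := 12) ⟨6, rfl⟩
    (Hz := Dz) isLv_discriminant FA.Eis.hasQ_discriminant 1
  obtain ⟨lam, hlam⟩ := exists_normal_int (a := 2) (b := 1) (c := 0) ⟨le_rfl, le_rfl⟩
    (by norm_num) hP hPQ
  simp only [zero_add, Finset.sum_range_one, Nat.sub_zero, mul_zero, add_zero, pow_zero,
    mul_one] at hlam
  have hT0 : coeff 0 (FA.EisReducible.Tz p 12 1 G Dz) = 0 := by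
    have hV0 : constantCoeff (Vp p Dz) = 0 := by
      rw [← coeff_zero_eq_constantCoeff_apply, coeff_Vp, if_pos (dvd_zero p), Nat.zero_div,
        coeff_zero_eq_constantCoeff_apply, constantCoeff_Dz]
    rw [FA.EisReducible.Tz, map_add, coeff_C_mul, coeff_C_mul, coeff_Up, zero_mul,
      coeff_zero_eq_constantCoeff_apply, coeff_zero_eq_constantCoeff_apply, map_mul, map_mul,
      hV0, constantCoeff_Dz]
    simp
  have hlam0 : lam 0 = 0 := by
    rw [hlam, coeff_zero_eq_constantCoeff, map_mul, constantCoeff_C, map_mul, map_pow, map_pow,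
      constantCoeff_Qz, constantCoeff_Rz, one_pow, one_pow, mul_one, mul_one] at hT0
    exact hT0
  rw [hlam0, map_zero, zero_mul] at hlam
  set X : PowerSeries (ZMod 9) :=
    C ((-1) ^ 1 * (p : ZMod 9) ^ (12 + 1)) * Vp p (ρ9 Dz) + C (p : ZMod 9) * Up p (ρ9 Dz)
  have hX : e * X = 0 := by
    have h := FA.EisReducible.map_Tz (l := 9) hG 12 1 Dz
    rw [hlam, map_zero, pow_one] at h
    exact h.symm
  set τ : ℕ → ℤ := fun n => coeff n FA.Tau.deltaInt
  have hDz : ∀ n, coeff n (ρ9 Dz) = (τ n : ZMod 9) := fun n => by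
    rw [Dz_eq_deltaInt, coeff_map, eq_intCast]
  have hτ0 : τ 0 = 0 := by
    show coeff 0 FA.Tau.deltaInt = 0
    rw [← Dz_eq_deltaInt, coeff_zero_eq_constantCoeff, constantCoeff_Dz]
  have hp1 : ¬ p ∣ 1 := hp.out.not_dvd_one
  have hX0 : coeff 0 X = 0 := by
    simp only [X, map_add, coeff_C_mul, coeff_Vp, coeff_Up, zero_mul, dvd_zero, if_true,
      Nat.zero_div, hDz, hτ0, Int.cast_zero, mul_zero, add_zero]
  have hX1 : coeff 1 X = (p : ZMod 9) * τ p := by
    simp only [X, map_add, coeff_C_mul, coeff_Vp, coeff_Up, one_mul, hDz, if_neg hp1, mul_zero,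
      zero_add]
  have hτ3 : (τ p : ZMod 3) = (p : ZMod 3) ^ 4 * (1 + p) := by
    show ((coeff p FA.Tau.deltaInt : ℤ) : ZMod 3) = _
    rw [FA.Tau.coeff_deltaInt_of_dvd_twentyFour (m := 3) (by norm_num),
      ArithmeticFunction.sigma_one_apply,
      hp.out.sum_divisors]
    push_cast
    ring
  have hp3 : p % 3 ≠ 0 := fun h => by
    have := (Nat.prime_dvd_prime_iff_eq Nat.prime_three hp.out).1 (Nat.dvd_of_mod_eq_zero h)
    omega
  have h9cast : (p : ZMod 9) = ((p % 9 : ℕ) : ZMod 9) := (ZMod.natCast_mod p 9).symm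
  by_cases h31 : p % 3 = 1
  · have hτu : IsUnit ((p : ZMod 9) * τ p) := by
      have e1 : ∀ x y : ZMod 9, ZMod.castHom (show 3 ∣ 9 by norm_num) (ZMod 3) (x * y) ≠ 0 →
          IsUnit (x * y) := by
        intro x y hxy
        have : ∀ z : ZMod 9, ZMod.castHom (show 3 ∣ 9 by norm_num) (ZMod 3) z ≠ 0 →
            ∃ w, z * w = 1 := by decide
        obtain ⟨w, hw⟩ := this _ hxy
        exact .of_mul_eq_one w hw
      refine e1 _ _ ?_
      rw [map_mul, map_natCast, map_intCast, hτ3, ← ZMod.natCast_mod p 3, h31]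
      decide
    have c1 : coeff 0 e * coeff 1 X = 0 := by
      have h := congrArg (coeff 1) hX
      rw [PowerSeries.coeff_mul, show Finset.HasAntidiagonal.antidiagonal 1 =
        ({(0, 1), (1, 0)} : Finset (ℕ × ℕ)) from rfl,
        Finset.sum_pair (by simp), hX0, mul_zero, add_zero, map_zero] at h
      exact h
    rw [hX1] at c1
    have he0 : coeff 0 e = 0 := hτu.mul_left_eq_zero.1 c1
    have h := congrArg (coeff 2) hX
    rw [PowerSeries.coeff_mul, show Finset.HasAntidiagonal.antidiagonal 2 =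
        ({(0, 2), (1, 1), (2, 0)} : Finset (ℕ × ℕ)) from rfl, Finset.sum_insert (by simp),
      Finset.sum_pair (by simp), hX0, he0, mul_zero, add_zero, zero_mul, zero_add, hX1, map_zero,
      hτu.mul_left_eq_zero, h1] at h
    exact absurd h (by decide)
  · have he0 : IsUnit (coeff 0 e) := by
      have h25 : p % 9 = 2 ∨ p % 9 = 5 := by omega
      rw [h0, h9cast]
      rcases h25 with h | h <;> rw [h]
      · exact .of_mul_eq_one 1 rfl
      · exact .of_mul_eq_one 7 rfl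
    have he : IsUnit e := PowerSeries.isUnit_iff_constantCoeff.2 (by
      rwa [← coeff_zero_eq_constantCoeff_apply])
    have hXz : X = 0 := he.mul_right_eq_zero.1 hX
    have hpu : IsUnit (p : ZMod 9) := by
      refine (ZMod.isUnit_iff_coprime p 9).2 ?_
      simpa using ((Nat.coprime_primes hp.out Nat.prime_three).2 (by omega)).pow_right 2
    have hτp : (τ p : ZMod 9) = 0 := by
      rw [hXz, map_zero] at hX1
      exact hpu.mul_right_eq_zero.1 hX1.symm
    have hτpp : (τ (p * p) : ZMod 9) = -(p : ZMod 9) ^ 11 := by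
      have h := congrArg (fun z : ℤ => (z : ZMod 9)) (FA.Tau.coeff_deltaInt_prime_pow hp.out 0)
      simp only [zero_add, pow_one, pow_zero, pow_two, Int.cast_sub, Int.cast_mul, Int.cast_pow,
        Int.cast_natCast, FA.Tau.coeff_deltaInt_one, mul_one] at h
      show ((coeff (p * p) FA.Tau.deltaInt : ℤ) : ZMod 9) = _
      rw [h, show ((coeff p FA.Tau.deltaInt : ℤ) : ZMod 9) = 0 from hτp, zero_mul, zero_sub]
    have h := congrArg (coeff p) hXz
    simp only [X, map_add, map_zero, coeff_C_mul, coeff_Vp, coeff_Up, dvd_refl, if_true,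
      Nat.div_self hp.out.pos, hDz, hτpp] at h
    rw [show (τ 1 : ZMod 9) = 1 by simp [τ, FA.Tau.coeff_deltaInt_one]] at h
    have h25 : p % 9 = 2 ∨ p % 9 = 5 := by omega
    rw [h9cast] at h
    rcases h25 with h' | h' <;> rw [h'] at h <;> exact absurd h (by decide)

/-- Products along a sum of weight two and level one forms. -/
theorem exists_binom_trace {g : ℍ → ℂ} {G : PowerSeries ℤ} (hg : IsLv p 2 g)
    (hQ : HasQ 1 g (toC G)) (a : ℕ) (c : ℕ → ℤ) :
    ∀ n ≤ a, ∃ f : ℍ → ℂ, IsLv 1 ((6 * a : ℕ) : ℤ) f ∧ HasQ 1 f (toC (∑ i ∈ Finset.range (n + 1),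
        C (c i) * (Qz ^ i * Rz ^ (a - i) * FA.EisReducible.Tz p 0 i G 1))) ∧
      f FA.ModField.rho = (c 0 : ℂ) * (1 + p) * E₆ FA.ModField.rho ^ a := by
  have hterm : ∀ i ≤ a, ∃ F : ℍ → ℂ, IsLv 1 ((6 * a : ℕ) : ℤ) F ∧
      HasQ 1 F (toC (C (c i) * (Qz ^ i * Rz ^ (a - i) * FA.EisReducible.Tz p 0 i G 1))) ∧
      F FA.ModField.rho =
        if i = 0 then (c 0 : ℂ) * (1 + p) * E₆ FA.ModField.rho ^ a else 0 := by
    intro i hi
    have hone : HasQ 1 (1 : ℍ → ℂ) (toC 1) := by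
      rw [map_one]; exact HasQ.one 1
    obtain ⟨P, hP, hPQ⟩ := FA.EisReducible.exists_trace_pow hg hQ (k := 0) ⟨0, rfl⟩
      (Hz := 1) (by exact_mod_cast IsLv.one 1) hone i
    refine ⟨(c i : ℂ) • (⇑E₄ ^ i * ⇑E₆ ^ (a - i) * P), ?_, ?_, ?_⟩
    · refine ((((isLv_E₄.pow i).mul (isLv_E₆.pow (a - i))).mul hP).smul _).congr_weight ?_
      push_cast [Nat.cast_sub hi]
      ring
    · rw [map_mul, toC_C, map_mul, map_mul, map_pow, map_pow, ← PowerSeries.smul_eq_C_mul]
      exact (((hasQ_E₄.pow one_pos i).mul one_pos (hasQ_E₆.pow one_pos (a - i))).mul one_pos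
        hPQ).smul _
    · rcases eq_or_ne i 0 with rfl | hi0
      · have hc : P FA.ModField.rho = 1 + p := by
          have hz : FA.EisReducible.Tz p 0 0 G 1 = C (1 + (p : ℤ)) := by
            simp [FA.EisReducible.Tz, show Up p (1 : PowerSeries ℤ) = 1 by
              rw [← map_one C, Up_C]]
          rw [hz, toC_C] at hPQ
          have hc' := (hPQ FA.ModField.rho).unique ((HasQ.const 1 _) FA.ModField.rho)
          rw [hc']
          push_cast
          rfl
        rw [if_pos rfl]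
        simp only [Pi.smul_apply, Pi.mul_apply, Pi.pow_apply, pow_zero, Nat.sub_zero, one_mul,
          smul_eq_mul, hc]
        ring
      · rw [if_neg hi0]
        simp [FA.ModField.E4_rho, hi0]
  intro n
  induction n with
  | zero =>
    intro hn
    obtain ⟨F, hF, hFQ, hF0⟩ := hterm 0 hn
    exact ⟨F, hF, by rw [zero_add, Finset.sum_range_one]; exact hFQ,
      by rw [hF0, if_pos rfl]⟩
  | succ n ih =>
    intro hn
    obtain ⟨f, hf, hfQ, hf0⟩ := ih (by omega)
    obtain ⟨F, hF, hFQ, hF0⟩ := hterm (n + 1) hn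
    refine ⟨f + F, hf.add hF, ?_, ?_⟩
    · rw [Finset.sum_range_succ _ (n + 1), map_add]
      exact hfQ.add hFQ
    · rw [Pi.add_apply, hf0, hF0, if_neg (Nat.succ_ne_zero n), add_zero]

/-- **`p ≡ -1 (mod 9)`: no form congruent to `-2 E₂(q ^ p)` modulo `9`.** -/
theorem false_of_eight {g : ℍ → ℂ} {G : PowerSeries ℤ} (hg : IsLv p 2 g) (hQ : HasQ 1 g (toC G))
    (hG : ρ9 G = Vp p (C (-2) * ρ9 FA.Tau.eTwoInt)) (hp9 : p % 9 = 8) : False := by
  set m := p + 1
  set a := 2 * m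
  obtain ⟨f, hf, hfQ, hfρ⟩ := exists_binom_trace hg hQ a
    (fun i => (a.choose i : ℤ) * 2 ^ (a - i)) a le_rfl
  have hp : (p : ZMod 9) = -1 := by
    rw [← ZMod.natCast_mod p 9, hp9]; rfl
  set K₁ : PowerSeries ℤ := C (-(p : ℤ)) * Up p G * Qz + C 2 * Rz
  set K₂ : PowerSeries ℤ := G * Vp p Qz + C 2 * Vp p Rz
  have hsum : (∑ i ∈ Finset.range (a + 1), C ((a.choose i : ℤ) * 2 ^ (a - i)) *
      (Qz ^ i * Rz ^ (a - i) * FA.EisReducible.Tz p 0 i G 1)) =
      K₁ ^ a + C (p : ℤ) * Up p (K₂ ^ a) := by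
    rw [add_pow, add_pow, map_sum, Finset.mul_sum, ← Finset.sum_add_distrib]
    refine Finset.sum_congr rfl fun i _ => ?_
    have e : Up p ((G * Vp p Qz) ^ i * (C 2 * Vp p Rz) ^ (a - i) * (a.choose i : PowerSeries ℤ)) =
        C ((a.choose i : ℤ) * 2 ^ (a - i)) * (Qz ^ i * Rz ^ (a - i)) * Up p (G ^ i) := by
      rw [← FA.EisReducible.Up_Vp_mul]
      congr 1
      simp only [map_mul, map_pow, map_natCast, map_ofNat, Vp]
      ring
    rw [e]
    simp only [FA.EisReducible.Tz, zero_add, mul_one, map_one, map_mul, map_pow, map_natCast,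
      map_neg, mul_pow]
    rw [show (-(p : PowerSeries ℤ)) ^ i = (-1) ^ i * (p : PowerSeries ℤ) ^ i from neg_pow _ _]
    ring
  have hUG : ρ9 (Up p G) = C (-2) * ρ9 FA.Tau.eTwoInt := by
    rw [map_Up, hG]
    ext n
    rw [coeff_Up, coeff_Vp, if_pos (dvd_mul_left p n),
      Nat.mul_div_cancel _ (NeZero.pos p)]
  have hK₁ : ρ9 K₁ = 0 := by
    simp only [K₁, map_add, map_mul, PowerSeries.map_C, hUG]
    rw [show Int.castRingHom (ZMod 9) (-(p : ℤ)) = 1 by simp [hp], map_one, one_mul, mul_assoc,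
      map_e2_mul_Qz, ← add_mul, ← map_add]
    simp
  have hK₂ : ρ9 K₂ = 0 := by
    have hV : ∀ A : PowerSeries ℤ, ρ9 (Vp p A) = Vp p (ρ9 A) := fun A =>
      PowerSeries.map_expand p _ _ A
    simp only [K₂, map_add, map_mul, hV, hG, PowerSeries.map_C, PowerSeries.expand_C]
    rw [mul_assoc, ← map_mul (Vp p), map_e2_mul_Qz, ← add_mul, ← map_add]
    simp
  have hdiv : ∀ K : PowerSeries ℤ, ρ9 K = 0 → ∃ L, K = C 9 * L := fun K hK => by
    refine ⟨PowerSeries.mk fun n => coeff n K / 9, PowerSeries.ext fun n => ?_⟩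
    have h : coeff n (ρ9 K) = 0 := by rw [hK, map_zero]
    rw [coeff_map, eq_intCast, ZMod.intCast_zmod_eq_zero_iff_dvd] at h
    rw [coeff_C_mul, coeff_mk]
    exact (Int.mul_ediv_cancel' (by exact_mod_cast h)).symm
  obtain ⟨L₁, hL₁⟩ := hdiv K₁ hK₁
  obtain ⟨L₂, hL₂⟩ := hdiv K₂ hK₂
  set R : PowerSeries ℤ := L₁ ^ a + C (p : ℤ) * Up p (L₂ ^ a)
  have hTR : K₁ ^ a + C (p : ℤ) * Up p (K₂ ^ a) = C ((9 : ℤ) ^ a) * R := by
    have hUC : ∀ (c : ℤ) (A : PowerSeries ℤ), Up p (C c * A) = C c * Up p A := fun c A =>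
      PowerSeries.ext fun n => by rw [coeff_Up, coeff_C_mul, coeff_C_mul, coeff_Up]
    rw [hL₁, hL₂, mul_pow, mul_pow, ← map_pow, hUC]
    ring
  rw [hsum, hTR, map_mul, toC_C] at hfQ
  have h9 : ((9 ^ a : ℤ) : ℂ) ≠ 0 := by
    push_cast
    exact pow_ne_zero _ (by norm_num)
  have hRQ : HasQ 1 (((9 ^ a : ℤ) : ℂ)⁻¹ • f) (toC R) := by
    have h := hfQ.smul (((9 ^ a : ℤ) : ℂ)⁻¹)
    rwa [PowerSeries.smul_eq_C_mul, ← mul_assoc, ← map_mul, inv_mul_cancel₀ h9, map_one,
      one_mul] at h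
  obtain ⟨lam, hlam⟩ := exists_normal_int (a := 0) (b := 0) (c := m) ⟨by omega, by omega⟩
    (by simp only [a]; push_cast; ring) (hf.smul _) hRQ
  -- the value at `ρ`
  have hnorm : ∀ n ≤ m, ∃ F : ℍ → ℂ, HasQ 1 F (toC (∑ i ∈ Finset.range (n + 1),
      C (lam i) * (Qz ^ (0 + 3 * (m - i)) * Rz ^ 0 * Dz ^ i))) ∧
      F FA.ModField.rho = if n = m then (lam m : ℂ) * Δf FA.ModField.rho ^ m else 0 := by
    have hone : ∀ i ≤ m, ∃ F : ℍ → ℂ,
        HasQ 1 F (toC (C (lam i) * (Qz ^ (0 + 3 * (m - i)) * Rz ^ 0 * Dz ^ i))) ∧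
        F FA.ModField.rho = if i = m then (lam m : ℂ) * Δf FA.ModField.rho ^ m else 0 := by
      intro i hi
      refine ⟨(lam i : ℂ) • (⇑E₄ ^ (3 * (m - i)) * Δf ^ i), ?_, ?_⟩
      · rw [map_mul, toC_C, zero_add, pow_zero, mul_one, map_mul, map_pow, map_pow,
          ← PowerSeries.smul_eq_C_mul]
        exact ((hasQ_E₄.pow one_pos _).mul one_pos
          (FA.Eis.hasQ_discriminant.pow one_pos _)).smul _
      · split_ifs with h
        · subst h; simp
        · simp [FA.ModField.E4_rho, show 3 * (m - i) ≠ 0 by omega]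
    intro n
    induction n with
    | zero =>
      intro hn
      obtain ⟨F, hF, hF0⟩ := hone 0 hn
      exact ⟨F, by rw [zero_add, Finset.sum_range_one]; exact hF, hF0⟩
    | succ n ih =>
      intro hn
      obtain ⟨F₁, hF₁, hF₁0⟩ := ih (by omega)
      obtain ⟨F, hF, hF0⟩ := hone (n + 1) hn
      refine ⟨F₁ + F, ?_, ?_⟩
      · rw [Finset.sum_range_succ _ (n + 1), map_add]
        exact hF₁.add hF
      · rw [Pi.add_apply, hF₁0, hF0, if_neg (show n ≠ m by omega), zero_add]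
  obtain ⟨F, hFQ, hF0⟩ := hnorm m le_rfl
  rw [← hlam] at hFQ
  have hval := (hRQ FA.ModField.rho).unique (hFQ FA.ModField.rho)
  rw [hF0, if_pos rfl, Pi.smul_apply, hfρ, smul_eq_mul] at hval
  set D := Δf FA.ModField.rho
  have hD : D ≠ 0 := ModularForm.discriminant_ne_zero _
  have hE6 : (E₆ FA.ModField.rho : ℂ) ^ 2 = -1728 * D := by
    have h := ModularForm.discriminant_eq_E₄_cube_sub_E₆_sq FA.ModField.rho
    simp only [D, CuspForm.coe_discriminant, h, FA.ModField.E4_rho]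
    ring
  have key : (((4 : ℤ) ^ m * (1 + (p : ℤ)) * (-1728) ^ m : ℤ) : ℂ) * D ^ m =
      ((81 ^ m * lam m : ℤ) : ℂ) * D ^ m := by
    have h81 : ((9 : ℂ) ^ a) = 81 ^ m := by rw [pow_mul]; norm_num
    have h4 : ((2 : ℂ) ^ a) = 4 ^ m := by rw [pow_mul]; norm_num
    simp only [Nat.choose_zero_right, Nat.cast_one, one_mul, Nat.sub_zero] at hval
    push_cast at hval h9 ⊢
    rw [h81] at hval h9
    rw [h4, show (E₆ FA.ModField.rho : ℂ) ^ a = (-1728 * D) ^ m by rw [pow_mul, hE6], mul_pow]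
      at hval
    field_simp at hval
    linear_combination D ^ m * hval
  have hint := Int.cast_injective (α := ℂ) (mul_right_cancel₀ (pow_ne_zero m hD) key)
  have hdvd : ((3 : ℤ) ^ m) ∣ (1 + (p : ℤ)) := by
    have h : ((3 : ℤ) ^ m) * (81 ^ m * lam m) =
        (3 : ℤ) ^ m * ((1 + (p : ℤ)) * (256 ^ m * 27 ^ m * (-1) ^ m)) := by
      rw [← hint]
      rw [show (-1728 : ℤ) = (-1) * (64 * 27) by norm_num, show (256 : ℤ) = 4 * 64 by norm_num,
        mul_pow, mul_pow, mul_pow]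
      ring
    have h' := mul_left_cancel₀ (pow_ne_zero m (by norm_num : (3 : ℤ) ≠ 0)) h
    rw [show (81 : ℤ) = 27 * 3 by norm_num, mul_pow, mul_assoc] at h'
    have h'' : (3 : ℤ) ^ m * lam m = (1 + (p : ℤ)) * ((-256) ^ m) := by
      refine mul_left_cancel₀ (pow_ne_zero m (by norm_num : (27 : ℤ) ≠ 0)) ?_
      rw [h', neg_pow (256 : ℤ)]
      ring
    exact (IsCoprime.pow (show IsCoprime (3 : ℤ) (-256) by
      rw [Int.isCoprime_iff_gcd_eq_one]; rfl)).dvd_of_dvd_mul_right ⟨lam m, h''.symm⟩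
  have hlt : p + 1 < 3 ^ (p + 1) := Nat.lt_pow_self (by norm_num)
  have := Int.le_of_dvd (by positivity) hdvd
  have : ((3 ^ (p + 1) : ℕ) : ℤ) ≤ ((p + 1 : ℕ) : ℤ) := by push_cast; linarith
  omega

open FA.Mazur in
/-- **The value at `U_p` of an Eisenstein system modulo `3` is one.** -/
theorem value_at_level_eq_one_three (h5 : 5 ≤ p) {k : Type} [Field k] [CharP k 3]
    (θ : TAlg p →+* k)
    (heis : ∀ q : Nat.Primes, (q : ℕ) ≠ p → θ (tGen p q) = 1 + ((q : ℕ) : k)) :
    θ (tGen p ⟨p, hp.out⟩) = 1 := by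
  classical
  have : Fact (Nat.Prime 3) := ⟨Nat.prime_three⟩
  have hsq : θ (tGen p ⟨p, hp.out⟩) * θ (tGen p ⟨p, hp.out⟩) = 1 := by
    rw [← map_mul, FA.EisReducible.tGen_level_sq, map_one]
  refine (mul_self_eq_one_iff.1 hsq).resolve_right fun hu => ?_
  set c := ZMod.castHom (dvd_refl 3) k
  let d : ℕ → ZMod 3 := fun n => (-1) ^ padicValNat p n * (sigP p n : ZMod 3)
  have hd : ∀ n, c (d n) = θ (hCoeff p n) := fun n => by
    rw [FA.EisReducible.value_hCoeff θ hu heis n]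
    simp [d, c]
  have hmem : ∀ t, θ t ∈ c.range := fun t => by
    have ht : t ∈ Submodule.span ℤ (Set.range (hCoeff p)) := (span_hCoeff p).symm ▸ trivial
    induction ht using Submodule.span_induction with
    | mem x hx => obtain ⟨n, rfl⟩ := hx; exact ⟨d n, hd n⟩
    | zero => rw [map_zero]; exact zero_mem _
    | add x y _ _ hx hy => rw [map_add]; exact add_mem hx hy
    | smul b x _ hx => rw [map_zsmul]; exact zsmul_mem hx b
  choose ψ₀ hψ₀ using hmem
  let ψ : TAlg p →+ ZMod 3 := AddMonoidHom.mk' ψ₀ fun s t => c.injective (by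
    rw [map_add, hψ₀, hψ₀, hψ₀, map_add])
  obtain ⟨f, hf⟩ := FA.PrimeLevelDuality.exists_form_mod p ψ
  have hcoef : ∀ n, ((zCoeff n f : ℤ) : ZMod 3) = d n := fun n => by
    rw [← pairT_hCoeff, hf]
    exact c.injective ((hψ₀ _).trans (hd n).symm)
  obtain ⟨g, hg⟩ := exists_congData (M := 1) (f : CuspForm (Gamma0 p) 2)
    (PowerSeries.mk fun n => zCoeff n f) (hasQ_lattice f) fun m _ => ⟨_, (one_mul _).symm⟩
  set G := EZ p - C 24 * PowerSeries.mk fun n => zCoeff n f
  have key : ∀ x y : ℤ, (x : ZMod 3) = y → (24 : ZMod 9) * x = 24 * y := fun x y h => by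
    obtain ⟨z, hz⟩ := (ZMod.intCast_eq_intCast_iff_dvd_sub x y 3).1 h
    rw [show y = x + 3 * z by push_cast at hz; linarith]
    push_cast
    have h9 : (9 : ZMod 9) = 0 := rfl
    linear_combination (-8 * (z : ZMod 9)) * h9
  have hGn : ∀ n, 0 < n → ∀ y : ℤ,
      (y : ZMod 3) = (1 - (-1) ^ padicValNat p n) * (sigP p n : ZMod 3) →
      coeff n (ρ9 G) = 24 * (y : ZMod 9) := fun n hn y hy => by
    rw [coeff_map, map_sub, coeff_EZ, if_neg hn.ne', coeff_C_mul, coeff_mk, eq_intCast,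
      ← mul_sub, Int.cast_mul, Int.cast_ofNat]
    refine key _ _ ?_
    rw [hy, Int.cast_sub, hcoef]
    simp only [d]
    ring
  have hv : ∀ n, 0 < n → padicValNat p (n * p) = padicValNat p n + 1 := fun n hn => by
    rw [padicValNat.mul hn.ne' hp.out.ne_zero, padicValNat_self]
  set e := Up p (ρ9 G)
  have hV : ρ9 G = Vp p e := by
    ext n
    rw [coeff_Vp]
    split_ifs with hn
    · rw [coeff_Up, Nat.div_mul_cancel hn]
    · rw [hGn n (Nat.pos_of_ne_zero fun h => hn (h ▸ dvd_zero p)) 0 (by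
        rw [padicValNat.eq_zero_of_not_dvd hn, pow_zero, sub_self, zero_mul, Int.cast_zero]),
        Int.cast_zero, mul_zero]
  have he0 : coeff 0 e = (p : ZMod 9) - 1 := by
    rw [coeff_Up, zero_mul, coeff_map, hg.coeff_zero]
    simp
  by_cases hp9 : p % 9 = 8
  · refine false_of_eight hg.lv hg.hasQ ?_ hp9
    rw [hV]
    congr 1
    ext n
    rw [coeff_C_mul, coeff_map, FA.Tau.eTwoInt, coeff_mk, eq_intCast]
    rcases Nat.eq_zero_or_pos n with rfl | hn
    · rw [he0, if_pos rfl, ← ZMod.natCast_mod p 9, hp9]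
      rfl
    · have hm : (p : ZMod 3) = -1 := by
        rw [← ZMod.natCast_mod p 3, show p % 3 = 2 by omega]
        rfl
      rw [coeff_Up, hGn _ (Nat.mul_pos hn hp.out.pos) (2 * (σ 1 n : ℤ)) (by
        rw [hv n hn, pow_succ, mul_comm n p, sigP_p_mul]
        push_cast
        rw [FA.EisReducible.two_sigma_eq hm n hn]
        ring), if_neg hn.ne']
      push_cast
      ring
  · refine false_of_small h5 hg.lv hg.hasQ hV he0 ?_ hp9
    rw [coeff_Up, hGn _ (by simp [hp.out.pos]) 2 (by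
      rw [one_mul, padicValNat_self,
        show sigP p p = 1 by rw [← sigP_one p, ← sigP_p_mul p 1, mul_one]]
      push_cast
      ring)]
    norm_num

end FA.CuspClass

end
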