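import Fermat.Agent.CuspClass.RationalTorsion
import Fermat.Agent.Root.EtaEleven
import Fermat.Agent.PeriodLattice.RankTwo

/-!
# Rational torsion of `J₀(11)`

`T₂ = -2` and `T₃ = -1` on the line of cusp forms of level `11`, so rational torsion is killed by
`5`; complex conjugation moves a class of order `5`, so the rational classes are a proper subgroup
of the `25` classes killed by `5`.
-/

set_option autoImplicit false
set_option linter.style.haveILetI false
set_option linter.unusedSectionVars false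
set_option synthInstance.maxHeartbeats 400000
set_option maxHeartbeats 1000000

noncomputable section

open ModularCurve AlgebraicCurve FA.JTorsion FA.ModField FA.Level CongruenceSubgroup

namespace FA.CuspClass

local notation "Qb" => AlgebraicClosure ℚ
local notation "GQ" => AlgebraicClosure ℚ ≃ₐ[ℚ] AlgebraicClosure ℚ

theorem finrank_cuspForm_eleven : Module.finrank ℂ (CuspForm (Gamma0 11) 2) = 1 := by
  have h20 := (Fermat.Agent.S20.result 11).trans FA.Ribet.genusFormula_11
  exact_mod_cast h20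

/-- `T_ℓ` is the coefficient of the eta product. -/
theorem heckeTLin_eleven {ℓ : ℕ} (hℓ : ℓ.Prime) (hℓN : ¬ ℓ ∣ 11) {a : ℤ}
    (ha : PowerSeries.coeff ℓ FA.EtaEleven.series = a) :
    CuspForm.heckeTLin (N := 11) 2 hℓ hℓN = (a : ℂ) • 1 := by
  haveI : NeZero ℓ := ⟨hℓ.ne_zero⟩
  set f := FA.EtaEleven.formEleven
  have h1 : FA.Deform.qLin 11 f 1 = 1 := by
    rw [FA.Deform.qLin_apply, FA.EtaEleven.qCoeff_formEleven, FA.EtaEleven.coeff_series_one,
      Int.cast_one]
  have hf : f ≠ 0 := fun h => by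
    rw [h, map_zero, Pi.zero_apply] at h1
    exact zero_ne_one h1
  have hline : ∀ g : CuspForm (Gamma0 11) 2, ∃ c : ℂ, c • f = g :=
    fun g => (finrank_eq_one_iff_of_nonzero' f hf).mp finrank_cuspForm_eleven g
  obtain ⟨c, hc⟩ := hline (CuspForm.heckeTLin (N := 11) 2 hℓ hℓN f)
  have hca : c = (a : ℂ) := by
    have h := congrArg (fun g => FA.Deform.qLin 11 g 1) hc
    rw [show CuspForm.heckeTLin (N := 11) 2 hℓ hℓN = FA.JTorsion.heckeForm 11 ℓ hℓ from
      (dif_neg hℓN).symm] at h
    rw [map_smul, Pi.smul_apply, smul_eq_mul, h1, mul_one, FA.PeriodLattice.qLin_heckeForm hℓ,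
      if_neg hℓ.not_dvd_one, add_zero, one_mul, FA.Deform.qLin_apply,
      FA.EtaEleven.qCoeff_formEleven, ha] at h
    exact h
  refine LinearMap.ext fun g => ?_
  obtain ⟨d, rfl⟩ := hline g
  rw [map_smul, ← hc, hca, LinearMap.smul_apply, Module.End.one_apply, smul_comm]

theorem coeff_etaProd_sq : PowerSeries.coeff 1 (ModularCurve.etaProd ^ 2) = -2 ∧
    PowerSeries.coeff 2 (ModularCurve.etaProd ^ 2) = -1 := by
  have h0 : PowerSeries.coeff 0 ModularCurve.etaProd = 1 := by
    rw [PowerSeries.coeff_zero_eq_constantCoeff, ModularCurve.constantCoeff_etaProd]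
  have h1 : PowerSeries.coeff 1 ModularCurve.etaProd = -1 := by
    rw [FA.EtaEleven.coeff_etaProd (le_refl 1)]
    simp
  have h2 : PowerSeries.coeff 2 ModularCurve.etaProd = -1 := by
    rw [FA.EtaEleven.coeff_etaProd (le_refl 2)]
    simp [Finset.prod_range_succ, mul_sub, PowerSeries.coeff_one, PowerSeries.coeff_X,
      PowerSeries.coeff_mul_X_pow']
  constructor <;>
    simp [pow_two, PowerSeries.coeff_mul, Finset.Nat.sum_antidiagonal_succ, h0, h1, h2]

theorem coeff_series_two_three : PowerSeries.coeff 2 FA.EtaEleven.series = -2 ∧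
    PowerSeries.coeff 3 FA.EtaEleven.series = -1 := by
  obtain ⟨h1, h2⟩ := coeff_etaProd_sq
  set B := PowerSeries.expand 11 (by norm_num) (ModularCurve.etaProd ^ 2) with hB
  have hB0 : PowerSeries.coeff 0 B = 1 := by
    rw [hB, PowerSeries.coeff_zero_eq_constantCoeff, PowerSeries.constantCoeff_expand, map_pow,
      ModularCurve.constantCoeff_etaProd, one_pow]
  have hBi : ∀ i, 0 < i → i < 11 → PowerSeries.coeff i B = 0 := fun i hi0 hi => by
    rw [hB, PowerSeries.coeff_expand, if_neg fun hd => by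
      have := Nat.le_of_dvd hi0 hd; omega]
  rw [show FA.EtaEleven.series = PowerSeries.X * (ModularCurve.etaProd ^ 2 * B) from rfl,
    PowerSeries.coeff_succ_X_mul, PowerSeries.coeff_succ_X_mul]
  constructor
  · rw [PowerSeries.coeff_mul, Finset.Nat.sum_antidiagonal_succ,
      Finset.Nat.antidiagonal_zero, Finset.sum_singleton]
    simp only [zero_add]
    rw [hB0, hBi 1 one_pos (by norm_num), h1]
    ring
  · rw [PowerSeries.coeff_mul, Finset.Nat.sum_antidiagonal_succ, Finset.Nat.sum_antidiagonal_succ,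
      Finset.Nat.antidiagonal_zero, Finset.sum_singleton]
    simp only [zero_add, Nat.reduceAdd]
    rw [hB0, hBi 1 one_pos (by norm_num), hBi 2 two_pos (by norm_num), h2]
    ring

variable [Algebra Qb ℂ]

/-- **Rational torsion of `J₀(11)` is killed by five.** -/
theorem five_nsmul_eq_zero {x : JZero 11} (hx : IsOfFinAddOrder x)
    (hfix : ∀ σ : GQ, σ • x = x) : (5 : ℕ) • x = 0 := by
  have hfix' : ∀ (k : ℕ) (σ : GQ), σ • (k • x) = k • x := fun k σ =>
    ((DistribSMul.toAddMonoidHom (JZero 11) σ).map_nsmul k x).trans (congrArg (k • ·) (hfix σ))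
  have key : ∀ y : JZero 11, IsOfFinAddOrder y → (∀ σ : GQ, σ • y = y) →
      (¬ 2 ∣ addOrderOf y ∨ ¬ 3 ∣ addOrderOf y) → (5 : ℕ) • y = 0 := by
    rintro y hy hyfix (h | h)
    · have h5 := zsmul_eq_zero_of_fixed 11 Nat.prime_two (by norm_num)
        (heckeTLin_eleven Nat.prime_two (by norm_num) coeff_series_two_three.1) hy h hyfix
      rw [show (1 : ℤ) + ((2 : ℕ) : ℤ) - -2 = ((5 : ℕ) : ℤ) by norm_num, natCast_zsmul] at h5
      exact h5
    · have h5 := zsmul_eq_zero_of_fixed 11 Nat.prime_three (by norm_num)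
        (heckeTLin_eleven Nat.prime_three (by norm_num) coeff_series_two_three.2) hy h hyfix
      rw [show (1 : ℤ) + ((3 : ℕ) : ℤ) - -1 = ((5 : ℕ) : ℤ) by norm_num, natCast_zsmul] at h5
      exact h5
  obtain ⟨a, m, hm, hn⟩ :=
    Nat.exists_eq_pow_mul_and_not_dvd hx.addOrderOf_pos.ne' 2 (by norm_num)
  have e1 : (5 : ℕ) • 2 ^ a • x = 0 := key _ hx.nsmul (hfix' _) (Or.inl fun h => hm (h.trans
    (addOrderOf_dvd_of_nsmul_eq_zero (by
      rw [smul_smul, mul_comm, ← hn, addOrderOf_nsmul_eq_zero]))))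
  have e2 : (5 : ℕ) • m • x = 0 := key _ hx.nsmul (hfix' _) (Or.inr fun h => by
    have h2 : 3 ∣ 2 ^ a := h.trans (addOrderOf_dvd_of_nsmul_eq_zero (by
      rw [smul_smul, ← hn, addOrderOf_nsmul_eq_zero]))
    have := Nat.prime_three.dvd_of_dvd_pow h2
    norm_num at this)
  refine AddMonoid.addOrderOf_eq_one_iff.1 (Nat.eq_one_of_dvd_coprimes
    (((Nat.prime_two.coprime_iff_not_dvd).2 hm).pow_left a)
    (addOrderOf_dvd_of_nsmul_eq_zero ?_) (addOrderOf_dvd_of_nsmul_eq_zero ?_))
  · rw [smul_comm]; exact e1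
  · rw [smul_comm]; exact e2

/-- **A rational class of order five generates the rational torsion of `J₀(11)`.** -/
theorem fixed_iff_mem_zmultiples {c : JZero 11} (hc : addOrderOf c = 5)
    (hcfix : ∀ σ : GQ, σ • c = c) {x : JZero 11} (hx : IsOfFinAddOrder x) :
    (∀ σ : GQ, σ • x = x) ↔ x ∈ AddSubgroup.zmultiples c := by
  classical
  constructor
  · intro hxfix
    haveI : Fact (Nat.Prime 5) := ⟨by norm_num⟩
    haveI : NeZero (5 : ℕ) := ⟨by norm_num⟩
    let T : AddSubgroup (JZero 11) := tors (lvlGamma0 11) Qb 5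
    haveI : Finite T := tors_finite (lvlGamma0 11) Qb 5
    let F : AddSubgroup T :=
      { carrier := {y : T | ∀ σ : GQ, σ • ((y : JZero 11)) = (y : JZero 11)}
        add_mem' := fun {y z} hy hz σ => by
          rw [AddSubgroup.coe_add]
          exact (smul_add σ (y : JZero 11) (z : JZero 11)).trans
            (congrArg₂ (· + ·) (hy σ) (hz σ))
        zero_mem' := fun σ => by
          rw [ZeroMemClass.coe_zero]
          exact smul_zero σ
        neg_mem' := fun {y} hy σ => by
          rw [NegMemClass.coe_neg]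
          exact (smul_neg σ (y : JZero 11)).trans (congrArg Neg.neg (hy σ)) }
    have hcard : Nat.card T = 5 ^ 2 := by
      have h : Nat.card T = 5 ^ (2 * FA.Curve.genus Qb (levelField 11 Qb)) :=
        FA.PicTors.natCard_torsion_of_functionField FA.PicTors.countComplex
          (isFunctionField_level Qb 11) 5 (NeZero.ne 5)
      rwa [curveGenus_level Qb 11, finrank_cuspForm_eleven, mul_one] at h
    have hmem : ∀ {y : JZero 11}, (5 : ℕ) • y = 0 → y ∈ T := fun {y} h =>
      Pic0.mem_torsion.2 ((natCast_zsmul y 5).trans h)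
    set c' : T := ⟨c, hmem (by rw [← hc, addOrderOf_nsmul_eq_zero])⟩
    have hle : AddSubgroup.zmultiples c' ≤ F := by
      rw [AddSubgroup.zmultiples_le]
      exact hcfix
    have hne : Nat.card F ≠ 5 ^ 2 := fun h => by
      have htop : F = ⊤ := AddSubgroup.eq_top_of_card_eq F (h.trans hcard.symm)
      obtain ⟨τ, hτ⟩ := exists_isConj
      haveI : Nontrivial (CuspForm (Gamma0 11) 2) :=
        Module.nontrivial_of_finrank_eq_succ (R := ℂ) finrank_cuspForm_eleven
      obtain ⟨y, hy⟩ := exists_moved_by_conj 11 5 (by norm_num) hτ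
      refine hy (toTors_injective 11 (∅ : Set ℕ) 5 ((toTors_galMod 11 (∅ : Set ℕ) 5 τ y).trans ?_))
      exact (htop ▸ AddSubgroup.mem_top _ :
        (⟨_, hmem (nsmul_toTors 11 (∅ : Set ℕ) 5 y)⟩ : T) ∈ F) τ
    have hF : Nat.card F = 5 := by
      have hd : Nat.card F ∣ 5 ^ 2 := hcard ▸ AddSubgroup.card_addSubgroup_dvd_card F
      obtain ⟨i, hi, he⟩ := (Nat.dvd_prime_pow (by norm_num)).1 hd
      have hc' : 5 ∣ Nat.card F := by
        have h := AddSubgroup.card_dvd_of_le hle
        rwa [Nat.card_zmultiples,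
          ← AddSubgroup.addOrderOf_coe c', show ((c' : T) : JZero 11) = c from rfl, hc] at h
      interval_cases i
      · rw [he] at hc'
        norm_num at hc'
      · simpa using he
      · exact absurd he hne
    have heq : AddSubgroup.zmultiples c' = F := AddSubgroup.eq_of_le_of_card_ge hle (by
      rw [hF, Nat.card_zmultiples, ← AddSubgroup.addOrderOf_coe c',
        show ((c' : T) : JZero 11) = c from rfl, hc])
    have hxF : (⟨x, hmem (five_nsmul_eq_zero hx hxfix)⟩ : T) ∈ F := hxfix
    rw [← heq, AddSubgroup.mem_zmultiples_iff] at hxF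
    obtain ⟨z, hz⟩ := hxF
    exact AddSubgroup.mem_zmultiples_iff.2 ⟨z, congrArg Subtype.val hz⟩
  · intro h σ
    obtain ⟨z, rfl⟩ := AddSubgroup.mem_zmultiples_iff.1 h
    exact ((DistribSMul.toAddMonoidHom (JZero 11) σ).map_zsmul z c).trans
      (congrArg (z • ·) (hcfix σ))

end FA.CuspClass

end
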