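import Fermat.Agent.Mazur.VanishPoint
import Fermat.Agent.ModField.Semistable.Mono.GenusLevel
import Fermat.Agent.ModField.Curve

/-!
# Rational classes in genus one at an Eisenstein prime

On a curve of genus one every class of degree zero is `(P) - (O)` for exactly one place `P`, so a
class reducing to zero at `l` is a class of the disc at infinity. At an Eisenstein prime a rational
such class is zero, so every rational class of `J₀(p)` of genus one is torsion.
-/

set_option autoImplicit false
set_option linter.style.haveILetI false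
set_option linter.unusedSectionVars false
set_option synthInstance.maxHeartbeats 400000
set_option maxHeartbeats 1600000

noncomputable section

namespace FA.CuspClass

open AlgebraicCurve FA.Curve

section Curve

variable {K F : Type} [Field K] [IsAlgClosed K] [Field F] [Algebra K F]

/-- In positive genus different places have different classes. -/
theorem place_eq_of_sub_principal (hF : IsFunctionField K F) (hg : 0 < genus K F)
    {P Q : Place K F}
    (h : Finsupp.single P (1 : ℤ) - Finsupp.single Q 1 ∈ Divisor.principal (K := K) (F := F)) :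
    P = Q := by
  classical
  by_contra hne
  obtain ⟨f, hf, hdiv⟩ := h
  have hP : P.ord f = 1 := by
    rw [← hdiv P]
    simp [Ne.symm hne]
  have htr : Transcendental K f := fun halg => by
    have hint : IsIntegral K f := halg.isIntegral
    obtain ⟨a, ha⟩ := minpoly.mem_range_of_degree_eq_one K f
      (IsAlgClosed.degree_eq_one_of_irreducible K (minpoly.irreducible hint))
    rw [← ha,
      FA.ModField.place_ord_algebraMap] at hP
    exact zero_ne_one hP
  obtain ⟨c, hc⟩ := exists_threshold hF
  set n := c.toNat + genus K F + 1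
  set D : Divisor K F := n • Finsupp.single Q 1 with hD
  haveI := finite_riemannRochSpace hF D
  have hmem : ∀ i : Fin (n + 1), f ^ (i : ℕ) ∈ riemannRochSpace D := fun i =>
    mem_riemannRochSpace.2 fun v => by
      rw [atLeast_iff (pow_ne_zero _ hf), FA.ModField.place_ord_pow, ← hdiv v, hD,
        Finsupp.smul_apply, Finsupp.sub_apply, Finsupp.single_apply, Finsupp.single_apply]
      have hi : ((i : ℕ) : ℤ) ≤ n := by have := i.2; omega
      split_ifs <;> simp <;> omega
  have hli : LinearIndependent K fun i : Fin (n + 1) => f ^ (i : ℕ) := by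
    have h := ((Polynomial.basisMonomials K).linearIndependent.map'
      (Polynomial.aeval f).toLinearMap
      (LinearMap.ker_eq_bot.2 (transcendental_iff_injective.1 htr))).comp
      (fun i : Fin (n + 1) => (i : ℕ)) Fin.val_injective
    simpa [Function.comp_def, Polynomial.monomial_one_right_eq_X_pow] using h
  have hle : ((n + 1 : ℕ) : ℤ) ≤ ell D := by
    have := card_le_finrank hli hmem
    rw [Fintype.card_fin] at this
    exact Int.ofNat_le.2 this
  have hdeg : Divisor.degree D = n := by
    rw [hD, map_nsmul, Divisor.degree_single, hF.deg_eq_one, nsmul_eq_mul]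
    simp
  rw [hc D (by rw [hdeg]; omega), hdeg] at hle
  omega

/-- In genus one a class of degree zero is `(P) - (O)`. -/
theorem exists_place_class (hF : IsFunctionField K F) (hg : genus K F = 1) (O : Place K F)
    (D : Divisor.degZero (K := K) (F := F)) :
    ∃ (P : Place K F) (hd : Finsupp.single P (1 : ℤ) - Finsupp.single O 1 ∈
      Divisor.degZero (K := K) (F := F)), Pic0.mk ⟨_, hd⟩ = Pic0.mk D := by
  classical
  set E₀ : Divisor K F := (D : Divisor K F) + Finsupp.single O 1
  have hdeg : Divisor.degree E₀ = 1 := by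
    rw [map_add, Divisor.degree_single, hF.deg_eq_one, show Divisor.degree (D : Divisor K F) = 0
      from D.2]
    simp
  obtain ⟨f, hf, hle⟩ := exists_effective_of_ell_pos hF (D := E₀) (by
    have := riemann_inequality hF E₀
    rw [hdeg, hg] at this
    omega)
  set E₁ := E₀ + divOf hF f with hE
  have hdeg' : Divisor.degree E₁ = 1 := by rw [map_add, degree_divOf, hdeg, add_zero]
  obtain ⟨P, hP⟩ : ∃ P, 0 < E₁ P := by
    by_contra hall
    push Not at hall
    have : E₁ = 0 := Finsupp.ext fun v => le_antisymm (hall v) (hle v)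
    rw [this, map_zero] at hdeg'
    exact zero_ne_one hdeg'
  have hE₁ : E₁ = Finsupp.single P 1 := by
    set E₂ := E₁ - Finsupp.single P (1 : ℤ)
    have h0 : ∀ v, 0 ≤ E₂ v := fun v => by
      have := hle v
      simp only [Finsupp.coe_zero, Pi.zero_apply] at this
      simp only [E₂, Finsupp.sub_apply, Finsupp.single_apply]
      split_ifs with h
      · subst h; omega
      · omega
    have hs : Divisor.degree E₂ = 0 := by
      rw [map_sub, hdeg', Divisor.degree_single, hF.deg_eq_one]
      simp
    rw [degree_eq_sum hF, Finsupp.sum, Finset.sum_eq_zero_iff_of_nonneg fun v _ => h0 v] at hs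
    refine sub_eq_zero.1 (Finsupp.ext fun v => ?_)
    by_contra hv
    exact hv (hs v (Finsupp.mem_support_iff.2 hv))
  have hd : Finsupp.single P (1 : ℤ) - Finsupp.single O 1 ∈
      Divisor.degZero (K := K) (F := F) := by
    simp [Divisor.mem_degZero, hF.deg_eq_one]
  refine ⟨P, hd, QuotientAddGroup.eq_iff_sub_mem.2 ?_⟩
  rw [AddSubgroup.mem_addSubgroupOf]
  refine ⟨f, hf, fun v => ?_⟩
  show ((Finsupp.single P (1 : ℤ) - Finsupp.single O 1 - (D : Divisor K F) : Divisor K F)) v = _
  rw [← hE₁, hE]
  simp only [E₀, Finsupp.sub_apply, Finsupp.add_apply, divOf_apply]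
  ring

end Curve

open ModularCurve FA.CurveRed FA.ModField FA.Level FA.JTorsion FA.Mazur

local notation "Qb" => AlgebraicClosure ℚ
local notation "GQ" => AlgebraicClosure ℚ ≃ₐ[ℚ] AlgebraicClosure ℚ

variable [Algebra (AlgebraicClosure ℚ) ℂ] {p : ℕ} [hp : Fact p.Prime] {l : ℕ} [hl : Fact l.Prime]
  [Algebra (AlgebraicClosure ℚ) (PadicComplex l)]

/-- In genus one a class of the disc is a single disc class. -/
theorem exists_discClass_eq (hlp : ¬ l ∣ p) (hg : genus Qb (levelField p Qb) = 1)
    {z : JZero p} (hz : z ∈ discJ (p := p) (l := l) hlp) :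
    ∃ t : Param Qb (Cl l), z = discClass (isEmbAt_placeAt l) t := by
  classical
  haveI := residueAt_charP (ℓ := l) (placeAt_liesOver l)
  haveI := FA.Frob.residueField_isAlgClosed (placeAt l)
  have hF := isFunctionField_up (L := Qb) p
  have hk := isFunctionField_locRed l p hlp
  have hR := isSeriesRed_locRed l p hlp
  obtain ⟨D, rfl⟩ := Pic0.mk_surjective z
  obtain ⟨P, hd, hP⟩ := exists_place_class hF hg (discPlace p (isEmbAt_placeAt l) t0) D
  rw [← hP] at hz ⊢
  have h := push_mem_principal_of_mem (R := locRed l p hlp) hk hz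
  rw [show ((⟨_, hd⟩ : Divisor.degZero (K := Qb) (F := levelField p Qb)) :
      Divisor Qb (levelField p Qb)) = Finsupp.single P (1 : ℤ) -
        Finsupp.single (discPlace p (isEmbAt_placeAt l) t0) 1 from rfl, Reduction.push,
    Finsupp.mapDomain_sub, Finsupp.mapDomain_single, Finsupp.mapDomain_single,
    spl_cusp (isEmbAt_placeAt l) hR hk] at h
  obtain ⟨t, rfl⟩ := exists_param_of_spl (isEmbAt_placeAt l) hR hk
    (place_eq_of_sub_principal hk ((hg ▸ one_pos).trans_le hR.genus_le) h)
  exact ⟨t, rfl⟩

/-- **A rational class reducing to zero at an odd Eisenstein prime vanishes in genus one.** -/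
theorem eq_zero_of_fixed_disc (hlp : ¬ l ∣ p) (hg : genus Qb (levelField p Qb) = 1)
    (hl2 : l ≠ 2) (hn : l ∣ eisensteinNumerator p) {z : JZero p}
    (hz : z ∈ discJ (p := p) (l := l) hlp) (hfix : ∀ σ : GQ, σ • z = z) : z = 0 := by
  obtain ⟨t, rfl⟩ := exists_discClass_eq hlp hg hz
  letI : Algebra (AlgebraicClosure ℚ) (PadicComplex p) :=
    (IsAlgClosed.lift : AlgebraicClosure ℚ →ₐ[ℚ] PadicComplex p).toRingHom.toAlgebra
  have h0 := eq_zero_of_rational_discClass hlp (placeAt_liesOver p) hn t hfix (Or.inl hl2)
  obtain rfl : t = t0 := Subtype.ext h0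
  rw [discClass, Pic0.mk, QuotientAddGroup.eq_zero_iff, AddSubgroup.mem_addSubgroupOf]
  show Finsupp.single _ (1 : ℤ) - Finsupp.single _ 1 ∈ Divisor.principal
  rw [sub_self]
  exact zero_mem _

/-- **Rank zero in genus one**: every rational class is torsion. -/
theorem isOfFinAddOrder_of_fixed (hlp : ¬ l ∣ p) (hg : genus Qb (levelField p Qb) = 1)
    (hl2 : l ≠ 2) (hn : l ∣ eisensteinNumerator p) {x : JZero p}
    (hfix : ∀ σ : GQ, σ • x = x) : IsOfFinAddOrder x := by
  obtain ⟨m, hm, hmem⟩ := exists_nsmul_mem_discJ (p := p) (l := l) hlp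
  refine isOfFinAddOrder_iff_nsmul_eq_zero.2 ⟨m, Nat.pos_of_ne_zero hm,
    eq_zero_of_fixed_disc hlp hg hl2 hn (hmem x ?_) fun σ => ?_⟩
  · rw [hfix, sub_self]
    exact zero_mem _
  · exact ((DistribSMul.toAddMonoidHom (JZero p) σ).map_nsmul m x).trans
      (congrArg (m • ·) (hfix σ))

end FA.CuspClass

end
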