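import Fermat.Agent.CuspClass.GenusOneDisc
import Fermat.Agent.Mazur.RationalPoint

/-!
# Rational places of `X₀(p)` of genus one

In genus one `P ↦ (P) - (∞)` is a bijection from the rational places to the rational classes of
degree zero.
-/

set_option autoImplicit false
set_option linter.style.haveILetI false
set_option linter.unusedSectionVars false
set_option synthInstance.maxHeartbeats 400000
set_option maxHeartbeats 1600000

noncomputable section

namespace FA.CuspClass

open ModularCurve AlgebraicCurve FA.Curve FA.CurveRed FA.ModField FA.Level FA.JTorsion FA.Mazur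

local notation "Qb" => AlgebraicClosure ℚ
local notation "GQ" => AlgebraicClosure ℚ ≃ₐ[ℚ] AlgebraicClosure ℚ

variable [Algebra (AlgebraicClosure ℚ) ℂ] {p : ℕ} [hp : Fact p.Prime] [NeZero p]

/-- A place reading off the order of the series is rational. -/
theorem gal_ord_order {O : Place Qb (levelField p Qb)}
    (hO : ∀ f : levelField p Qb, O.ord f = (f : LaurentSeries Qb).order) (σ : GQ) :
    galAut p Qb σ • O = O := by
  obtain ⟨inst⟩ := exists_algebra_local p
  letI := inst
  obtain rfl : O = discPlace p (isEmbAt_placeAt p) t0 :=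
    (place_eq_of_ord one_pos one_pos fun f => by rw [one_mul, one_mul, hO, ord_cusp]).1
  exact gal_discPlace_t0 p σ

theorem deg_sub_eq_zero (P O : Place Qb (levelField p Qb)) :
    Finsupp.single P (1 : ℤ) - Finsupp.single O 1 ∈
      Divisor.degZero (K := Qb) (F := levelField p Qb) := by
  simp [Divisor.mem_degZero, (isFunctionField_up (L := Qb) p).deg_eq_one]

/-- The class of `(P) - (O)`. -/
def placeCls (O P : Place Qb (levelField p Qb)) : JZero p :=
  Pic0.mk ⟨_, deg_sub_eq_zero P O⟩

theorem placeCls_self (O : Place Qb (levelField p Qb)) : placeCls O O = 0 := by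
  rw [placeCls, Pic0.mk, QuotientAddGroup.eq_zero_iff, AddSubgroup.mem_addSubgroupOf]
  show Finsupp.single _ (1 : ℤ) - Finsupp.single _ 1 ∈ Divisor.principal
  rw [sub_self]
  exact zero_mem _

theorem placeCls_injective (hg : genus Qb (levelField p Qb) = 1)
    (O : Place Qb (levelField p Qb)) : Function.Injective (placeCls O) := fun P Q h => by
  have h1 := QuotientAddGroup.eq_iff_sub_mem.1 h
  rw [AddSubgroup.mem_addSubgroupOf] at h1
  refine place_eq_of_sub_principal (isFunctionField_up (L := Qb) p)
    (by rw [hg]; exact one_pos) ?_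
  rw [← sub_sub_sub_cancel_right _ _ (Finsupp.single O (1 : ℤ))]
  exact h1

theorem smul_placeCls {O : Place Qb (levelField p Qb)} {σ : GQ} (hO : galAut p Qb σ • O = O)
    (P : Place Qb (levelField p Qb)) :
    σ • placeCls O P = placeCls O (galAut p Qb σ • P) := by
  rw [placeCls, placeCls, galois_smul_pic0_def, SemilinearAut.pic0_smul_mk]
  refine congrArg Pic0.mk (Subtype.ext ?_)
  show galAut p Qb σ • (Finsupp.single P (1 : ℤ) - Finsupp.single O 1) = _
  rw [smul_sub, SemilinearAut.smul_single, SemilinearAut.smul_single, hO]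

/-- **The rational places are as many as the rational classes.** -/
theorem natCard_places (hg : genus Qb (levelField p Qb) = 1) {O : Place Qb (levelField p Qb)}
    (hO : ∀ σ : GQ, galAut p Qb σ • O = O) :
    Nat.card {v : Place Qb (levelField p Qb) // ∀ σ : GQ, galAut p Qb σ • v = v} =
      Nat.card {x : JZero p // ∀ σ : GQ, σ • x = x} := by
  refine Nat.card_congr (Equiv.ofBijective
    (fun v => ⟨placeCls O v.1, fun σ => by rw [smul_placeCls (hO σ), v.2]⟩) ⟨?_, ?_⟩)
  · exact fun v w h => Subtype.ext (placeCls_injective hg O (congrArg Subtype.val h))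
  · rintro ⟨x, hx⟩
    obtain ⟨D, rfl⟩ := Pic0.mk_surjective x
    obtain ⟨P, hd, hP⟩ := exists_place_class (isFunctionField_up (L := Qb) p) hg O D
    have hP' : placeCls O P = Pic0.mk D := hP
    refine ⟨⟨P, fun σ => placeCls_injective hg O ?_⟩, Subtype.ext hP'⟩
    rw [← smul_placeCls (hO σ), hP', hx]

end FA.CuspClass

end
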