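import Fermat.Agent.CuspClass.GenusOnePlaces
import Fermat.Agent.Mazur.NoLine

/-!
# Rational classes in genus one at the Eisenstein prime `2`

A rational class of the disc at infinity at `2` has a rational parameter, so the value of a twist
there is `1` modulo `2`; its square is `1` modulo `4`, so twice the class vanishes.
-/

set_option autoImplicit false
set_option linter.style.haveILetI false
set_option linter.unusedSectionVars false
set_option synthInstance.maxHeartbeats 400000
set_option maxHeartbeats 2000000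

noncomputable section

namespace FA.CuspClass

open ModularCurve AlgebraicCurve FA.Curve FA.CurveRed FA.ModField FA.Level FA.JTorsion FA.Mazur

local notation "Qb" => AlgebraicClosure ℚ
local notation "GQ" => AlgebraicClosure ℚ ≃ₐ[ℚ] AlgebraicClosure ℚ

variable [Algebra (AlgebraicClosure ℚ) ℂ] {p : ℕ} [hp : Fact p.Prime] [NeZero p]
  {l : ℕ} [hl : Fact l.Prime] [Algebra (AlgebraicClosure ℚ) (PadicComplex l)]

/-- A unit twist has the distance of the parameter from one. -/
theorem norm_discExp_sub_one (hn : l ∣ eisensteinNumerator p) (hlp : ¬ l ∣ p)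
    {L : twistSub p l hn}
    (hL : ‖(((L : EisR p l hn →ₗ[ℤ_[l]] intO l) 1 : intO l) : Cl l)‖ = 1)
    (t : Param Qb (Cl l)) :
    ‖((discExp hn hlp L ⟨discClass (isEmbAt_placeAt l) t,
        discClass_mem_discJ hlp t⟩).toMul : Cl l) - 1‖ = ‖algebraMap Qb (Cl l) t.1‖ := by
  set E := twE hn hlp L
  set a := qPar t
  rw [discExp_discClass, toMul_ofMul, valUnit_coe (constantCoeff_twE hn hlp L)]
  obtain ⟨f, hf⟩ : PowerSeries.X ∣ E - 1 :=
    PowerSeries.X_dvd_iff.2 (by rw [map_sub, map_one, constantCoeff_twE, sub_self])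
  have hf0 : ‖((PowerSeries.constantCoeff f : unitBall (Cl l)) : Cl l)‖ = 1 := by
    have h := congrArg (PowerSeries.coeff 1) hf
    rw [map_sub, PowerSeries.coeff_one, if_neg one_ne_zero, sub_zero,
      PowerSeries.coeff_succ_X_mul, PowerSeries.coeff_zero_eq_constantCoeff_apply] at h
    rw [← h, coeff_one_twE]
    exact hL
  have hX : evalHom a (norm_qPar_lt t) (PowerSeries.X : PowerSeries (unitBall (Cl l))) = a := by
    rw [← Polynomial.coe_X, evalHom_coe, Polynomial.eval_X]
  have h := congrArg (evalHom a (norm_qPar_lt t)) hf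
  rw [map_sub, map_one, map_mul, hX] at h
  have h' := congrArg (fun x : unitBall (Cl l) => (x : Cl l)) h
  simp only [AddSubgroupClass.coe_sub, OneMemClass.coe_one, Subring.coe_mul] at h'
  rw [h', norm_mul, norm_evalHom_eq_one (norm_qPar_lt t) hf0, mul_one, norm_qPar]

/-- A parameter of a rational class is at most `|l|` in genus one. -/
theorem norm_param_le (hg : genus Qb (levelField p Qb) = 1) (t : Param Qb (Cl l))
    (hfix : ∀ σ : GQ, σ • (discClass (isEmbAt_placeAt l) t : JZero p) =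
      discClass (isEmbAt_placeAt l) t) :
    ‖algebraMap Qb (Cl l) t.1‖ ≤ ‖((l : ℕ) : Cl l)‖ := by
  rcases eq_or_ne t.1 0 with h0 | h0
  · rw [h0, map_zero, norm_zero]
    exact norm_nonneg _
  have hplace : ∀ σ : GQ, galAut p Qb σ • discPlace p (isEmbAt_placeAt l) t =
      discPlace p (isEmbAt_placeAt l) t := fun σ =>
    placeCls_injective hg (discPlace p (isEmbAt_placeAt l) t0) (by
      rw [← smul_placeCls (gal_discPlace_t0 p σ)]
      exact hfix σ)
  obtain ⟨c, hc⟩ := FA.Local.exists_ratCast_of_fixed t.1 (param_rational p hplace)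
  have hc0 : c ≠ 0 := fun h => h0 (by rw [← hc, h, Rat.cast_zero])
  obtain ⟨k, hk⟩ := exists_norm_ratCast_eq l hc0
  have hn : ‖algebraMap Qb (Cl l) t.1‖ = ‖((l : ℕ) : Cl l)‖ ^ k := by rw [← hc, map_ratCast, hk]
  have hlt := t.2
  rw [hn] at hlt ⊢
  have hk0 : 0 < k := (zpow_lt_one_iff_right_of_lt_one₀ (norm_natCast_pos l)
    (norm_natCast_lt_one l)).1 hlt
  conv_rhs => rw [← zpow_one ‖((l : ℕ) : Cl l)‖]
  exact zpow_le_zpow_right_of_le_one₀ (norm_natCast_pos l) (norm_natCast_lt_one l).le (by omega)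

/-- **Rank zero in genus one at the Eisenstein prime `2`**: every rational class is torsion. -/
theorem isOfFinAddOrder_of_fixed_two [Algebra (AlgebraicClosure ℚ) (PadicComplex 2)]
    (h2p : ¬ 2 ∣ p) (hg : genus Qb (levelField p Qb) = 1) (hn : 2 ∣ eisensteinNumerator p)
    {x : JZero p} (hfix : ∀ σ : GQ, σ • x = x) : IsOfFinAddOrder x := by
  haveI : Fact (Nat.Prime 2) := ⟨Nat.prime_two⟩
  obtain ⟨m, hm, hmem⟩ := exists_nsmul_mem_discJ (p := p) (l := 2) h2p
  have hzfix : ∀ (k : ℕ) (σ : GQ), σ • (k • x) = k • x := fun k σ =>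
    ((DistribSMul.toAddMonoidHom (JZero p) σ).map_nsmul k x).trans (congrArg (k • ·) (hfix σ))
  have hz : m • x ∈ discJ (p := p) (l := 2) h2p :=
    hmem x (by rw [hfix, sub_self]; exact zero_mem _)
  obtain ⟨t, ht⟩ := exists_discClass_eq h2p hg hz
  obtain ⟨s, hs⟩ := exists_discClass_eq h2p hg (AddSubgroup.nsmul_mem _ hz 2)
  have htfix : ∀ σ : GQ, σ • (discClass (isEmbAt_placeAt 2) t : JZero p) =
      discClass (isEmbAt_placeAt 2) t := fun σ => by rw [← ht]; exact hzfix m σ
  have hsfix : ∀ σ : GQ, σ • (discClass (isEmbAt_placeAt 2) s : JZero p) =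
      discClass (isEmbAt_placeAt 2) s := fun σ => by
    rw [← hs, smul_smul]; exact hzfix _ σ
  obtain ⟨L, hL⟩ := exists_twist_unit hn h2p
  have h2 : (⟨discClass (isEmbAt_placeAt 2) s, discClass_mem_discJ h2p s⟩ :
      discJ (p := p) (l := 2) h2p) =
        2 • ⟨discClass (isEmbAt_placeAt 2) t, discClass_mem_discJ h2p t⟩ := Subtype.ext (by
    rw [AddSubgroupClass.coe_nsmul]
    exact hs.symm.trans (congrArg (2 • ·) ht))
  have hU := congrArg (fun a => ((discExp hn h2p L a).toMul : Cl 2)) h2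
  simp only [map_nsmul, toMul_nsmul, Units.val_pow_eq_pow_val] at hU
  set U := ((discExp hn h2p L ⟨discClass (isEmbAt_placeAt 2) t,
    discClass_mem_discJ h2p t⟩).toMul : Cl 2)
  have h1 : ‖U - 1‖ ≤ ‖((2 : ℕ) : Cl 2)‖ :=
    (norm_discExp_sub_one hn h2p hL t).le.trans (norm_param_le hg t htfix)
  have hsmall : ‖algebraMap Qb (Cl 2) s.1‖ ≤ ‖(4 : Cl 2)‖ := by
    rw [← norm_discExp_sub_one hn h2p hL s, hU,
      show U ^ 2 - 1 = (U - 1) * ((U - 1) + ((2 : ℕ) : Cl 2)) by push_cast; ring, norm_mul,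
      show (4 : Cl 2) = ((2 : ℕ) : Cl 2) * ((2 : ℕ) : Cl 2) by norm_num, norm_mul]
    exact mul_le_mul h1 ((IsUltrametricDist.norm_add_le_max _ _).trans (max_le h1 le_rfl))
      (norm_nonneg _) (norm_nonneg _)
  letI : Algebra (AlgebraicClosure ℚ) (PadicComplex p) :=
    (IsAlgClosed.lift : AlgebraicClosure ℚ →ₐ[ℚ] PadicComplex p).toRingHom.toAlgebra
  have h0 := eq_zero_of_rational_discClass h2p (placeAt_liesOver p) hn s hsfix (Or.inr hsmall)
  obtain rfl : s = t0 := Subtype.ext h0
  refine isOfFinAddOrder_iff_nsmul_eq_zero.2 ⟨2 * m, by omega, ?_⟩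
  rw [mul_smul, hs]
  exact placeCls_self (discPlace p (isEmbAt_placeAt 2) t0)

end FA.CuspClass

end
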