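import Fermat.Agent.CuspClass.RationalTorsion
import Fermat.Agent.EisReducible.ConnGenerators

/-!
# The Hecke operators on rational torsion

Reduction at an odd prime `l ∤ N` is injective on rational torsion, the `l`-part included, as a
group of order `l` with trivial inertia has no connected model. By the congruence relation
`T_q = 1 + q` there, for every odd prime `q ∤ N` and every order.
-/

set_option autoImplicit false
set_option linter.style.haveILetI false
set_option linter.unusedSectionVars false
set_option synthInstance.maxHeartbeats 400000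
set_option maxHeartbeats 1000000

noncomputable section

open ModularCurve FA.JTorsion FA.ModField FA.LocalDef

namespace FA.CuspClass

local notation "Qb" => AlgebraicClosure ℚ
local notation "GQ" => AlgebraicClosure ℚ ≃ₐ[ℚ] AlgebraicClosure ℚ

variable (N : ℕ) [NeZero N] {l : ℕ} [hl : Fact l.Prime]

theorem gal_nsmul {x : JZero N} (hfix : ∀ σ : GQ, σ • x = x) (k : ℕ) (σ : GQ) :
    σ • (k • x) = k • x :=
  ((DistribSMul.toAddMonoidHom (JZero N) σ).map_nsmul k x).trans (congrArg (k • ·) (hfix σ))

/-- A rational class of order `l` does not reduce to zero. -/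
theorem eq_zero_of_fixed_of_nsmul (hl2 : l ≠ 2) (hlN : ¬ l ∣ N) {A : ValuationSubring Qb}
    (hA : A.LiesOverPrime l) {x : JZero N} (hlx : l • x = 0) (hfix : ∀ σ : GQ, σ • x = x)
    (hred : reductionModL A N x = 0) : x = 0 := by
  set V := AddSubgroup.zmultiples x
  have hV : ∀ z : V, l • z = 0 := fun z => by
    obtain ⟨k, hk⟩ := AddSubgroup.mem_zmultiples_iff.1 z.2
    refine Subtype.ext ?_
    rw [AddSubmonoidClass.coe_nsmul, ← hk, smul_comm, hlx, smul_zero, ZeroMemClass.coe_zero]
  haveI : Finite V := Set.Finite.to_subtype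
    (finite_zmultiples.2 (isOfFinAddOrder_iff_nsmul_eq_zero.2 ⟨l, hl.out.pos, hlx⟩))
  letI : Fintype V := Fintype.ofFinite _
  have hconn : HasConnModel A V fun _ z => z :=
    FA.EisReducible.hasConnModel_of_reduction_eq_zero N hlN hA V.subtype Subtype.val_injective
      (fun _ z => z) (fun σ _ z => by
        obtain ⟨k, hk⟩ := AddSubgroup.mem_zmultiples_iff.1 z.2
        show (z : JZero N) = σ • (z : JZero N)
        rw [← hk]
        exact (((DistribSMul.toAddMonoidHom (JZero N) σ).map_zsmul k x).trans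
          (congrArg (k • ·) (hfix σ))).symm)
      (fun z => by
        obtain ⟨k, hk⟩ := AddSubgroup.mem_zmultiples_iff.1 z.2
        show reductionModL A N (z : JZero N) = 0
        rw [← hk, map_zsmul, hred, smul_zero])
  exact congrArg Subtype.val
    (hconn.eq_zero_of_trivial hA hl2 hV (fun _ _ _ => rfl) ⟨x, AddSubgroup.mem_zmultiples x⟩)

/-- **Reduction at an odd prime `l ∤ N` is injective on rational torsion.** -/
theorem eq_zero_of_fixed_of_reduction (hl2 : l ≠ 2) (hlN : ¬ l ∣ N) {A : ValuationSubring Qb}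
    (hA : A.LiesOverPrime l) {x : JZero N} (hx : IsOfFinAddOrder x)
    (hfix : ∀ σ : GQ, σ • x = x) (hred : reductionModL A N x = 0) : x = 0 := by
  obtain ⟨a, m, hm, hn⟩ :=
    Nat.exists_eq_pow_mul_and_not_dvd hx.addOrderOf_pos.ne' l hl.out.ne_one
  have hprime : l ^ a • x = 0 := eq_zero_of_reductionModL N hlN hA
    (FA.CurveRed.Modular.reductionInputsModL N hl.out hlN A hA) hm
    (by rw [smul_smul, mul_comm, ← hn, addOrderOf_nsmul_eq_zero])
    (by rw [map_nsmul, hred, smul_zero])
  have key : ∀ b : ℕ, l ^ b • x = 0 → x = 0 := by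
    intro b
    induction b with
    | zero => simp
    | succ b ih =>
      intro h
      refine ih (eq_zero_of_fixed_of_nsmul N hl2 hlN hA ?_ (gal_nsmul N hfix _) ?_)
      · rw [smul_smul, ← pow_succ', h]
      · rw [map_nsmul, hred, smul_zero]
  exact key a hprime

/-- **`T_q = 1 + q` on rational torsion**, for odd primes `q ∤ N`. -/
theorem hecke_eq_of_fixed [Algebra Qb ℂ] [NeZero l] (hl2 : l ≠ 2) (hlN : ¬ l ∣ N) {x : JZero N}
    (hx : IsOfFinAddOrder x) (hfix : ∀ σ : GQ, σ • x = x) :
    heckeLvl N l x = (1 + l) • x := by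
  obtain ⟨A, hA⟩ := FA.Deform.exists_liesOverPrime hl.out
  obtain ⟨σ, hσ⟩ := FA.Deform.exists_isFrobeniusAt hl.out hA
  obtain ⟨n, hn, hnx⟩ := isOfFinAddOrder_iff_nsmul_eq_zero.1 hx
  let T : JZero N →+ JZero N := heckeOperatorAlong Qb N l
  have hT : ∀ τ : GQ, τ • T x = T x := fun τ =>
    ((heckeLvl_galois_smul N l τ x).symm.trans (congrArg (fun y : JZero N => T y) (hfix τ)) :)
  have h : reductionModL A N (T (σ • x)) =
      reductionModL A N (σ • σ • x) + l • reductionModL A N x := reductionModL_frobenius N hlN hA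
    (FA.CurveRed.Modular.reductionInputsModL N hl.out hlN A hA) hσ x
  show T x = (1 + l) • x
  refine sub_eq_zero.1 (eq_zero_of_fixed_of_reduction N hl2 hlN hA
    (isOfFinAddOrder_iff_nsmul_eq_zero.2 ⟨n, hn, ?_⟩) (fun τ => ?_) ?_)
  · rw [nsmul_sub, ← map_nsmul, smul_comm n (1 + l), hnx, map_zero, smul_zero, sub_zero]
  · exact (map_sub (DistribSMul.toAddMonoidHom (JZero N) τ) _ _).trans
      (congrArg₂ (· - ·) (hT τ) (gal_nsmul N hfix _ τ))
  · rw [hfix, hfix] at h
    rw [map_sub, map_nsmul, h, add_smul, one_smul, sub_self]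

end FA.CuspClass

end
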