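import Fermat.Agent.CuspClass.GenusOnePlaces
import Fermat.Agent.Mazur.Moduli.StableLine
import Fermat.Agent.Root.SummaryExceptionalIsogeny
import Fermat.Agent.Root.SummarySupersingular

/-!
# Invariants with a stable subgroup of order `p`, counted by rational places

The invariants other than `0` and `1728` with a Galois stable subgroup of order `p` give distinct
rational places of level `p` at which `j` has no pole; for `p ≥ 5` neither `0` nor `1728` occurs.
-/

set_option autoImplicit false
set_option linter.style.haveILetI false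
set_option linter.unusedSectionVars false
set_option synthInstance.maxHeartbeats 400000
set_option maxHeartbeats 1600000

noncomputable section

open ModularCurve AlgebraicCurve FA.Curve FA.ModField FA.Level FA.JTorsion FA.Mazur WeierstrassCurve
open scoped WeierstrassCurve.Affine

local notation "Qb" => AlgebraicClosure ℚ
local notation "GQ" => AlgebraicClosure ℚ ≃ₐ[ℚ] AlgebraicClosure ℚ

namespace FA.CuspClass

variable {p : ℕ} [hp : Fact p.Prime]

/-- No stable subgroup of prime order `p ≥ 5` for `j = 0` or `1728`. -/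
theorem j_ne_of_stable (hp5 : 5 ≤ p) (E : WeierstrassCurve ℚ) [E.IsElliptic]
    (G : AddSubgroup (E.toAffine⁄Qb).Point) (hcard : Nat.card G = p)
    (hst : ∀ σ : GQ, ∀ P ∈ G, Affine.Point.map σ.toAlgHom P ∈ G) : E.j ≠ 0 ∧ E.j ≠ 1728 := by
  constructor <;> intro hj
  · refine FA.ExceptionalIsogeny.false_of_stable E (d := -3) ?_ (by norm_num) (fun q hq _ hns =>
      FA.CM.Supersingular.coeff_eq_zero_zero E (E.j_eq_zero_iff.1 hj) hq.out hns) (l := p)
      hp.out (by omega) (fun h => ?_) G hcard hst
    · exact Int.squarefree_natAbs.1 (show Squarefree 3 from Nat.prime_three.squarefree)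
    · rw [dvd_neg] at h
      have := Nat.le_of_dvd (by norm_num) (Int.natCast_dvd_natCast.1 h : p ∣ 3)
      omega
  · refine FA.ExceptionalIsogeny.false_of_stable E (d := -1) ?_ (by norm_num) (fun q hq _ hns =>
      FA.CM.Supersingular.coeff_eq_zero_1728 E hj hq.out fun h4 => hns ?_) (l := p)
      hp.out (by omega) (fun h => ?_) G hcard hst
    · exact Int.squarefree_natAbs.1 squarefree_one
    · rcases eq_or_ne q 2 with rfl | h2
      · exact ⟨1, rfl⟩
      · obtain ⟨s, hs⟩ := h4
        have h20 : (2 : ZMod q) ≠ 0 := Ring.two_ne_zero ((ZMod.ringChar_zmod_n q).trans_ne h2)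
        refine ⟨s / 2, ?_⟩
        push_cast at hs ⊢
        field_simp
        linear_combination hs
    · rw [dvd_neg] at h
      exact hp.out.not_dvd_one (Int.natCast_dvd_natCast.1 h)

/-- **The invariants inject into the rational places without a pole of `j`.** -/
theorem isogeny_card_le (hp5 : 5 ≤ p) [Algebra Qb ℂ]
    (hfin : Finite {v : Place Qb (levelField p Qb) //
      (∀ σ : GQ, galAut p Qb σ • v = v) ∧ 0 ≤ v.ord (upJ (L := Qb) p)})
    (s : Finset ℚ)
    (h : ∀ j ∈ s, ∃ (E : WeierstrassCurve ℚ) (_ : E.IsElliptic)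
      (G : AddSubgroup (E.toAffine⁄Qb).Point), E.j = j ∧ Nat.card G = p ∧
        ∀ σ : GQ, ∀ P ∈ G, Affine.Point.map σ.toAlgHom P ∈ G) :
    s.card ≤ Nat.card {v : Place Qb (levelField p Qb) //
      (∀ σ : GQ, galAut p Qb σ • v = v) ∧ 0 ≤ v.ord (upJ (L := Qb) p)} := by
  have key : ∀ j : s, ∃ v : {v : Place Qb (levelField p Qb) //
      (∀ σ : GQ, galAut p Qb σ • v = v) ∧ 0 ≤ v.ord (upJ (L := Qb) p)},
      HasValue (v : Place Qb (levelField p Qb)) (upJ (L := Qb) p)⁻¹
        (algebraMap ℚ Qb ((j : ℚ))⁻¹) := by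
    rintro ⟨j, hj⟩
    obtain ⟨E, hE, G, rfl, hcard, hst⟩ := h j hj
    obtain ⟨hj0, hj1⟩ := j_ne_of_stable hp5 E G hcard hst
    obtain ⟨v, hv, hval, -⟩ := FA.Mazur.stableLinePlace E hj0 hj1 G hcard hst
    have h0 : algebraMap ℚ Qb E.j⁻¹ ≠ 0 := (map_ne_zero _).2 (inv_ne_zero hj0)
    have hord := hval.ord_eq_zero h0
    rw [Place.ord_inv, neg_eq_zero] at hord
    exact ⟨⟨v, hv, hord.2.ge⟩, hval⟩
  choose φ hφ using key
  have hinj : Function.Injective φ := fun a b hab => by
    refine Subtype.ext (inv_injective ((algebraMap ℚ Qb).injective ?_))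
    exact (hφ a).unique (hab ▸ hφ b)
  have := Nat.card_le_card_of_injective φ hinj
  rwa [Nat.card_eq_finsetCard] at this

end FA.CuspClass

end
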