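import Fermat.Agent.CuspClass.EisensteinKill
import Fermat.Agent.Tau.LevelPModP
import Fermat.Agent.Tau.WeightSucc
import Fermat.Agent.Tau.PrimeLevelDuality

/-!
# No rational `p`-torsion on `J₀(p)`

A system of the Hecke algebra in characteristic `p` with `T_q = 1 + q` away from `p` has `U = ± 1`.
The value `1` needs `p` to divide the numerator, which is smaller; the value `-1` gives a cusp
form `f` of weight `p + 1` modulo `p` with `θ (E₂ + 24 f) = 0`, against Serre's filtration.
-/

set_option autoImplicit false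
set_option linter.style.haveILetI false
set_option linter.unusedSectionVars false
set_option synthInstance.maxHeartbeats 400000
set_option maxHeartbeats 1000000

noncomputable section

open ModularCurve FA.JTorsion FA.Mazur FA.Eis CuspForm

namespace FA.CuspClass

local notation "Qb" => AlgebraicClosure ℚ
local notation "GQ" => AlgebraicClosure ℚ ≃ₐ[ℚ] AlgebraicClosure ℚ

variable {p : ℕ} [hp : Fact p.Prime]

theorem eisensteinNumerator_pos_lt (h5 : 5 ≤ p) :
    0 < eisensteinNumerator p ∧ eisensteinNumerator p < p := by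
  rw [eisensteinNumerator]
  exact ⟨Nat.div_pos (Nat.le_of_dvd (by omega) (Nat.gcd_dvd_left _ _))
      (Nat.gcd_pos_of_pos_right _ (by norm_num)),
    lt_of_le_of_lt (Nat.div_le_self _ _) (by omega)⟩

/-- **There is no Eisenstein system in the characteristic of the level.** -/
theorem not_eisenstein_level_char (h5 : 5 ≤ p) {k : Type} [Field k] [CharP k p]
    (θ : TAlg p →+* k)
    (heis : ∀ q : Nat.Primes, (q : ℕ) ≠ p → θ (tGen p q) = 1 + ((q : ℕ) : k)) : False := by
  classical
  have hsq : θ (tGen p ⟨p, hp.out⟩) * θ (tGen p ⟨p, hp.out⟩) = 1 := by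
    rw [← map_mul, FA.EisReducible.tGen_level_sq, map_one]
  rcases mul_self_eq_one_iff.1 hsq with hu | hu
  · have h := FA.EisReducible.dvd_of_eisenstein_system (l := p) θ fun q => by
      split_ifs with h
      · rw [show q = ⟨p, hp.out⟩ from Subtype.ext h, hu]
      · exact heis q h
    obtain ⟨h0, hlt⟩ := eisensteinNumerator_pos_lt h5
    exact absurd (Nat.le_of_dvd h0 h) (not_le.2 hlt)
  set c := ZMod.castHom (dvd_refl p) k
  let d : ℕ → ZMod p := fun n => (-1) ^ padicValNat p n * (sigP p n : ZMod p)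
  have hd : ∀ n, c (d n) = θ (hCoeff p n) := fun n => by
    rw [FA.EisReducible.value_hCoeff θ hu heis n]
    simp [d, c]
  have hmem : ∀ t, θ t ∈ c.range := fun t => by
    have ht : t ∈ Submodule.span ℤ (Set.range (hCoeff p)) := (span_hCoeff p).symm ▸ trivial
    induction ht using Submodule.span_induction with
    | mem x hx => obtain ⟨n, rfl⟩ := hx; exact ⟨d n, hd n⟩
    | zero => rw [map_zero]; exact zero_mem _
    | add x y _ _ hx hy => rw [map_add]; exact add_mem hx hy
    | smul a x _ hx => rw [map_zsmul]; exact zsmul_mem hx a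
  choose ψ₀ hψ₀ using hmem
  let ψ : TAlg p →+ ZMod p := AddMonoidHom.mk' ψ₀ fun s t => c.injective (by
    rw [map_add, hψ₀, hψ₀, hψ₀, map_add])
  obtain ⟨F, hF⟩ := FA.PrimeLevelDuality.exists_form_mod p ψ
  set f := FA.LevelPModP.redLattice p F
  have hcoef : ∀ n, PowerSeries.coeff n f = d n := fun n => by
    rw [FA.LevelPModP.coeff_redLattice, ← pairT_hCoeff, hF]
    exact c.injective ((hψ₀ _).trans (hd n).symm)
  obtain ⟨hf, hf0⟩ := ((FA.LevelPModP.redLattice_spec h5).1 f).1 ⟨F, rfl⟩
  have he2 : FA.SwinnertonDyer.IsFormModP p (p + 1) (FA.SwinnertonDyer.e2 p) := by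
    rw [← FA.SwinnertonDyer.phi_dOp_hassePoly h5]
    have h := FA.SwinnertonDyer.dOp_isob (FA.SwinnertonDyer.isob_hassePoly (p := p) h5)
    rw [show p - 1 + 2 = p + 1 by omega] at h
    exact FA.SwinnertonDyer.isFormModP_phi h
  set G := FA.SwinnertonDyer.e2 p + (24 : ZMod p) • f
  have hG : FA.SwinnertonDyer.IsFormModP p (p + 1) G :=
    (FA.SupersingularPoints.mem_formSpace h5 _).1 (add_mem
      ((FA.SupersingularPoints.mem_formSpace h5 _).2 he2)
      (Submodule.smul_mem _ _ ((FA.SupersingularPoints.mem_formSpace h5 _).2 hf)))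
  have hG0 : G ≠ 0 := fun h => by
    have := congrArg (PowerSeries.coeff 0) h
    rw [map_add, PowerSeries.coeff_smul, hf0, smul_zero, add_zero, FA.SwinnertonDyer.e2,
      PowerSeries.coeff_map, FA.Tau.eTwoInt, PowerSeries.coeff_mk, if_pos rfl, map_one,
      map_zero] at this
    exact one_ne_zero this
  have hθ : FA.SwinnertonDyer.thetaP p G = 0 := by
    ext n
    rw [map_zero, FA.SwinnertonDyer.thetaP]
    rcases n with _ | n
    · simp
    rw [PowerSeries.coeff_succ_X_mul, PowerSeries.coeff_derivative]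
    by_cases hn : p ∣ n + 1
    · rw [show ((n : ZMod p) + 1) = 0 by exact_mod_cast (CharP.cast_eq_zero_iff _ p _).2 hn,
        mul_zero]
    · have hσ := congrArg (fun z : ℤ => (z : ZMod p)) (sigma_one_eq p (n + 1))
      simp only [if_neg hn, add_zero, Int.cast_natCast] at hσ
      have : PowerSeries.coeff (n + 1) G = 0 := by
        simp only [G, map_add, PowerSeries.coeff_smul, hcoef, d, smul_eq_mul,
          padicValNat.eq_zero_of_not_dvd hn, pow_zero, one_mul, ← hσ]
        simp [FA.SwinnertonDyer.e2, FA.Tau.eTwoInt]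
      rw [this, zero_mul]
  have hleast := (FA.SwinnertonDyer.filtration_theta h5 hG0
    (FA.SwinnertonDyer.isLeast_succ h5 hG hG0)).2 fun h => by
      have := Nat.le_of_dvd one_pos ((Nat.dvd_add_right (dvd_refl p)).1 h)
      omega
  rw [hθ] at hleast
  have h0 : (0 : ℕ) ∈ {n | FA.SwinnertonDyer.IsFormModP p n (0 : PowerSeries (ZMod p))} :=
    ⟨0, 0, by simp [UpperHalfPlane.qExpansion_zero], by simp⟩
  have := hleast.2 h0
  omega

variable [Algebra Qb ℂ]

/-- **`J₀(p)` has no rational point of order `p`.** -/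
theorem eq_zero_of_fixed_level (h5 : 5 ≤ p) [NeZero p] {x : JZero p} (hpx : p • x = 0)
    (hfix : ∀ σ : GQ, σ • x = x) : x = 0 := by
  obtain ⟨q₀, rfl⟩ := FA.EisReducible.exists_toTors_eq_of_nsmul p p x hpx
  by_contra hne
  have hq0 : q₀ ≠ 0 := fun h => hne (by rw [h, map_zero])
  have hT : ∀ r : Nat.Primes, (r : ℕ) ≠ p → tGen p r • q₀ = (1 + (r : ℕ)) • q₀ := fun r hr => by
    have hrN : ¬ (r : ℕ) ∣ p := fun h => hr ((Nat.prime_dvd_prime_iff_eq r.2 hp.out).1 h)
    rw [show tGen p r = CuspForm.heckeAlgebra.T (k := 2) r.2 hrN (Set.notMem_empty _) from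
      CuspForm.heckeEvalForms_heckeGen_of_not_dvd (ℓ := r) hrN]
    exact heckeT_smul_of_fixed p p q₀ hfix r.2 hrN hrN
  let I : Ideal (TAlg p) :=
    { carrier := {t | t • q₀ = 0}
      add_mem' := fun {s t} (hs : s • q₀ = 0) (ht : t • q₀ = 0) =>
        show (s + t) • q₀ = 0 by rw [add_smul, hs, ht, add_zero]
      zero_mem' := zero_smul _ q₀
      smul_mem' := fun s t (ht : t • q₀ = 0) =>
        show (s * t) • q₀ = 0 by rw [mul_smul, ht, smul_zero] }
  have hI : I ≠ ⊤ := fun h => hq0 (by
    have h1 : (1 : TAlg p) • q₀ = 0 := (h.symm ▸ Submodule.mem_top : (1 : TAlg p) ∈ I)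
    rwa [one_smul] at h1)
  obtain ⟨m, hm, hIm⟩ := Ideal.exists_le_maximal I hI
  letI := Ideal.Quotient.field m
  set θ : TAlg p →+* TAlg p ⧸ m := Ideal.Quotient.mk m
  have hkill : ∀ t : TAlg p, t • q₀ = 0 → θ t = 0 := fun t ht =>
    Ideal.Quotient.eq_zero_iff_mem.2 (hIm ht)
  haveI : CharP (TAlg p ⧸ m) p := by
    refine (CharP.charP_iff_prime_eq_zero hp.out).2 ?_
    rw [← map_natCast θ]
    refine hkill _ ?_
    rw [Nat.cast_smul_eq_nsmul]
    exact toTors_injective p (∅ : Set ℕ) p (by rw [map_nsmul, nsmul_toTors, map_zero])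
  refine not_eisenstein_level_char h5 θ fun r hr => ?_
  have h := hT r hr
  rw [← Nat.cast_smul_eq_nsmul (TAlg p), ← sub_eq_zero, ← sub_smul] at h
  have h' := hkill _ h
  rwa [map_sub, sub_eq_zero, map_natCast, Nat.cast_add, Nat.cast_one] at h'

end FA.CuspClass

end
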