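import Fermat.Agent.CurveRed.Separable
import Fermat.Agent.Mazur.Formal
import Fermat.Agent.ModField.Igusa.Series

/-!
# Reductions of series up to constants and their logarithmic derivatives

`SR π f r`: up to a constant `f` is the quotient of two integral series with reduction `r ≠ 0`.
Such `r` is unique up to a constant, so `θ r / r` only depends on `f`; it carries products to sums
and commutes with the homomorphisms of series.
-/

set_option autoImplicit false
set_option linter.style.haveILetI false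
set_option linter.unusedSectionVars false

noncomputable section

namespace FA.CuspClass

open ModularCurve FA.ModField HahnSeries

section Dlog

variable {k : Type} [Field k]

/-- `θ r / r`. -/
def dlog (r : LaurentSeries k) : LaurentSeries k := thetaFun r * r⁻¹

theorem dlog_mul {r s : LaurentSeries k} (hr : r ≠ 0) (hs : s ≠ 0) :
    dlog (r * s) = dlog r + dlog s := by
  rw [dlog, dlog, dlog, thetaFun_mul, mul_inv]
  field_simp
  ring

theorem dlog_C (a : k) : dlog (C a) = 0 := by rw [dlog, thetaFun_C, zero_mul]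

theorem dlog_one : dlog (1 : LaurentSeries k) = 0 := by
  rw [dlog, FA.CurveRed.theta_one, zero_mul]

theorem dlog_const_mul {a : k} {r : LaurentSeries k} (ha : a ≠ 0) (hr : r ≠ 0) :
    dlog (C a * r) = dlog r := by
  rw [dlog_mul (C_ne_zero ha) hr, dlog_C, zero_add]

theorem dlog_pow {r : LaurentSeries k} (hr : r ≠ 0) (n : ℕ) : dlog (r ^ n) = n • dlog r := by
  induction n with
  | zero => rw [pow_zero, dlog_one, zero_smul]
  | succ n ih => rw [pow_succ, dlog_mul (pow_ne_zero n hr) hr, ih, succ_nsmul]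

theorem dlog_pow_char {r : LaurentSeries k} (hr : r ≠ 0) (l : ℕ) [CharP k l] :
    dlog (r ^ l) = 0 := by
  rw [dlog_pow hr]
  ext n
  rw [coeff_smul, nsmul_eq_mul, CharP.cast_eq_zero k l, zero_mul, coeff_zero]

theorem dlog_prod {ι : Type} (s : Finset ι) (f : ι → LaurentSeries k) (hf : ∀ i, f i ≠ 0) :
    dlog (∏ i ∈ s, f i) = ∑ i ∈ s, dlog (f i) := by
  classical
  induction s using Finset.induction_on with
  | empty => rw [Finset.prod_empty, Finset.sum_empty, dlog_one]
  | insert i s hi ih =>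
    rw [Finset.prod_insert hi, Finset.sum_insert hi,
      dlog_mul (hf i) (Finset.prod_ne_zero_iff.2 fun j _ => hf j), ih]

theorem dlog_twist (c : kˣ) (r : LaurentSeries k) : dlog (twist c r) = twist c (dlog r) := by
  rw [dlog, dlog, thetaFun_twist, map_mul, map_inv₀]

theorem dlog_qExpand (e : ℕ) [NeZero e] (r : LaurentSeries k) :
    dlog (qExpand k e r) = C (e : k) * qExpand k e (dlog r) := by
  rw [dlog, dlog, thetaFun_qExpand, map_mul, map_inv₀, mul_assoc]

theorem dlog_coeffMap (φ : k →+* k) (r : LaurentSeries k) :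
    dlog (coeffMap φ r) = coeffMap φ (dlog r) := by
  rw [dlog, dlog, map_mul, map_inv₀]
  congr 1
  ext n
  simp [thetaFun_coeff]

theorem coeff_dlog_neg {r : LaurentSeries k} (hr : r ≠ 0) {n : ℤ} (hn : n < 0) :
    (dlog r).coeff n = 0 := by
  have h := OrdGE.mul (thetaFun_ordGE ((ordGE_iff_le_order hr).2 le_rfl))
    ((ordGE_iff_le_order (inv_ne_zero hr)).2 le_rfl)
  refine h n ?_
  have := order_mul hr (inv_ne_zero hr)
  rw [mul_inv_cancel₀ hr, order_one] at this
  omega

/-- A logarithmic derivative in `k((q ^ l))` of a series of order a multiple of `l` vanishes. -/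
theorem thetaFun_eq_zero_of_dlog (l : ℕ) [CharP k l] {r : LaurentSeries k} (hr : r ≠ 0)
    (hord : (l : ℤ) ∣ r.order) (h : ∀ n : ℤ, ¬ (l : ℤ) ∣ n → (dlog r).coeff n = 0) :
    thetaFun r = 0 := by
  classical
  have hnat : ∀ n : ℤ, (l : ℤ) ∣ n → (n : k) = 0 := fun n hn =>
    (CharP.intCast_eq_zero_iff k l n).2 hn
  have hmul : thetaFun r = dlog r * r := by rw [dlog, inv_mul_cancel_right₀ hr]
  set r0 : LaurentSeries k :=
    { coeff := fun n => if (l : ℤ) ∣ n then r.coeff n else 0
      isPWO_support' := r.isPWO_support.mono fun n hn => by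
        simp only [Function.mem_support] at hn ⊢
        split_ifs at hn with hd
        · exact hn
        · exact absurd rfl hn } with hr0
  have hr0ne : r0 ≠ 0 := fun h0 => coeff_order_eq_zero.not.2 hr (by
    have := congrArg (fun z : LaurentSeries k => z.coeff r.order) h0
    simpa [hr0, hord] using this)
  have key : dlog r * r0 = 0 := by
    ext n
    rw [coeff_zero, coeff_mul]
    by_cases hn : (l : ℤ) ∣ n
    · have h1 : (dlog r * r).coeff n = 0 := by
        rw [← hmul, thetaFun_coeff, hnat n hn, zero_mul]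
      rw [coeff_mul] at h1
      refine (Finset.sum_subset_zero_on_sdiff ?_ ?_ ?_).trans h1
      · intro ij hij
        simp only [Finset.mem_antidiagonal, mem_support, hr0] at hij ⊢
        exact ⟨hij.1, fun h2 => hij.2.1 (by simp [h2]), hij.2.2⟩
      · intro ij hij
        simp only [Finset.mem_sdiff, Finset.mem_antidiagonal, mem_support, hr0, not_and] at hij
        by_cases hi : (l : ℤ) ∣ ij.1
        · have hj : (l : ℤ) ∣ ij.2 := by
            rw [show ij.2 = n - ij.1 by linarith [hij.1.2.2]]; exact dvd_sub hn hi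
          exact absurd hij.1.2.2 (hij.2 hij.1.1 (by simpa [hj] using hij.1.2.1))
        · rw [h _ hi, zero_mul]
      · intro ij hij
        simp only [Finset.mem_antidiagonal, mem_support, hr0] at hij ⊢
        by_cases hj : (l : ℤ) ∣ ij.2
        · simp [hj]
        · simp [hj] at hij
    · refine Finset.sum_eq_zero fun ij hij => ?_
      simp only [Finset.mem_antidiagonal, mem_support, hr0] at hij ⊢
      by_cases hi : (l : ℤ) ∣ ij.1
      · have hj : ¬ (l : ℤ) ∣ ij.2 := fun hj => hn (hij.2.2 ▸ dvd_add hi hj)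
        simp [hj]
      · rw [h _ hi, zero_mul]
  rw [hmul, (mul_eq_zero.1 key).resolve_right hr0ne, zero_mul]

end Dlog

section Rel

variable {L : Type} [Field L] {A : ValuationSubring L} {k : Type} [Field k] (π : A →+* k)

local notation "ιA" => coeffMap (A.subtype : A →+* L)
local notation "ρA" => coeffMap π

/-- Up to a constant `f` is a quotient of integral series with reduction `r ≠ 0`. -/
def SR (f : LaurentSeries L) (r : LaurentSeries k) : Prop :=
  r ≠ 0 ∧ ∃ c : L, c ≠ 0 ∧ ∃ Y Y' : LaurentSeries A,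
    ρA Y' ≠ 0 ∧ f * ιA Y' = C c * ιA Y ∧ r * ρA Y' = ρA Y

variable {π}

theorem SR.mul {f g : LaurentSeries L} {r s : LaurentSeries k} (h : SR π f r) (h' : SR π g s) :
    SR π (f * g) (r * s) := by
  obtain ⟨hr, c, hc, Y, Y', hY', hf, hrY⟩ := h
  obtain ⟨hs, d, hd, Z, Z', hZ', hg, hsZ⟩ := h'
  refine ⟨mul_ne_zero hr hs, c * d, mul_ne_zero hc hd, Y * Z, Y' * Z', ?_, ?_, ?_⟩
  · rw [map_mul]; exact mul_ne_zero hY' hZ'
  · rw [map_mul, map_mul, map_mul, mul_mul_mul_comm, hf, hg, mul_mul_mul_comm]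
  · rw [map_mul, map_mul, mul_mul_mul_comm, hrY, hsZ]

theorem sr_const {c : L} (hc : c ≠ 0) : SR π (C c) 1 :=
  ⟨one_ne_zero, c, hc, 1, 1, by rw [map_one]; exact one_ne_zero, by simp, by simp⟩

theorem sr_one : SR π (1 : LaurentSeries L) 1 := by simpa using sr_const (π := π) one_ne_zero

theorem SR.pow {f : LaurentSeries L} {r : LaurentSeries k} (h : SR π f r) :
    ∀ n : ℕ, SR π (f ^ n) (r ^ n)
  | 0 => by simpa using sr_one
  | n + 1 => by simpa [pow_succ] using (h.pow n).mul h

theorem sr_prod {ι : Type} (s : Finset ι) {f : ι → LaurentSeries L} {r : ι → LaurentSeries k}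
    (h : ∀ i, SR π (f i) (r i)) : SR π (∏ i ∈ s, f i) (∏ i ∈ s, r i) := by
  classical
  induction s using Finset.induction_on with
  | empty => simpa using sr_one
  | insert i s hi ih =>
    rw [Finset.prod_insert hi, Finset.prod_insert hi]
    exact (h i).mul ih

theorem sr_unique_aux {Y₁ Y₁' Y₂ Y₂' : LaurentSeries A} {r₁ r₂ : LaurentSeries k} {a : A}
    (hr₂ : r₂ ≠ 0) (h₁ : r₁ * ρA Y₁' = ρA Y₁) (h₂ : r₂ * ρA Y₂' = ρA Y₂)
    (hY₁ : ρA Y₁' ≠ 0) (hY₂ : ρA Y₂' ≠ 0)
    (h : C (a : L) * (ιA Y₁ * ιA Y₂') = ιA Y₂ * ιA Y₁') :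
    dlog r₂ = dlog r₁ := by
  have hA : C a * (Y₁ * Y₂') = Y₂ * Y₁' :=
    coeffMap_injective' A.subtype_injective
      (by rw [map_mul, map_mul, map_mul, FA.ModField.coeffMap_C]; exact h)
  have hk := congrArg ρA hA
  rw [map_mul, map_mul, map_mul, FA.ModField.coeffMap_C, ← h₁, ← h₂] at hk
  have e : r₂ = C (π a) * r₁ :=
    mul_right_cancel₀ (mul_ne_zero hY₁ hY₂) (by linear_combination -hk)
  have h0 : C (π a) ≠ 0 ∧ r₁ ≠ 0 := mul_ne_zero_iff.1 (e ▸ hr₂)
  rw [e, dlog_const_mul (fun h0' => h0.1 (by rw [h0', map_zero])) h0.2]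

/-- The logarithmic derivative of the reduction only depends on the series. -/
theorem SR.dlog_eq {f : LaurentSeries L} {r r' : LaurentSeries k} (h : SR π f r)
    (h' : SR π f r') : dlog r = dlog r' := by
  obtain ⟨hr, c, hc, Y, Y', hY', hf, hrY⟩ := h
  obtain ⟨hs, d, hd, Z, Z', hZ', hg, hsZ⟩ := h'
  have e : C c * (ιA Y * ιA Z') = C d * (ιA Z * ιA Y') := by
    linear_combination ιA Y' * hg - ιA Z' * hf
  rcases A.mem_or_inv_mem (c / d) with hm | hm
  · refine (sr_unique_aux (a := ⟨c / d, hm⟩) hs hrY hsZ hY' hZ' ?_).symm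
    show C (c / d) * _ = _
    rw [div_eq_mul_inv, mul_comm c, map_mul, mul_assoc, e, ← mul_assoc, ← map_mul,
      inv_mul_cancel₀ hd, map_one, one_mul]
  · refine sr_unique_aux (a := ⟨(c / d)⁻¹, hm⟩) hr hsZ hrY hZ' hY' ?_
    show C (c / d)⁻¹ * _ = _
    rw [inv_div, div_eq_mul_inv, mul_comm d, map_mul, mul_assoc, ← e, ← mul_assoc, ← map_mul,
      inv_mul_cancel₀ hc, map_one, one_mul]

/-- Compatible homomorphisms of series carry the relation along. -/
theorem SR.map {φL : LaurentSeries L →+* LaurentSeries L}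
    {φA : LaurentSeries A →+* LaurentSeries A} {φk : LaurentSeries k →+* LaurentSeries k}
    (φ0 : L →+* L) (hC : ∀ c, φL (C c) = C (φ0 c)) (hι : ∀ Y, ιA (φA Y) = φL (ιA Y))
    (hπ : ∀ Y, ρA (φA Y) = φk (ρA Y)) {f : LaurentSeries L} {r : LaurentSeries k}
    (h : SR π f r) : SR π (φL f) (φk r) := by
  obtain ⟨hr, c, hc, Y, Y', hY', hf, hrY⟩ := h
  refine ⟨(map_ne_zero φk).2 hr, φ0 c, (map_ne_zero φ0).2 hc, φA Y, φA Y', ?_, ?_, ?_⟩
  · rw [hπ]; exact (map_ne_zero φk).2 hY'
  · rw [hι, hι, ← map_mul, hf, map_mul, hC]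
  · rw [hπ, hπ, ← map_mul, hrY]

theorem SR.qExpand (e : ℕ) [NeZero e] {f : LaurentSeries L} {r : LaurentSeries k}
    (h : SR π f r) : SR π (ModularCurve.qExpand L e f) (ModularCurve.qExpand k e r) :=
  h.map (RingHom.id L) (fun c => qExpand_C e c) (fun _ => coeffMap_qExpand _ _ _)
    (fun _ => coeffMap_qExpand _ _ _)

theorem SR.twist (u : Aˣ) {f : LaurentSeries L} {r : LaurentSeries k} (h : SR π f r) :
    SR π (FA.ModField.twist (Units.map (A.subtype : A →+* L).toMonoidHom u) f)
      (FA.ModField.twist (Units.map π.toMonoidHom u) r) :=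
  h.map (φA := FA.ModField.twist u) (RingHom.id L) (fun c => twist_C _ c)
    (fun Y => by ext n; simp [← map_zpow])
    (fun Y => by ext n; simp [← map_zpow])

end Rel

end FA.CuspClass

end
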