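import Fermat.Agent.CuspClass.LogDeriv
import Fermat.Agent.CuspClass.HeckeRational
import Fermat.Agent.ModField.Semistable.Mono.HeckeRed
import Fermat.Agent.ModField.Semistable.PushCompat
import Fermat.Agent.ModField.Semistable.Mono.GenusLevel
import Fermat.Agent.CurveRed.Instance

/-!
# The logarithmic derivative of an `l`-torsion class

`LD x w`: `x = [D]`, `l D` is the divisor of a function and `w = θ r / r` for its reduction `r`
modulo `l`. It is additive and single valued, and turns the Hecke operators into the operators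
`a_n ↦ a_(qn) + q a_(n/q)` on series.
-/

set_option autoImplicit false
set_option linter.style.haveILetI false
set_option linter.unusedSectionVars false
set_option synthInstance.maxHeartbeats 400000
set_option maxHeartbeats 1600000

noncomputable section

namespace FA.CuspClass

open ModularCurve AlgebraicCurve FA.Curve FA.CurveRed FA.ModField FA.JTorsion

local notation "Qb" => AlgebraicClosure ℚ
local notation "GQ" => AlgebraicClosure ℚ ≃ₐ[ℚ] AlgebraicClosure ℚ

variable (N : ℕ) [NeZero N] {l : ℕ} [hl : Fact l.Prime] (A : ValuationSubring Qb)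

local notation "kA" => IsLocalRing.ResidueField A
local notation "πA" => IsLocalRing.residue A
local notation "FF" => levelField N Qb
local notation "Fb" => modularFunctionFieldFullC (IsLocalRing.ResidueField A) N

theorem coe_algebraMap_level (c : Qb) :
    ((algebraMap Qb FF c : FF) : LaurentSeries Qb) = HahnSeries.C c := by
  rw [HahnSeries.C_apply, ← algebraMap_laurentSeries_eq_single]
  rfl

/-- The logarithmic derivative of a class killed by `l`. -/
def LD (x : JZero N) (w : LaurentSeries kA) : Prop :=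
  ∃ (D : Divisor.degZero (K := Qb) (F := FF)) (f : FF) (r : LaurentSeries kA),
    Pic0.mk D = x ∧ f ≠ 0 ∧ (∀ P, (l : ℤ) * (D : Divisor Qb FF) P = P.ord f) ∧
      SR πA (f : LaurentSeries Qb) r ∧ w = dlog r

variable [Algebra Qb ℂ] [CharP (IsLocalRing.ResidueField A) l]
  [IsAlgClosed (IsLocalRing.ResidueField A)]
  (hin : ReductionInputsAlong A (IsLocalRing.residue A) N)

local notation "RR" => redOf N Qb IsLocalRing.residue_surjective residueAt_eq_zero hin

theorem sr_of_red {g : FF} {r : Fb} (h : (RR).Red g r) (hr : r ≠ 0) :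
    SR πA (g : LaurentSeries Qb) (r : LaurentSeries kA) := by
  obtain ⟨hg, rfl⟩ := h
  obtain ⟨y, y', hy', he, he'⟩ : IsQuot (toUp A πA N) (toDown A πA N) g ((RR).red ⟨g, hg⟩) :=
    isQuot_redFun _ _
      (quotData IsLocalRing.residue_surjective residueAt_eq_zero hin.choose_spec.1
        hin.choose_spec.2).u_inj ⟨g, hg⟩
  refine ⟨fun h0 => hr (Subtype.ext h0), 1, one_ne_zero, y, y',
    fun h0 => hy' (Subtype.ext h0), ?_, congrArg Subtype.val he'⟩
  rw [map_one, one_mul]
  exact congrArg Subtype.val he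

include hin in
theorem exists_sr {f : FF} (hf : f ≠ 0) :
    ∃ r : LaurentSeries kA, SR πA (f : LaurentSeries Qb) r := by
  obtain ⟨c, g, r, hc, rfl, hg, hr⟩ := Reduction.exists_scale' (R := RR) hf
  refine ⟨1 * (r : LaurentSeries kA), ?_⟩
  rw [MulMemClass.coe_mul, coe_algebraMap_level]
  exact (sr_const hc).mul (sr_of_red N A hin hg hr)

theorem exists_torsion_rep {x : JZero N} (hlx : l • x = 0) :
    ∃ (D : Divisor.degZero (K := Qb) (F := FF)) (f : FF), Pic0.mk D = x ∧ f ≠ 0 ∧
      ∀ P, (l : ℤ) * (D : Divisor Qb FF) P = P.ord f :=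
  exists_torsion_fn l ⟨x, Pic0.mem_torsion.2 ((natCast_zsmul x l).trans hlx)⟩

include hin in
theorem exists_ld {x : JZero N} (hlx : l • x = 0) : ∃ w, LD (l := l) N A x w := by
  obtain ⟨D, f, hD, hf, hfD⟩ := exists_torsion_rep N hlx
  obtain ⟨r, hr⟩ := exists_sr N A hin hf
  exact ⟨_, D, f, r, hD, hf, hfD, hr, rfl⟩

include hin in
/-- The logarithmic derivative is well defined. -/
theorem LD.unique {x : JZero N} {w w' : LaurentSeries kA} (h : LD (l := l) N A x w)
    (h' : LD (l := l) N A x w') : w = w' := by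
  obtain ⟨D, f, r, hD, hf, hfD, hr, rfl⟩ := h
  obtain ⟨D', f', r', hD', hf', hfD', hr', rfl⟩ := h'
  have e := hD.trans hD'.symm
  rw [Pic0.mk, Pic0.mk, QuotientAddGroup.eq, AddSubgroup.mem_addSubgroupOf] at e
  obtain ⟨g, hg, hgD⟩ := e
  obtain ⟨c, hc, hcf⟩ := exists_const_of_ord_eq (isFunctionField_level Qb N) hf'
    (mul_ne_zero hf (pow_ne_zero l hg)) fun P => by
      rw [P.ord_mul hf (pow_ne_zero l hg), FA.ModField.place_ord_pow, ← hgD P, ← hfD, ← hfD',
        AddSubgroup.coe_add, NegMemClass.coe_neg, Finsupp.add_apply, Finsupp.neg_apply]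
      ring
  obtain ⟨s, hs⟩ := exists_sr N A hin hg
  have hsr : SR πA (f' : LaurentSeries Qb) (1 * (r * s ^ l)) := by
    rw [hcf, MulMemClass.coe_mul, coe_algebraMap_level, MulMemClass.coe_mul,
      SubmonoidClass.coe_pow]
    exact (sr_const hc).mul (hr.mul (hs.pow l))
  rw [← hsr.dlog_eq hr', one_mul, dlog_mul hr.1 (pow_ne_zero l hs.1), dlog_pow_char hs.1,
    add_zero]

variable {N A}

theorem LD.add {x y : JZero N} {w v : LaurentSeries kA} (h : LD (l := l) N A x w)
    (h' : LD (l := l) N A y v) : LD (l := l) N A (x + y) (w + v) := by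
  obtain ⟨D, f, r, hD, hf, hfD, hr, rfl⟩ := h
  obtain ⟨E, g, s, hE, hg, hgE, hs, rfl⟩ := h'
  refine ⟨D + E, f * g, r * s, ?_, mul_ne_zero hf hg, fun P => ?_, ?_,
    (dlog_mul hr.1 hs.1).symm⟩
  · rw [Pic0.mk_add, hD, hE]
  · rw [AddSubgroup.coe_add, Finsupp.add_apply, mul_add, hfD, hgE, P.ord_mul hf hg]
  · rw [MulMemClass.coe_mul]; exact hr.mul hs

theorem ld_zero : LD (l := l) N A (0 : JZero N) 0 :=
  ⟨0, 1, 1, map_zero (QuotientAddGroup.mk' _), one_ne_zero, fun P => by simp,
    by rw [OneMemClass.coe_one]; exact sr_one, dlog_one.symm⟩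

include hin in
theorem LD.zero_val {w : LaurentSeries kA} (h : LD (l := l) N A (0 : JZero N) w) : w = 0 :=
  h.unique N A hin ld_zero

theorem LD.nsmul {x : JZero N} {w : LaurentSeries kA} (h : LD (l := l) N A x w) :
    ∀ n : ℕ, LD (l := l) N A (n • x) (n • w)
  | 0 => by rw [zero_nsmul, zero_nsmul]; exact ld_zero
  | n + 1 => by rw [succ_nsmul, succ_nsmul]; exact (h.nsmul n).add h

include hin in
/-- A Frobenius fixing the class raises the coefficients to the `l`-th power. -/
theorem LD.coeff_pow {σ : GQ} (hσ : A.IsFrobeniusAt σ l) {x : JZero N} {w : LaurentSeries kA}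
    (h : LD (l := l) N A x w) (hx : σ • x = x) (n : ℤ) : (w.coeff n) ^ l = w.coeff n := by
  obtain ⟨D, f, r, hD, hf, hfD, hr, hw⟩ := id h
  choose b hb hbπ using inducesOn_frobenius hσ
  let sA : A →+* A :=
    { toFun := b
      map_one' := Subtype.ext (by rw [hb]; exact map_one σ)
      map_mul' := fun u v => Subtype.ext (by
        rw [MulMemClass.coe_mul, hb, hb, hb]; exact map_mul σ _ _)
      map_zero' := Subtype.ext (by rw [hb]; exact map_zero σ)
      map_add' := fun u v => Subtype.ext (by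
        rw [AddMemClass.coe_add, hb, hb, hb]; exact map_add σ _ _) }
  have hsr : SR πA (coeffMap (σ : Qb →+* Qb) (f : LaurentSeries Qb))
      (coeffMap (frobenius kA l) r) := by
    refine hr.map (φA := coeffMap sA) (σ : Qb →+* Qb) (fun c => ?_) (fun Y => ?_) (fun Y => ?_)
    · exact FA.ModField.coeffMap_C _ c
    · rw [coeffMap_coeffMap, coeffMap_coeffMap]
      exact coeffMap_congr (RingHom.ext fun a => hb a) _
    · rw [coeffMap_coeffMap, coeffMap_coeffMap]
      exact coeffMap_congr (RingHom.ext fun a => hbπ a) _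
  have h' : LD (l := l) N A x (coeffMap (frobenius kA l) w) := by
    refine ⟨SemilinearAut.degZeroSMulHom (galAut N Qb σ) D, galAut N Qb σ • f, _,
      ?_, ?_, fun P => ?_,
      hsr, by rw [hw, dlog_coeffMap]⟩
    · rw [← hx, ← hD]
      exact (SemilinearAut.pic0_smul_mk _ D).symm
    · exact fun h0 => hf (smul_left_cancel _ (h0.trans (smul_zero (galAut N Qb σ)).symm))
    · rw [SemilinearAut.coe_degZeroSMulHom, SemilinearAut.divisor_smul_apply, hfD]
      have := SemilinearAut.ord_smul (galAut N Qb σ) ((galAut N Qb σ)⁻¹ • P) f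
      rw [smul_inv_smul] at this
      exact this.symm
  conv_rhs => rw [h.unique N A hin h']
  rw [coeffMap_coeff, frobenius_def]

theorem sum_twist_coeff {k : Type} [Field k] {r : ℕ} (ζ : kˣ) (hζ : ζ ^ r = 1)
    (w : LaurentSeries k) (n : ℤ) :
    (∑ b : Fin r, twist (ζ ^ (b : ℕ)) w).coeff ((r : ℤ) * n) =
      (r : k) * w.coeff ((r : ℤ) * n) := by
  have h1 : ∀ b : Fin r, (twist (ζ ^ (b : ℕ)) w).coeff ((r : ℤ) * n) = w.coeff ((r : ℤ) * n) :=
    fun b => by
    rw [twist_coeff, zpow_mul, zpow_natCast, ← pow_mul, mul_comm _ r, pow_mul, hζ, one_pow,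
      one_zpow, Units.val_one, one_mul]
  rw [HahnSeries.coeff_sum, Finset.sum_congr rfl fun b _ => h1 b, Finset.sum_const,
    Finset.card_univ, Fintype.card_fin, nsmul_eq_mul]

include hin in
/-- **The logarithmic derivative intertwines the good Hecke operators.** -/
theorem LD.hecke {q : ℕ} [hq : Fact q.Prime] [NeZero q] (hqN : ¬ q ∣ N) (hql : q ≠ l)
    {x : JZero N} {w : LaurentSeries kA} (h : LD (l := l) N A x w) :
    ∃ w', LD (l := l) N A (heckeOperatorAlong Qb N q x) w' ∧ ∀ n : ℤ,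
      w'.coeff n = w.coeff ((q : ℤ) * n) + (q : kA) * (qExpand kA q w).coeff n := by
  obtain ⟨D, f, r, hD, hf, hfD, hr, rfl⟩ := h
  obtain ⟨hα, hβ, hP, hfin, hFI, hN⟩ := heckeInputs_level (L := Qb) N q
  haveI := hP
  obtain ⟨hd, hTD⟩ := FA.ModField.heckeOperatorAlong_mk N Qb q D
  obtain ⟨hn0, hnD⟩ := ord_norm_correspondence (heckeBetaBar Qb N q) (heckeAlphaBar Qb N q)
    hβ hα hfin hN hf hfD
  obtain ⟨r', hr'⟩ := exists_sr N A hin (f := normT N q Qb f) hn0
  refine ⟨dlog r', ⟨⟨_, hd⟩, normT N q Qb f, r', hTD.symm.trans (congrArg _ hD), hn0,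
    fun P => hnD P, hr', rfl⟩, fun n => ?_⟩
  haveI : NeZero (q * q) := ⟨mul_ne_zero hq.out.ne_zero hq.out.ne_zero⟩
  set ζ := zetaK q A πA
  have hprod : SR πA (qExpand Qb q (normT N q Qb f : LaurentSeries Qb))
      (∏ i, conjMap q ζ i r) := by
    rw [qExpand_normT N q Qb hqN (zetaL_spec q Qb)]
    refine sr_prod Finset.univ fun i => ?_
    cases i with
    | none => exact hr.qExpand (q * q)
    | some b =>
      have h := hr.twist (zetaA q A ^ (b : ℕ))
      rwa [map_pow, map_pow, map_zetaA] at h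
  have hne : ∀ i, conjMap q ζ i r ≠ 0 := fun i => (map_ne_zero _).2 hr.1
  have hk : (q : kA) ≠ 0 := fun h0 =>
    hql.symm ((Nat.prime_dvd_prime_iff_eq hl.out hq.out).1 ((CharP.cast_eq_zero_iff kA l q).1 h0))
  have hζ : ζ ^ q = 1 := by
    rw [show ζ = Units.map (πA).toMonoidHom (zetaA q A) from rfl, ← map_pow, zetaA,
      Units.pow_ofPowEqOne, map_one]
  have e := congrArg (fun s : LaurentSeries kA => s.coeff ((q : ℤ) * n))
    ((hr'.qExpand q).dlog_eq hprod)
  simp only [dlog_prod _ _ hne, Fintype.sum_option] at e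
  simp only [conjMap, dlog_twist, dlog_qExpand, HahnSeries.coeff_add, HahnSeries.C_mul_eq_smul,
    HahnSeries.coeff_smul, smul_eq_mul, qExpand_coeff_mul, sum_twist_coeff ζ hζ] at e
  rw [← qExpand_qExpand (R := kA) (N := q) q, qExpand_coeff_mul, Nat.cast_mul] at e
  exact mul_left_cancel₀ hk (by linear_combination e)

section Level

variable (p : ℕ) [hp : Fact p.Prime] [NeZero p]

theorem genusFormula_level_one : ModularCurve.genusFormula 1 = 0 := by
  simp only [ModularCurve.genusFormula, ModularCurve.nuTwo, ModularCurve.nuThree,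
    ModularCurve.cuspCount, ModularCurve.dedekindPsi, Nat.card_eq_fintype_card]
  rw [show Fintype.card {x : ZMod 1 // x ^ 2 + 1 = 0} = 1 from rfl,
    show Fintype.card {x : ZMod 1 // x ^ 2 + x + 1 = 0} = 1 from rfl]
  simp [Finset.sum_filter]
  norm_num

theorem eq_zero_level_one {x : JZero 1} (hlx : l • x = 0) : x = 0 := by
  have hg : FA.Curve.genus Qb (levelField 1 Qb) = 0 := by
    rw [curveGenus_level Qb 1]
    exact_mod_cast (Fermat.Agent.S20.result 1).trans genusFormula_level_one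
  have hc : Nat.card (Pic0.torsion Qb (levelField 1 Qb) l) = 1 := by
    rw [FA.PicTors.natCard_torsion_of_functionField FA.PicTors.countComplex
      (isFunctionField_level Qb 1) l hl.out.ne_zero, hg, mul_zero, pow_zero]
  haveI := (Nat.card_eq_one_iff_unique.1 hc).1
  exact congrArg Subtype.val (Subsingleton.elim
    (⟨x, Pic0.mem_torsion.2 ((natCast_zsmul x l).trans hlx)⟩ :
      Pic0.torsion Qb (levelField 1 Qb) l) 0)

/-- **`U_p = 1` on the class gives `a_(pn) = a_n`.** -/
theorem LD.level (hpl : p ≠ l)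
    (hin : ReductionInputsAlong A (IsLocalRing.residue A) (1 * p)) {x : JZero (1 * p)}
    {w : LaurentSeries kA} (h : LD (l := l) (1 * p) A x w) (hlx : l • x = 0)
    (hU : heckeOperatorAlong Qb (1 * p) p x = x) (n : ℤ) : w.coeff ((p : ℤ) * n) = w.coeff n := by
  obtain ⟨D, g, r, hD, hg, hgD, hr, hw⟩ := id h
  have h1 : ¬ p ∣ 1 := hp.out.not_dvd_one
  have hpush : pushDown 1 p Qb (D : Divisor Qb (levelField (1 * p) Qb)) ∈ Divisor.principal :=
    pushDown_principal 1 p (eq_zero_level_one (l := l) (by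
      rw [← map_nsmul, hD, hlx, map_zero]))
  set wA := wAut 1 p Qb h1
  have hwx : wA • x = -x := by
    have := heckeOperatorAlong_add_wAut 1 p Qb h1 hl.out.ne_zero
      ⟨x, Pic0.mem_torsion.2 ((natCast_zsmul x l).trans hlx)⟩ hD hpush
    rw [show heckeOperatorAlong Qb (1 * p) p x = x from hU] at this
    exact eq_neg_of_add_eq_zero_right this
  set W := SemilinearAut.degZeroSMulHom wA D
  set g' := wLvl 1 p Qb h1 g
  have hg' : g' ≠ 0 := (map_ne_zero_iff _ (wLvl 1 p Qb h1).injective).2 hg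
  have hWord : ∀ P, (l : ℤ) * (W : Divisor Qb (levelField (1 * p) Qb)) P = P.ord g' := fun P => by
    show (l : ℤ) * ((SemilinearAut.degZeroSMulHom wA D : Divisor.degZero) :
      Divisor Qb (levelField (1 * p) Qb)) P = _
    rw [SemilinearAut.coe_degZeroSMulHom, SemilinearAut.divisor_smul_apply, hgD]
    have := SemilinearAut.ord_smul wA (wA⁻¹ • P) g
    rw [smul_inv_smul, wAut_smul] at this
    exact this.symm
  have hWx : Pic0.mk W = wA • x := by rw [← hD, SemilinearAut.pic0_smul_mk]
  obtain ⟨s, hs⟩ := exists_sr (1 * p) A hin hg'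
  have hneg : dlog r + dlog s = 0 := by
    have h2 : LD (l := l) (1 * p) A (x + wA • x) (dlog r + dlog s) :=
      LD.add ⟨D, g, r, hD, hg, hgD, hr, rfl⟩ ⟨W, g', s, hWx, hg', hWord, hs, rfl⟩
    rw [hwx, add_neg_cancel] at h2
    exact LD.zero_val hin h2
  -- the norm down to level one
  have hF1 := isFunctionField_level Qb 1
  have hFp := isFunctionField_level Qb (1 * p)
  have hpushW : pushDown 1 p Qb (W : Divisor Qb (levelField (1 * p) Qb)) ∈ Divisor.principal :=
    pushDown_principal 1 p (eq_zero_level_one (l := l) (by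
      rw [← map_nsmul, hWx, hwx, neg_nsmul, hlx, neg_zero, map_zero]))
  obtain ⟨u, hu, huD⟩ := hpushW
  obtain ⟨hng, hngD⟩ := ord_norm_push (heckeAlphaBar Qb 1 p)
    (isIntegral_toRingHom hF1 hFp (heckeAlphaBar Qb 1 p))
    (finiteAlong hF1 hFp (heckeAlphaBar Qb 1 p))
    (normFormulaAlong hF1 hFp (heckeAlphaBar Qb 1 p) _) hg' hWord
  change normDownAlpha 1 p Qb g' ≠ 0 at hng
  obtain ⟨c, hc, hcu⟩ := exists_const_of_ord_eq hF1 hng (pow_ne_zero l hu) fun P => by
    rw [FA.ModField.place_ord_pow, ← huD P]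
    exact (hngD P).symm
  set u' := heckeAlphaBar Qb 1 p u
  obtain ⟨t, ht⟩ := exists_sr (1 * p) A hin
    (f := u') ((map_ne_zero (heckeAlphaBar Qb 1 p).toRingHom).2 hu)
  set ν := normBeta 1 p Qb (heckeAlphaBar Qb (1 * p) p g)
  have hid : (ν : LaurentSeries Qb) * (g' : LaurentSeries Qb) =
      HahnSeries.C c * (u' : LaurentSeries Qb) ^ l := by
    rw [← coe_normDownBeta 1 p Qb h1 g, show normDownBeta 1 p Qb g = normDownAlpha 1 p Qb g' by
        rw [← normDownBeta_wLvl 1 p Qb h1, wLvl_wLvl],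
      hcu, MulMemClass.coe_mul, SubmonoidClass.coe_pow, coe_algebraMap_level,
      coe_heckeAlphaBar]
  have hν : ν ≠ 0 := fun h0 => by
    rw [h0, ZeroMemClass.coe_zero, zero_mul] at hid
    exact mul_ne_zero (HahnSeries.C_ne_zero hc) (pow_ne_zero l fun h0' => (map_ne_zero
      (heckeAlphaBar Qb 1 p).toRingHom).2 hu (Subtype.ext h0')) hid.symm
  obtain ⟨r1, hr1⟩ := exists_sr (1 * p) A hin hν
  have e1 : dlog r1 + dlog s = 0 := by
    have := (hid ▸ hr1.mul hs).dlog_eq ((sr_const hc).mul (ht.pow l))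
    rwa [dlog_mul hr1.1 hs.1, one_mul, dlog_pow_char ht.1] at this
  have hprod : SR πA (qExpand Qb p (ν : LaurentSeries Qb))
      (∏ b : Fin p, twist (zetaK p A πA ^ (b : ℕ)) r) := by
    have hz : IsPrimitiveRoot ((zetaL p Qb : Qbˣ) : Qb) p :=
      IsPrimitiveRoot.of_map_of_injective (f := algebraMap Qb ℂ)
        (by rw [show algebraMap Qb ℂ (zetaL p Qb : Qb) = (zetaN p : ℂ) from
          congrArg Units.val (zetaL_spec p Qb)]; exact zetaN_prim p) (algebraMap Qb ℂ).injective
    rw [qExpand_normBeta 1 p Qb h1 hz, coe_heckeAlphaBar]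
    refine sr_prod Finset.univ fun b => ?_
    have h := hr.twist (zetaA p A ^ (b : ℕ))
    rwa [map_pow, map_pow, map_zetaA] at h
  have hk : (p : kA) ≠ 0 := fun h0 =>
    hpl ((Nat.prime_dvd_prime_iff_eq hl.out hp.out).1 ((CharP.cast_eq_zero_iff kA l p).1 h0)).symm
  have hζ : zetaK p A πA ^ p = 1 := by
    rw [zetaK, ← map_pow, zetaA, Units.pow_ofPowEqOne, map_one]
  have e := congrArg (fun z : LaurentSeries kA => z.coeff ((p : ℤ) * n))
    ((hr1.qExpand p).dlog_eq hprod)
  simp only [dlog_prod _ _ fun b : Fin p => (map_ne_zero _).2 hr.1, dlog_twist, dlog_qExpand,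
    HahnSeries.C_mul_eq_smul, HahnSeries.coeff_smul, smul_eq_mul, qExpand_coeff_mul,
    sum_twist_coeff _ hζ] at e
  rw [hw, ← mul_left_cancel₀ hk e, eq_neg_of_add_eq_zero_left e1,
    ← eq_neg_of_add_eq_zero_left hneg]

end Level

end FA.CuspClass

end
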