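import Fermat.Agent.CurveRed.ModularBase
import Fermat.Agent.CurveRed.FullField
import Fermat.Agent.CuspClass.LogDeriv
import Mathlib.FieldTheory.KummerPolynomial
import Mathlib.FieldTheory.PurelyInseparable.PerfectClosure

/-!
# Functions killed by `θ` in characteristic `l` are `l`-th powers
-/

set_option autoImplicit false
set_option linter.style.haveILetI false
set_option linter.unusedSectionVars false
set_option synthInstance.maxHeartbeats 400000
set_option maxHeartbeats 1000000

noncomputable section

namespace FA.CuspClass

open ModularCurve FA.ModField FA.CurveRed Polynomial IntermediateField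

variable {k : Type} [Field k] [IsAlgClosed k] (N : ℕ) [NeZero N] (l : ℕ) [hl : Fact l.Prime]
  [CharP k l]

local notation "Fk" => modularFunctionFieldFullC k N

/-- A function of the reduced level field killed by `θ` is an `l`-th power. -/
theorem exists_pow_of_theta_eq_zero {r : Fk} (hr : thetaFun (r : LaurentSeries k) = 0) :
    ∃ s : Fk, s ^ l = r := by
  classical
  set J := jBar k N
  have hθJ : thetaFun (J : LaurentSeries k) ≠ 0 :=
    FA.CurveRed.Modular.theta_ne_zero_of_coeff (coeff_jqModC_neg_one k)
  haveI hsep : Algebra.IsSeparable k⟮J⟯ Fk :=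
    FA.CurveRed.Modular.isSeparable_down J (jBar_transcendental k N) hθJ
  haveI : CharP k⟮J⟯ l := charP_of_injective_algebraMap (algebraMap k k⟮J⟯).injective l
  haveI : CharP Fk l := charP_of_injective_algebraMap (algebraMap k Fk).injective l
  haveI : PerfectRing k l := PerfectField.toPerfectRing l
  let M : Subfield Fk := (frobenius Fk l).fieldRange
  have hval : ∀ m : M, algebraMap M Fk m = (m : Fk) := fun _ => rfl
  have hθM : ∀ m : M, thetaFun ((m : Fk) : LaurentSeries k) = 0 := by
    rintro ⟨_, a, rfl⟩
    show thetaFun ((a ^ l : Fk) : LaurentSeries k) = 0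
    rw [SubmonoidClass.coe_pow, show l = l * 1 from (mul_one l).symm,
      theta_aeval_mul_pow (CharP.cast_eq_zero k l)]
  set E : IntermediateField M Fk := M⟮J⟯
  have hpow : ∀ a : Fk, a ^ l ∈ E := fun a => E.algebraMap_mem ⟨a ^ l, a, rfl⟩
  have hk : ∀ x ∈ k⟮J⟯, x ∈ E := by
    intro x hx
    induction hx using IntermediateField.adjoin_induction with
    | mem y hy => rw [Set.mem_singleton_iff.1 hy]; exact mem_adjoin_simple_self M J
    | algebraMap c =>
      rw [show c = ((frobeniusEquiv k l).symm c) ^ l from (frobeniusEquiv_symm_pow_p k l c).symm,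
        map_pow]
      exact hpow _
    | add a b _ _ ha hb => exact add_mem ha hb
    | inv a _ ha => exact inv_mem ha
    | mul a b _ _ ha hb => exact mul_mem ha hb
  have htop : ∀ a : Fk, a ∈ E := by
    intro a
    have h : a ∈ IntermediateField.adjoin k⟮J⟯ (Set.univ : Set Fk) :=
      IntermediateField.subset_adjoin _ _ (Set.mem_univ a)
    rw [adjoin_eq_adjoin_pow_expChar_pow_of_isSeparable' k⟮J⟯ Fk Set.univ l 1] at h
    induction h using IntermediateField.adjoin_induction with
    | mem y hy =>
      obtain ⟨b, -, rfl⟩ := hy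
      show b ^ l ^ 1 ∈ E
      rw [pow_one]
      exact hpow b
    | algebraMap c => exact hk _ c.2
    | add a b _ _ ha hb => exact add_mem ha hb
    | inv a _ ha => exact inv_mem ha
    | mul a b _ _ ha hb => exact mul_mem ha hb
  -- `X ^ l - J ^ l` is the minimal polynomial of `J` over the `l`-th powers
  let jl : M := ⟨J ^ l, J, rfl⟩
  set G : M[X] := X ^ l - C jl
  have hGm : G.Monic := monic_X_pow_sub_C jl hl.out.ne_zero
  have hGJ : aeval J G = 0 := by simp [G, jl, hval]
  have hirr : Irreducible G := X_pow_sub_C_irreducible_of_prime hl.out fun b hb => by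
    obtain ⟨c, hc⟩ := b.2
    refine hθJ ?_
    have h1 : frobenius Fk l (b : Fk) = frobenius Fk l J := congrArg Subtype.val hb
    rw [← frobenius_inj Fk l h1]
    exact hθM b
  have hdeg : G.natDegree = l := natDegree_X_pow_sub_C
  have hint : IsIntegral M J := ⟨G, hGm, hGJ⟩
  have hmin : minpoly M J = G := (minpoly.eq_of_irreducible_of_monic hirr hGJ hGm).symm
  obtain ⟨P, hP⟩ : ∃ P : M[X], aeval J P = r := by
    have h := htop r
    rw [← IntermediateField.mem_toSubalgebra,
      IntermediateField.adjoin_simple_toSubalgebra_of_isAlgebraic hint.isAlgebraic,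
      Algebra.adjoin_singleton_eq_range_aeval, AlgHom.mem_range] at h
    exact h
  set Q := P %ₘ G
  have hQ : aeval J Q = r := by rw [← hP]; exact aeval_modByMonic_eq_self_of_root hGJ
  have hQdeg : Q.natDegree < l := hdeg ▸
    natDegree_modByMonic_lt P hGm (fun h => hl.out.ne_zero (by rw [← hdeg, h, natDegree_one]))
  have hder : ∀ R : M[X], thetaFun ((aeval J R : Fk) : LaurentSeries k) =
      ((aeval J (derivative R) : Fk) : LaurentSeries k) * thetaFun (J : LaurentSeries k) := by
    intro R
    induction R using Polynomial.induction_on' with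
    | add a b ha hb =>
      rw [map_add, map_add, map_add, AddMemClass.coe_add, AddMemClass.coe_add, thetaFun_add, ha, hb,
        add_mul]
    | monomial n c =>
      rw [aeval_monomial, derivative_monomial, aeval_monomial, MulMemClass.coe_mul,
        MulMemClass.coe_mul, thetaFun_mul, hval, hθM, zero_mul, add_zero]
      have h := theta_aeval (J : LaurentSeries k) (X ^ n)
      rw [map_pow, aeval_X, derivative_X_pow, map_mul, aeval_C, map_natCast, map_pow, aeval_X] at h
      simp only [SubmonoidClass.coe_pow, MulMemClass.coe_mul, h,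
        SubringClass.coe_natCast, hval]
      ring
  have h0 : aeval J (derivative Q) = (0 : Fk) := by
    apply Subtype.ext
    rw [ZeroMemClass.coe_zero]
    have h := hder Q
    rw [hQ, hr, eq_comm, mul_eq_zero] at h
    exact h.resolve_right hθJ
  have hD : derivative Q = 0 := by
    by_contra hne
    have h1 := natDegree_le_natDegree (minpoly.degree_le_of_ne_zero M J hne h0)
    rw [hmin, hdeg] at h1
    have := natDegree_derivative_le Q
    omega
  have hc : Q.natDegree = 0 := by
    by_contra hne
    have h1 := congrArg (fun R : M[X] => R.coeff (Q.natDegree - 1)) hD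
    rw [coeff_derivative, Nat.sub_add_cancel (Nat.one_le_iff_ne_zero.2 hne), coeff_zero,
      ← Nat.cast_add_one, Nat.sub_add_cancel (Nat.one_le_iff_ne_zero.2 hne), mul_eq_zero] at h1
    rcases h1 with h1 | h1
    · exact leadingCoeff_ne_zero.2 (fun h => hne (by rw [h, natDegree_zero])) h1
    · haveI : CharP M l :=
        (CharP.charP_iff_prime_eq_zero hl.out).2 (Subtype.ext (by
          rw [SubringClass.coe_natCast, ZeroMemClass.coe_zero, CharP.cast_eq_zero Fk l]))
      exact absurd (Nat.le_of_dvd (Nat.pos_of_ne_zero hne) ((CharP.cast_eq_zero_iff M l _).1 h1))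
        (by omega)
  rw [eq_C_of_natDegree_eq_zero hc, aeval_C] at hQ
  obtain ⟨a, ha⟩ := (Q.coeff 0).2
  exact ⟨a, ha.trans hQ⟩

end FA.CuspClass

end
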