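import Fermat.Agent.CuspClass.LogDerivHecke
import Fermat.Agent.CuspClass.PowerKernel
import Fermat.Agent.CuspClass.EisensteinKill

/-!
# Multiplicity one for rational `l`-torsion of `J₀(p)`

The logarithmic derivative of a rational class of order `l ≥ 5`, `l ≠ p`, has the eigenvalues
`1 + q` and `1`, so it is determined by its first coefficient, which is fixed by Frobenius; a
class with first coefficient zero reduces to zero. So these classes form a line.
-/

set_option autoImplicit false
set_option linter.style.haveILetI false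
set_option linter.unusedSectionVars false
set_option synthInstance.maxHeartbeats 400000
set_option maxHeartbeats 1600000

noncomputable section

namespace FA.CuspClass

open ModularCurve AlgebraicCurve FA.Curve FA.CurveRed FA.ModField FA.JTorsion

local notation "Qb" => AlgebraicClosure ℚ
local notation "GQ" => AlgebraicClosure ℚ ≃ₐ[ℚ] AlgebraicClosure ℚ

/-- An Eisenstein eigenseries with first coefficient zero lives on multiples of `l`. -/
theorem coeff_eq_zero_of_eigen {k : Type} [Field k] {p l : ℕ}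
    (w : LaurentSeries k) (h1 : w.coeff 1 = 0)
    (hT : ∀ (q : ℕ) [NeZero q], q.Prime → q ≠ p → q ≠ l → ∀ n : ℤ,
      ((1 + q : ℕ) : k) * w.coeff n =
        w.coeff ((q : ℤ) * n) + (q : k) * (qExpand k q w).coeff n)
    (hP : ∀ n : ℤ, w.coeff ((p : ℤ) * n) = w.coeff n) :
    ∀ n : ℕ, ¬ l ∣ n → w.coeff n = 0 := by
  intro n
  induction n using Nat.strong_induction_on with
  | _ n ih =>
    intro hn
    have hn0 : n ≠ 0 := fun h => hn (h ▸ dvd_zero l)
    rcases eq_or_ne n 1 with rfl | hn1
    · exact_mod_cast h1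
    obtain ⟨q, hq, m, rfl⟩ := Nat.exists_prime_and_dvd hn1
    haveI : NeZero q := ⟨hq.ne_zero⟩
    have hm : ¬ l ∣ m := fun h => hn (h.mul_left q)
    have hm0 : 0 < m := Nat.pos_of_ne_zero fun h => hn0 (by rw [h, mul_zero])
    have hlt : m < q * m := lt_mul_left hm0 hq.one_lt
    have hwm : w.coeff (m : ℤ) = 0 := ih m hlt hm
    rw [Nat.cast_mul]
    by_cases hqp : q = p
    · subst hqp
      rw [hP, hwm]
    have hql : q ≠ l := fun h => hn (h ▸ dvd_mul_right q m)
    have h := hT q hq hqp hql (m : ℤ)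
    rw [hwm, mul_zero] at h
    have hexp : (qExpand k q w).coeff (m : ℤ) = 0 := by
      by_cases hd : q ∣ m
      · obtain ⟨c, rfl⟩ := hd
        have hc : c < q * (q * c) :=
          (lt_mul_left (Nat.pos_of_ne_zero fun h => hm0.ne' (by rw [h, mul_zero])) hq.one_lt).trans
            hlt
        rw [Nat.cast_mul, qExpand_coeff_mul]
        exact ih c hc fun h => hm (h.mul_left q)
      · exact qExpand_coeff_of_not_dvd q _ fun h => hd (Int.natCast_dvd_natCast.1 h)
    rw [hexp, mul_zero, add_zero] at h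
    exact h.symm

/-- The fixed points of the Frobenius of a field of characteristic `l` are the prime field. -/
theorem exists_natCast_eq {k : Type} [Field k] (l : ℕ) [hl : Fact l.Prime] [CharP k l] {a : k}
    (ha : a ^ l = a) : ∃ m : ℕ, (m : k) = a := by
  classical
  by_contra hne
  push Not at hne
  set P : Polynomial k := Polynomial.X ^ l - Polynomial.X
  have hdeg : P.natDegree = l := FiniteField.X_pow_card_sub_X_natDegree_eq k hl.out.one_lt
  have hP : P ≠ 0 := fun h => hl.out.ne_zero (by rw [← hdeg, h, Polynomial.natDegree_zero])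
  set S : Finset k := (Finset.range l).image fun m : ℕ => (m : k)
  have hS : S.card = l := by
    rw [Finset.card_image_of_injOn, Finset.card_range]
    intro u hu v hv h
    exact CharP.natCast_injOn_Iio k l (Finset.mem_range.1 hu) (Finset.mem_range.1 hv) h
  have hsub : insert a S ⊆ P.roots.toFinset := fun x hx => by
    rw [Multiset.mem_toFinset, Polynomial.mem_roots hP, Polynomial.IsRoot.def]
    rcases Finset.mem_insert.1 hx with rfl | hx
    · simp [P, ha]
    · obtain ⟨m, -, rfl⟩ := Finset.mem_image.1 hx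
      simp [P, show ((m : k)) ^ l = m from map_natCast (frobenius k l) m]
  have hnot : a ∉ S := fun h => by
    obtain ⟨m, -, hm⟩ := Finset.mem_image.1 h
    exact hne m hm
  have := ((Finset.card_le_card hsub).trans P.roots.toFinset_card_le).trans
    (Polynomial.card_roots' P)
  rw [Finset.card_insert_of_notMem hnot, hS, hdeg] at this
  omega

variable [Algebra Qb ℂ] (N : ℕ) [NeZero N] {l : ℕ} [hl : Fact l.Prime] (A : ValuationSubring Qb)
  [CharP (IsLocalRing.ResidueField A) l] [IsAlgClosed (IsLocalRing.ResidueField A)]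
  (hin : ReductionInputsAlong A (IsLocalRing.residue A) N)

local notation "kA" => IsLocalRing.ResidueField A
local notation "πA" => IsLocalRing.residue A
local notation "FF" => levelField N Qb
local notation "Fb" => modularFunctionFieldFullC (IsLocalRing.ResidueField A) N
local notation "RR" => redOf N Qb IsLocalRing.residue_surjective residueAt_eq_zero hin

theorem exists_place_infty : ∃ Q : Place kA Fb,
    ∀ f : Fb, Q.ord f = (f : LaurentSeries kA).order := by
  have hj : ((jBar kA N : Fb) : LaurentSeries kA).order = -1 := FA.Mazur.order_jqModC_eq kA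
  rcases FA.Level.exists_place_of_embedding (modularFunctionFieldFullC kA N).val with
    h | ⟨v, c, hc, h⟩
  · exact absurd ((h (jBar kA N)).symm.trans hj) (by norm_num)
  · have hj' : c * v.ord (jBar kA N) = -1 := (h (jBar kA N)).symm.trans hj
    have hc1 : c = 1 := Int.eq_one_of_dvd_one hc.le ⟨-v.ord (jBar kA N), by linarith⟩
    exact ⟨v, fun f => by
      have := h f
      rw [hc1, Int.one_mul] at this
      exact this.symm⟩

include hin in
/-- A class with logarithmic derivative in `k((q ^ l))` reduces to zero. -/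
theorem reduction_eq_zero_of_coeff {x : JZero N} {w : LaurentSeries kA} (hlx : l • x = 0)
    (h : LD (l := l) N A x w) (hw : ∀ n : ℕ, ¬ l ∣ n → w.coeff n = 0) :
    reductionAlong A πA N (x : Pic0 Qb FF) = 0 := by
  obtain ⟨D, f, hD, hf, hfD⟩ := exists_torsion_rep N hlx
  obtain ⟨c, g, r, hc, hfg, hg, hr⟩ := Reduction.exists_scale' (R := RR) hf
  have hsr : SR πA (f : LaurentSeries Qb) (1 * (r : LaurentSeries kA)) := by
    rw [hfg, MulMemClass.coe_mul, coe_algebraMap_level]
    exact (sr_const hc).mul (sr_of_red N A hin hg hr)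
  rw [one_mul] at hsr
  have hwr : w = dlog (r : LaurentSeries kA) :=
    h.unique N A hin ⟨D, f, _, hD, hf, hfD, hsr, rfl⟩
  have hr' : (r : LaurentSeries kA) ≠ 0 := hsr.1
  have hg0 : g ≠ 0 := hg.ne_zero hr
  have hord : ∀ P : Place Qb FF, ((l : ℤ) • (D : Divisor Qb FF)) P = P.ord g := fun P => by
    rw [Finsupp.smul_apply, smul_eq_mul, hfD, hfg,
      P.ord_mul ((map_ne_zero _).2 hc) hg0, place_ord_algebraMap, zero_add]
  obtain ⟨hgG, hgr⟩ := hg
  have hdiv : ∀ Q, (l : ℤ) * (RR).push (D : Divisor Qb FF) Q = Q.ord r := fun Q => by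
    have h1 := (RR).div_red ⟨g, hgG⟩ (by rw [hgr]; exact hr) ((l : ℤ) • (D : Divisor Qb FF))
      hord Q
    rw [hgr, Finsupp.mapDomain_smul, Finsupp.smul_apply, smul_eq_mul] at h1
    exact h1
  obtain ⟨Q, hQ⟩ := exists_place_infty N A
  have hdvd : (l : ℤ) ∣ (r : LaurentSeries kA).order := ⟨_, (hQ r).symm.trans (hdiv Q).symm⟩
  have hθ : thetaFun (r : LaurentSeries kA) = 0 :=
    thetaFun_eq_zero_of_dlog l hr' hdvd fun n hn => by
      rcases lt_or_ge n 0 with hneg | hpos
      · exact coeff_dlog_neg hr' hneg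
      · lift n to ℕ using hpos
        rw [← hwr]
        exact hw n fun hd => hn (Int.natCast_dvd_natCast.2 hd)
  obtain ⟨s, rfl⟩ := exists_pow_of_theta_eq_zero N l hθ
  have hs : s ≠ 0 := fun h0 => hr (by rw [h0, zero_pow hl.out.ne_zero])
  obtain ⟨hd, hred⟩ := reductionAlong_eq_push N Qb IsLocalRing.residue_surjective
    residueAt_eq_zero hin D
  rw [← hD, hred, Pic0.mk, QuotientAddGroup.eq_zero_iff, AddSubgroup.mem_addSubgroupOf]
  refine ⟨s, hs, fun P => mul_left_cancel₀ (Int.natCast_ne_zero.2 hl.out.ne_zero) ?_⟩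
  exact (hdiv P).trans (FA.ModField.place_ord_pow P s l)

include hin in
theorem coeff_hecke_of_eigen {q : ℕ} [Fact q.Prime] [NeZero q] (hqN : ¬ q ∣ N) (hql : q ≠ l)
    {x : JZero N} {w : LaurentSeries kA} (h : LD (l := l) N A x w)
    (hT : heckeOperatorAlong Qb N q x = (1 + q) • x) (n : ℤ) :
    ((1 + q : ℕ) : kA) * w.coeff n =
      w.coeff ((q : ℤ) * n) + (q : kA) * (qExpand kA q w).coeff n := by
  obtain ⟨w', hw', hn⟩ := h.hecke hin hqN hql
  rw [hT] at hw'
  rw [← hn, hw'.unique N A hin (h.nsmul (1 + q)), HahnSeries.coeff_smul, nsmul_eq_mul]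

section Level

variable (p : ℕ) [hp : Fact p.Prime] [NeZero p]

theorem exists_nsmul_eq_aux {M : ℕ} [NeZero M] (hM : M = 1 * p) (hl2 : l ≠ 2) (hlp : l ≠ p)
    (hA : A.LiesOverPrime l) (hinM : ReductionInputsAlong A (IsLocalRing.residue A) M)
    (hT : ∀ (x : JZero M), l • x = 0 → (∀ σ : GQ, σ • x = x) → ∀ (q : ℕ) [NeZero q],
      q.Prime → q ≠ p → q ≠ l → heckeOperatorAlong Qb M q x = (1 + q) • x)
    (hU : ∀ (x : JZero M), l • x = 0 → (∀ σ : GQ, σ • x = x) →
      heckeOperatorAlong Qb M p x = x)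
    {x y : JZero M} (hlx : l • x = 0) (hx : ∀ σ : GQ, σ • x = x) (hly : l • y = 0)
    (hy : ∀ σ : GQ, σ • y = y) (hy0 : y ≠ 0) : ∃ m : ℕ, x = m • y := by
  subst hM
  have hlN : ¬ l ∣ 1 * p := by
    rw [one_mul]; exact fun h => hlp ((Nat.prime_dvd_prime_iff_eq hl.out hp.out).1 h)
  have kernel : ∀ (z : JZero (1 * p)) (w : LaurentSeries kA), l • z = 0 →
      (∀ σ : GQ, σ • z = z) → LD (l := l) (1 * p) A z w → w.coeff 1 = 0 → z = 0 := by
    intro z w hlz hz hw h1
    refine eq_zero_of_fixed_of_nsmul (1 * p) hl2 hlN hA hlz hz ?_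
    refine reduction_eq_zero_of_coeff (1 * p) A hinM hlz hw (coeff_eq_zero_of_eigen (p := p)
      w h1 (fun q _ hq hqp hql n => ?_) (fun n => ?_))
    · haveI : Fact q.Prime := ⟨hq⟩
      exact coeff_hecke_of_eigen (1 * p) A hinM
        (by rw [one_mul]; exact fun h => hqp ((Nat.prime_dvd_prime_iff_eq hq hp.out).1 h)) hql hw
        (hT z hlz hz q hq hqp hql) n
    · exact LD.level p hlp.symm hinM hw hlz (hU z hlz hz) n
  obtain ⟨σ, hσ⟩ := FA.Deform.exists_isFrobeniusAt hl.out hA
  obtain ⟨u, hu⟩ := exists_ld (1 * p) A hinM hlx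
  obtain ⟨v, hv⟩ := exists_ld (1 * p) A hinM hly
  have hv1 : v.coeff 1 ≠ 0 := fun h => hy0 (kernel y v hly hy hv h)
  obtain ⟨a, ha⟩ := exists_natCast_eq l (hu.coeff_pow hinM hσ (hx σ) 1)
  obtain ⟨b, hb⟩ := exists_natCast_eq l (hv.coeff_pow hinM hσ (hy σ) 1)
  obtain ⟨m, hm⟩ := exists_natCast_eq l (k := kA) (a := -((a : kA) / b)) (by
    rw [← frobenius_def, map_neg, map_div₀, map_natCast, map_natCast])
  have hz : x + m • y = 0 := by
    refine kernel _ (u + m • v) ?_ (fun τ => ?_) (hu.add (hv.nsmul m)) ?_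
    · rw [nsmul_add, hlx, zero_add, smul_comm, hly, smul_zero]
    · exact (smul_add τ x (m • y)).trans
        (congrArg₂ (· + ·) (hx τ) (gal_nsmul (1 * p) hy m τ))
    · rw [HahnSeries.coeff_add, HahnSeries.coeff_smul, nsmul_eq_mul, hm, ← ha, ← hb]
      field_simp [show (b : kA) ≠ 0 by rw [hb]; exact hv1]
      ring
  refine ⟨(l - 1) * m, ?_⟩
  rw [mul_smul, eq_neg_of_add_eq_zero_left hz, eq_comm, eq_neg_iff_add_eq_zero, ← succ_nsmul,
    Nat.sub_add_cancel hl.out.one_le, smul_comm, hly, smul_zero]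

end Level

section Main

variable {p : ℕ} [hp : Fact p.Prime] [NeZero p]

/-- **Multiplicity one**: the rational classes killed by a prime `l ≥ 5`, `l ≠ p`, form a line. -/
theorem exists_nsmul_eq_of_fixed (h5 : 5 ≤ l) (hlp : l ≠ p) {x y : JZero p} (hlx : l • x = 0)
    (hx : ∀ σ : GQ, σ • x = x) (hly : l • y = 0) (hy : ∀ σ : GQ, σ • y = y) (hy0 : y ≠ 0) :
    ∃ m : ℕ, x = m • y := by
  haveI : NeZero l := ⟨hl.out.ne_zero⟩
  have hlN : ¬ l ∣ p := fun h => hlp ((Nat.prime_dvd_prime_iff_eq hl.out hp.out).1 h)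
  have hn : l.Coprime (6 * p) := by
    refine hl.out.coprime_iff_not_dvd.2 fun h => ?_
    rcases hl.out.dvd_mul.1 h with h | h
    · have := Nat.le_of_dvd (by norm_num) h
      interval_cases l
      · omega
      · exact absurd hl.out (by norm_num)
    · exact hlN h
  obtain ⟨B, hB⟩ := FA.Deform.exists_liesOverPrime hl.out
  haveI := residueAt_charP hB
  haveI : IsAlgClosed (IsLocalRing.ResidueField B) := FA.Frob.residueField_isAlgClosed B
  refine exists_nsmul_eq_aux B p (one_mul p).symm (by omega) hlp hB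
    (FA.CurveRed.Modular.reductionInputsModL p hl.out hlN B hB).1 ?_ ?_ hlx hx hly hy hy0
  · intro z hlz hz q _ hq hqp hql
    obtain ⟨q₀, rfl⟩ := FA.EisReducible.exists_toTors_eq_of_nsmul p l z hlz
    have hqN : ¬ q ∣ p := fun h => hqp ((Nat.prime_dvd_prime_iff_eq hq hp.out).1 h)
    have h := tGen_smul_of_fixed l hn hz ⟨q, hq⟩ hqp
    rw [show FA.Mazur.tGen p ⟨q, hq⟩ =
      CuspForm.heckeAlgebra.T (k := 2) hq hqN (Set.notMem_empty _) from
      CuspForm.heckeEvalForms_heckeGen_of_not_dvd (ℓ := ⟨q, hq⟩) hqN] at h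
    have h' := congrArg (toTors p (∅ : Set ℕ) l) h
    rw [toTors_T_smul p l hq hqN, map_nsmul] at h'
    exact h'
  · intro z hlz hz
    obtain ⟨q₀, rfl⟩ := FA.EisReducible.exists_toTors_eq_of_nsmul p l z hlz
    have h := level_smul_of_fixed l hn hz
    rw [show FA.Mazur.tGen p ⟨p, hp.out⟩ =
      CuspForm.heckeAlgebra.U (k := 2) hp.out (dvd_refl p) (Set.notMem_empty _) from
      CuspForm.heckeEvalForms_heckeGen_of_dvd (q := ⟨p, hp.out⟩) (dvd_refl p)] at h
    have h' := congrArg (toTors p (∅ : Set ℕ) l) h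
    rw [toTors_U_smul p l hp.out (dvd_refl p)] at h'
    exact h'

end Main

end FA.CuspClass

end
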