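import Fermat.Agent.CuspClass.Eleven
import Fermat.Agent.Ribet.SerreLarge
import Fermat.Agent.Root.SummaryPrimeLevelTorsionOdd

/-!
# Rational torsion of `J₀(19)`

`T₅ = 3` on the line of cusp forms of level `19`, so rational torsion of order prime to `5` is
killed by `3`; the odd part is the cuspidal group of order `3`.
-/

set_option autoImplicit false
set_option linter.style.haveILetI false
set_option linter.unusedSectionVars false
set_option synthInstance.maxHeartbeats 400000
set_option maxHeartbeats 1000000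

noncomputable section

open ModularCurve FA.JTorsion FA.ModField CongruenceSubgroup

namespace FA.CuspClass

local notation "Qb" => AlgebraicClosure ℚ
local notation "GQ" => AlgebraicClosure ℚ ≃ₐ[ℚ] AlgebraicClosure ℚ

/-- On a line of forms `T_ℓ` is the `ℓ`-th coefficient of the normalised form. -/
theorem heckeTLin_of_line {N : ℕ} [NeZero N]
    (hdim : Module.finrank ℂ (CuspForm (Gamma0 N) 2) = 1) {f : CuspForm (Gamma0 N) 2}
    (h1 : ModularFormClass.qCoeff f 1 = 1) {ℓ : ℕ} (hℓ : ℓ.Prime) (hℓN : ¬ ℓ ∣ N) {a : ℤ}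
    (ha : ModularFormClass.qCoeff f ℓ = (a : ℂ)) :
    CuspForm.heckeTLin (N := N) 2 hℓ hℓN = (a : ℂ) • 1 := by
  haveI : NeZero ℓ := ⟨hℓ.ne_zero⟩
  have h1' : FA.Deform.qLin N f 1 = 1 := by rw [FA.Deform.qLin_apply, h1]
  have hf : f ≠ 0 := fun h => by
    rw [h, map_zero, Pi.zero_apply] at h1'
    exact zero_ne_one h1'
  have hline : ∀ g : CuspForm (Gamma0 N) 2, ∃ c : ℂ, c • f = g :=
    fun g => (finrank_eq_one_iff_of_nonzero' f hf).mp hdim g
  obtain ⟨c, hc⟩ := hline (CuspForm.heckeTLin (N := N) 2 hℓ hℓN f)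
  have hca : c = (a : ℂ) := by
    have h := congrArg (fun g => FA.Deform.qLin N g 1) hc
    rw [show CuspForm.heckeTLin (N := N) 2 hℓ hℓN = FA.JTorsion.heckeForm N ℓ hℓ from
      (dif_neg hℓN).symm] at h
    rw [map_smul, Pi.smul_apply, smul_eq_mul, h1', mul_one, FA.PeriodLattice.qLin_heckeForm hℓ,
      if_neg hℓ.not_dvd_one, add_zero, one_mul, FA.Deform.qLin_apply, ha] at h
    exact h
  refine LinearMap.ext fun g => ?_
  obtain ⟨d, rfl⟩ := hline g
  rw [map_smul, ← hc, hca, LinearMap.smul_apply, Module.End.one_apply, smul_comm]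

theorem finrank_cuspForm_nineteen : Module.finrank ℂ (CuspForm (Gamma0 19) 2) = 1 := by
  have h20 := (Fermat.Agent.S20.result 19).trans FA.Ribet.genusFormula_19
  exact_mod_cast h20

theorem heckeTLin_nineteen_five :
    CuspForm.heckeTLin (N := 19) 2 (show Nat.Prime 5 by norm_num) (by norm_num) =
      ((3 : ℤ) : ℂ) • 1 := by
  have p19 : Nat.Prime 19 := by norm_num
  obtain ⟨f, hf, hfl⟩ := FA.Ribet.exists_eigenform_of_natAbs (E := FA.Ribet.curve19) (i := 0)
    (j := 1) (N := 19) p19 (by decide) (Or.inl rfl) (by decide) (by norm_num) p19.prime.squarefree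
  refine heckeTLin_of_line finrank_cuspForm_nineteen hf.qCoeff_one _ _ ?_
  rw [hfl 5 (by norm_num) (by norm_num), FA.Ribet.curve19_five]

variable [Algebra Qb ℂ]

/-- **Rational torsion of `J₀(19)` is killed by three.** -/
theorem three_nsmul_eq_zero {x : JZero 19} (hx : IsOfFinAddOrder x)
    (hfix : ∀ σ : GQ, σ • x = x) : (3 : ℕ) • x = 0 := by
  haveI : Fact (Nat.Prime 19) := ⟨by norm_num⟩
  obtain ⟨a, m, hm, hn⟩ :=
    Nat.exists_eq_pow_mul_and_not_dvd hx.addOrderOf_pos.ne' 5 (by norm_num)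
  have e1 : (3 : ℕ) • 5 ^ a • x = 0 := by
    have h := zsmul_eq_zero_of_fixed 19 (show Nat.Prime 5 by norm_num) (by norm_num)
      heckeTLin_nineteen_five (x := 5 ^ a • x) hx.nsmul (fun h => hm (h.trans
        (addOrderOf_dvd_of_nsmul_eq_zero (by
          rw [smul_smul, mul_comm, ← hn, addOrderOf_nsmul_eq_zero]))))
      (gal_nsmul 19 hfix _)
    rw [show (1 : ℤ) + ((5 : ℕ) : ℤ) - 3 = ((3 : ℕ) : ℤ) by norm_num, natCast_zsmul] at h
    exact h
  have e2 : (3 : ℕ) • m • x = 0 := by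
    obtain ⟨Pinf, P0, hdeg, -, -, -, hc, hiff⟩ :=
      FA.Summary.prime_level_rational_torsion_odd (p := 19) (by norm_num)
    obtain ⟨k, hk⟩ := AddSubgroup.mem_zmultiples_iff.1 ((hiff (5 ^ a) (Odd.pow (by decide))
      (m • x) (by rw [smul_smul, ← hn, addOrderOf_nsmul_eq_zero])).1 (gal_nsmul 19 hfix _))
    refine addOrderOf_dvd_iff_nsmul_eq_zero.1 ?_
    rw [← hk]
    refine (addOrderOf_dvd_of_mem_zmultiples (AddSubgroup.zsmul_mem_zmultiples _ k)).trans ?_
    rw [hc]
    decide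
  refine AddMonoid.addOrderOf_eq_one_iff.1 (Nat.eq_one_of_dvd_coprimes
    (((show Nat.Prime 5 by norm_num).coprime_iff_not_dvd.2 hm).pow_left a)
    (addOrderOf_dvd_of_nsmul_eq_zero ?_) (addOrderOf_dvd_of_nsmul_eq_zero ?_))
  · rw [smul_comm]; exact e1
  · rw [smul_comm]; exact e2

end FA.CuspClass

end
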