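import Fermat.Agent.CuspClass.Cusps
import Fermat.Agent.Local.Primes
import Fermat.Prelude.Def_ModularCurve_ModularUnit

/-!
# The order of the cuspidal divisor class of `X₀(p)`

The quotients of `η` give the upper bound. If `k` times the class is zero, the normalised function
`g` with that divisor has rational coefficients and `(g · W g)^(p-1) = p^(12 k)` with `g · W g` a
rational number, so `p - 1` divides `12 k`.
-/

set_option autoImplicit false
set_option linter.style.haveILetI false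
set_option linter.unusedSectionVars false
set_option synthInstance.maxHeartbeats 400000
set_option maxHeartbeats 1600000

noncomputable section

namespace FA.CuspClass

open ModularCurve AlgebraicCurve FA.Curve FA.Level FA.ModField

local notation "Qb" => AlgebraicClosure ℚ
local notation "GQ" => AlgebraicClosure ℚ ≃ₐ[ℚ] AlgebraicClosure ℚ

variable [Algebra Qb ℂ] (p : ℕ) [hp : Fact p.Prime] [NeZero p]

local notation "FF" => levelField (1 * p) Qb

/-- The divisor `(0) - (∞)`. -/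
def cuspDiv : Divisor.degZero (K := Qb) (F := FF) :=
  ⟨Finsupp.single (zero p) 1 - Finsupp.single (infty p) 1, by
    have hF := isFunctionField_level Qb (1 * p)
    rw [Divisor.mem_degZero, map_sub, Divisor.degree_single, Divisor.degree_single,
      hF.deg_eq_one, hF.deg_eq_one, sub_self]⟩

/-- The class of `(0) - (∞)`. -/
def cuspCls : Pic0 Qb FF := Pic0.mk (cuspDiv p)

open scoped Classical in
theorem cuspDiv_apply (v : Place Qb FF) :
    (cuspDiv p : Divisor Qb FF) v = if v = infty p then -1 else if v = zero p then 1 else 0 := by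
  show (Finsupp.single (zero p) (1 : ℤ) - Finsupp.single (infty p) 1 : Divisor Qb FF) v = _
  rw [Finsupp.sub_apply, Finsupp.single_apply, Finsupp.single_apply]
  by_cases h1 : v = infty p
  · subst h1
    rw [if_neg (infty_ne_zero p).symm, if_pos rfl, if_pos rfl]
    norm_num
  by_cases h2 : v = zero p
  · subst h2
    simp [infty_ne_zero p, (infty_ne_zero p).symm]
  rw [if_neg (Ne.symm h2), if_neg (Ne.symm h1), if_neg h1, if_neg h2, sub_self]

/-- A function with divisor `k` times `(0) - (∞)` kills the class. -/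
theorem nsmul_cuspCls_eq_zero {k : ℕ} (g : FF) (hg : g ≠ 0)
    (hord : ∀ v, v.ord g = (k : ℤ) * (cuspDiv p : Divisor Qb FF) v) : k • cuspCls p = 0 := by
  rw [cuspCls, Pic0.mk, ← QuotientAddGroup.mk_nsmul, QuotientAddGroup.eq_zero_iff,
    AddSubgroup.mem_addSubgroupOf]
  exact ⟨g, hg, fun v => by
    rw [hord, AddSubmonoidClass.coe_nsmul, Finsupp.smul_apply, nsmul_eq_mul]⟩

theorem exists_fn_of_nsmul {k : ℕ} (h : k • cuspCls p = 0) :
    ∃ g : FF, g ≠ 0 ∧ ∀ v, v.ord g = (k : ℤ) * (cuspDiv p : Divisor Qb FF) v := by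
  rw [cuspCls, Pic0.mk, ← QuotientAddGroup.mk_nsmul, QuotientAddGroup.eq_zero_iff,
    AddSubgroup.mem_addSubgroupOf] at h
  obtain ⟨g, hg, he⟩ := h
  exact ⟨g, hg, fun v => by
    rw [← he, AddSubmonoidClass.coe_nsmul, Finsupp.smul_apply, nsmul_eq_mul]⟩

/-! ### The upper bound -/

theorem adm_unit {w m : ℕ} (hwm : w * m = 12) (hw : w = 12 ∨ w = 4 ∨ w = 3) (h : m ∣ p - 1) :
    EtaQ.Adm (1 * p) w m 1 p := by
  refine ⟨hwm, hw, one_dvd _, dvd_mul_left p 1, ?_, Nat.coprime_one_left m⟩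
  have h1 : (m : ℤ) ∣ ((p - 1 : ℕ) : ℤ) := Int.natCast_dvd_natCast.2 h
  rw [Nat.cast_sub hp.out.one_le] at h1
  simpa using h1.neg_right

theorem ord_unit_eq {w m : ℕ} (h : EtaQ.Adm (1 * p) w m 1 p) {k : ℕ} (hk : m * k = p - 1)
    (v : Place Qb FF) :
    v.ord (EtaQ.etaElt Qb h) = (k : ℤ) * (cuspDiv p : Divisor Qb FF) v := by
  have hm : (m : ℤ) ≠ 0 := Int.natCast_ne_zero.2 h.m_ne
  have hp1 := hp.out.one_le
  have e1 : (1 - (p : ℤ)) / m = -(k : ℤ) := by
    rw [show 1 - (p : ℤ) = (m : ℤ) * (-(k : ℤ)) by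
      have : ((m * k : ℕ) : ℤ) = ((p - 1 : ℕ) : ℤ) := by rw [hk]
      push_cast [Nat.cast_sub hp1] at this
      linarith, Int.mul_ediv_cancel_left _ hm]
  have e2 : ((p : ℤ) - 1) / m = (k : ℤ) := by
    rw [show (p : ℤ) - 1 = (m : ℤ) * (k : ℤ) by
      have : ((m * k : ℕ) : ℤ) = ((p - 1 : ℕ) : ℤ) := by rw [hk]
      push_cast [Nat.cast_sub hp1] at this
      linarith, Int.mul_ediv_cancel_left _ hm]
  rw [ord_unit h, cuspDiv_apply, e1, e2]
  split_ifs <;> ring

theorem addOrderOf_mul_dvd {w m : ℕ} (hwm : w * m = 12) (hw : w = 12 ∨ w = 4 ∨ w = 3)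
    (h : m ∣ p - 1) : addOrderOf (cuspCls p) * m ∣ p - 1 := by
  obtain ⟨k, hk⟩ := h
  rw [hk, mul_comm]
  refine mul_dvd_mul_left m (addOrderOf_dvd_of_nsmul_eq_zero ?_)
  exact nsmul_cuspCls_eq_zero p _ (EtaQ.etaElt_ne_zero (adm_unit p hwm hw ⟨k, hk⟩))
    fun v => ord_unit_eq p _ hk.symm v

theorem addOrderOf_mul_two_dvd (hp2 : p ≠ 2) : addOrderOf (cuspCls p) * 2 ∣ p - 1 := by
  have hodd : p % 2 = 1 := hp.out.eq_two_or_odd.resolve_left hp2
  have h := adm_unit p (w := 12) (m := 1) rfl (Or.inl rfl) (one_dvd _)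
  obtain ⟨g, hg⟩ := exists_sqrt_unit (1 * p) p Qb (dvd_mul_left p 1) hodd h (EtaQ.etaElt Qb h)
    (EtaQ.coe_etaElt h)
  obtain ⟨k, hk⟩ : 2 ∣ p - 1 := by omega
  rw [hk, mul_comm]
  refine mul_dvd_mul_left 2 (addOrderOf_dvd_of_nsmul_eq_zero ?_)
  let g' : FF := g
  have hg' : g' ^ 2 = EtaQ.etaElt Qb h := hg
  have hne : g' ≠ 0 := fun e => EtaQ.etaElt_ne_zero h (by rw [← hg', e, zero_pow two_ne_zero])
  refine nsmul_cuspCls_eq_zero p g' hne fun v => ?_
  have h1 := ord_unit_eq p h (k := p - 1) (one_mul _) v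
  rw [← hg', place_ord_pow, hk] at h1
  push_cast at h1
  linarith

theorem addOrderOf_dvd (hp5 : 5 ≤ p) : addOrderOf (cuspCls p) ∣ eisensteinNumerator p := by
  set o := addOrderOf (cuspCls p)
  set d := Nat.gcd (p - 1) 12 with hd
  have h2 := addOrderOf_mul_two_dvd p (by omega)
  have h3 : 3 ∣ p - 1 → o * 3 ∣ p - 1 := fun h =>
    addOrderOf_mul_dvd p (w := 4) rfl (Or.inr (Or.inl rfl)) h
  have h4 : 4 ∣ p - 1 → o * 4 ∣ p - 1 := fun h =>
    addOrderOf_mul_dvd p (w := 3) rfl (Or.inr (Or.inr rfl)) h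
  have hd1 : d ∣ p - 1 := Nat.gcd_dvd_left _ _
  suffices h : o * d ∣ p - 1 by
    rw [eisensteinNumerator, ← hd]
    exact Nat.dvd_div_of_mul_dvd (by rwa [mul_comm] at h)
  have hpe : 2 ∣ p - 1 := by
    have := hp.out.eq_two_or_odd; omega
  have hlcm : ∀ {a b : ℕ}, o * a ∣ p - 1 → o * b ∣ p - 1 → o * Nat.lcm a b ∣ p - 1 :=
    fun ha hb => by rw [← Nat.lcm_mul_left]; exact Nat.lcm_dvd ha hb
  have hd12 : d ∣ 12 := Nat.gcd_dvd_right _ _
  have hd2 : 2 ∣ d := Nat.dvd_gcd hpe (by norm_num)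
  have hmem : d = 2 ∨ d = 4 ∨ d = 6 ∨ d = 12 := by
    have h12 : d ≤ 12 := Nat.le_of_dvd (by norm_num) hd12
    interval_cases d <;> omega
  rcases hmem with e | e | e | e <;> rw [e] at hd1 ⊢
  · exact h2
  · exact h4 hd1
  · exact hlcm h2 (h3 ((by norm_num : 3 ∣ 6).trans hd1))
  · exact hlcm (h3 ((by norm_num : 3 ∣ 12).trans hd1)) (h4 ((by norm_num : 4 ∣ 12).trans hd1))

/-! ### The lower bound -/

/-- A function without zeros and poles is constant. -/
theorem exists_eq_const {r : FF} (h : ∀ v : Place Qb FF, v.ord r = 0) :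
    ∃ b : Qb, r = algebraMap Qb FF b := by
  by_contra hno
  push Not at hno
  obtain ⟨v, hv⟩ := exists_ord_neg (isFunctionField_level Qb (1 * p))
    (transcendental_of_not_const hno)
  have := h v
  omega

/-- The leading coefficient of a function at `∞`. -/
def lead (x : FF) : Qb := (x : LaurentSeries Qb).leadingCoeff

theorem lead_mul (x y : FF) : lead p (x * y) = lead p x * lead p y :=
  HahnSeries.leadingCoeff_mul _ _

theorem lead_pow (x : FF) (n : ℕ) : lead p (x ^ n) = lead p x ^ n := by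
  induction n with
  | zero =>
    show ((1 : LaurentSeries Qb)).leadingCoeff = _
    simp
  | succ n ih => rw [pow_succ, lead_mul, ih, pow_succ]

theorem lead_algebraMap (c : Qb) : lead p (algebraMap Qb FF c) = c := by
  show (algebraMap Qb (LaurentSeries Qb) c).leadingCoeff = c
  rw [algebraMap_laurentSeries_eq_single, HahnSeries.leadingCoeff_of_single]

theorem lead_ne_zero {x : FF} (hx : x ≠ 0) : lead p x ≠ 0 :=
  HahnSeries.leadingCoeff_ne_zero.2 fun h => hx (Subtype.ext h)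

theorem lead_gal (σ : GQ) (x : FF) : lead p (galAut (1 * p) Qb σ • x) = σ (lead p x) := by
  show (coeffMap (σ : Qb →+* Qb) (x : LaurentSeries Qb)).leadingCoeff =
    σ (x : LaurentSeries Qb).leadingCoeff
  rw [HahnSeries.leadingCoeff_eq, HahnSeries.leadingCoeff_eq, FA.JTorsion.order_coeffMap,
    coeffMap_coeff]
  rfl

theorem lead_etaElt {w m : ℕ} {a b : ℕ} [NeZero a] [NeZero b] (h : EtaQ.Adm (1 * p) w m a b) :
    lead p (EtaQ.etaElt Qb h) = 1 := by
  rw [lead, EtaQ.coe_etaElt, HahnSeries.leadingCoeff_eq, order_etaSer, EtaQ.etaSer_coeff_lead]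

/-- Functions with the same orders and leading coefficient are equal. -/
theorem eq_of_ord_eq {x y : FF} (hx : x ≠ 0) (hy : y ≠ 0) (h : ∀ v : Place Qb FF, v.ord x = v.ord y)
    (hl : lead p x = lead p y) : x = y := by
  obtain ⟨c, hc⟩ := exists_eq_const p
    (r := x * y⁻¹) fun v => by rw [v.ord_mul hx (inv_ne_zero hy), v.ord_inv, h]; ring
  rw [← div_eq_mul_inv, div_eq_iff hy] at hc
  rw [hc, lead_mul, lead_algebraMap, mul_eq_right₀ (lead_ne_zero p hy)] at hl
  rw [hc, hl, map_one]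
  exact one_mul y

theorem ord_flip_smul (v : Place Qb FF) (f : FF) :
    (flipW p • v).ord f = v.ord (flipW p f) := by
  have h := Place.ord_smul (flipW p) v (flipW p f)
  rwa [flipW_flipW] at h

theorem flip_zero : flipW p • zero p = infty p :=
  (FA.Mazur.place_eq_of_ord one_pos one_pos fun f => by
    rw [ord_flip_smul, ord_zero', flipW_flipW]).1

theorem cuspDiv_flip (v : Place Qb FF) :
    (cuspDiv p : Divisor Qb FF) (flipW p • v) = -(cuspDiv p : Divisor Qb FF) v := by
  classical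
  rw [cuspDiv_apply, cuspDiv_apply]
  by_cases h1 : v = infty p
  · subst h1
    rw [show flipW p • infty p = zero p from rfl, if_neg (infty_ne_zero p).symm, if_pos rfl,
      if_pos rfl, neg_neg]
  by_cases h2 : v = zero p
  · subst h2
    rw [flip_zero, if_pos rfl, if_neg h1, if_pos rfl]
  have h3 : flipW p • v ≠ infty p := fun e => h2 (by
    rw [← flip_zero] at e; exact MulAction.injective (flipW p) e)
  have h4 : flipW p • v ≠ zero p := fun e => h1 (MulAction.injective (flipW p) e)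
  rw [if_neg h3, if_neg h4, if_neg h1, if_neg h2, neg_zero]

theorem cuspDiv_gal (σ : GQ) (v : Place Qb FF) :
    (cuspDiv p : Divisor Qb FF) ((galAut (1 * p) Qb σ)⁻¹ • v) =
      (cuspDiv p : Divisor Qb FF) v := by
  classical
  have h1 : (galAut (1 * p) Qb σ)⁻¹ • v = infty p ↔ v = infty p := by
    rw [inv_smul_eq_iff, gal_infty]
  have h2 : (galAut (1 * p) Qb σ)⁻¹ • v = zero p ↔ v = zero p := by
    rw [inv_smul_eq_iff, gal_zero]
  rw [cuspDiv_apply, cuspDiv_apply]
  simp only [h1, h2]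

theorem dvd_of_nsmul_eq_zero {k : ℕ} (hk : k • cuspCls p = 0) : eisensteinNumerator p ∣ k := by
  obtain ⟨g, hg, hord⟩ := exists_fn_of_nsmul p hk
  set c := algebraMap Qb FF (lead p g)⁻¹ with hcdef
  have hc : c ≠ 0 := (_root_.map_ne_zero _).2 (inv_ne_zero (lead_ne_zero p hg))
  set g1 := c * g with hg1
  have hg0 : g1 ≠ 0 := mul_ne_zero hc hg
  have hord1 : ∀ v, v.ord g1 = (k : ℤ) * (cuspDiv p : Divisor Qb FF) v := fun v => by
    rw [hg1, v.ord_mul hc hg, hcdef, ord_const v (inv_ne_zero (lead_ne_zero p hg)), zero_add, hord]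
  have hl1 : lead p g1 = 1 := by
    rw [hg1, lead_mul, hcdef, lead_algebraMap, inv_mul_cancel₀ (lead_ne_zero p hg)]
  have hfix : ∀ σ : GQ, galAut (1 * p) Qb σ • g1 = g1 := fun σ => by
    refine eq_of_ord_eq p ((smul_ne_zero_iff_ne _).2 hg0) hg0 (fun v => ?_)
      (by rw [lead_gal, hl1, map_one])
    conv_lhs => rw [show v = galAut (1 * p) Qb σ • ((galAut (1 * p) Qb σ)⁻¹ • v) from
      (smul_inv_smul _ v).symm]
    rw [SemilinearAut.ord_smul, hord1, hord1, cuspDiv_gal]
  have hWg0 : flipW p g1 ≠ 0 := (_root_.map_ne_zero _).2 hg0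
  obtain ⟨κ, hκ⟩ := exists_eq_const p
    (r := g1 * flipW p g1) fun v => by
      rw [v.ord_mul hg0 hWg0, ← ord_flip_smul, hord1, hord1, cuspDiv_flip]
      ring
  have hκfix : ∀ σ : GQ, σ κ = κ := fun σ => by
    have h := congrArg (galAut (1 * p) Qb σ • ·) hκ
    simp only [smul_mul', SemilinearAut.smul_algebraMap] at h
    rw [← show flipW p (galAut (1 * p) Qb σ • g1) = galAut (1 * p) Qb σ • flipW p g1 from
      wLvl_gal (L := Qb) (hqM := not_dvd_one p) 1 p σ g1, hfix, hκ] at h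
    exact ((algebraMap Qb FF).injective h).symm
  obtain ⟨q, hq⟩ := FA.Local.exists_ratCast_of_fixed κ hκfix
  have h := adm_unit p (w := 12) (m := 1) rfl (Or.inl rfl) (one_dvd _)
  set u := EtaQ.etaElt Qb h with hu
  have hgu : g1 ^ (p - 1) = u ^ k := eq_of_ord_eq p (pow_ne_zero _ hg0)
    (pow_ne_zero _ (EtaQ.etaElt_ne_zero h)) (fun v => by
      rw [place_ord_pow, place_ord_pow, hord1, ord_unit_eq p h (k := p - 1) (one_mul _)]
      ring)
    (by rw [lead_pow, lead_pow, hl1, hu, lead_etaElt, one_pow, one_pow])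
  have h' : EtaQ.Adm (1 * p) 12 1 (1 * p) 1 :=
    ⟨rfl, Or.inl rfl, dvd_rfl, one_dvd _, one_dvd _, Nat.coprime_one_right _⟩
  obtain ⟨d, hd, hW⟩ := EtaQ.exists_wLvl_etaElt (L := Qb) (not_dvd_one p) (r := 1) dvd_rfl h h'
  have hlWu : lead p (flipW p u) = (p : Qb) ^ 12 := by
    rw [show flipW p u = _ from hW, lead_mul, lead_algebraMap, lead_etaElt, mul_one, ← pow_one d,
      hd, mul_one]
  have hmain : κ ^ (p - 1) = ((p : Qb) ^ 12) ^ k := by
    rw [← lead_algebraMap p κ, ← lead_pow, ← hκ, mul_pow, ← map_pow, hgu, map_pow, lead_mul,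
      lead_pow, lead_pow, hu, lead_etaElt, ← hu, hlWu, one_pow, one_mul]
  have hq' : q ^ (p - 1) = (p : ℚ) ^ (12 * k) := by
    rw [← hq, ← pow_mul] at hmain
    exact_mod_cast hmain
  have hval := congrArg (padicValRat p) hq'
  rw [padicValRat.pow, padicValRat.pow, padicValRat.self hp.out.one_lt, mul_one] at hval
  have hdvd : p - 1 ∣ 12 * k := Int.natCast_dvd_natCast.1 ⟨padicValRat p q, by
    push_cast at hval ⊢; linarith⟩
  set e := Nat.gcd (p - 1) 12 with he
  have he0 : 0 < e := Nat.gcd_pos_of_pos_right _ (by norm_num)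
  rw [eisensteinNumerator, ← he]
  refine (Nat.coprime_div_gcd_div_gcd he0).dvd_of_dvd_mul_left (m := 12 / e) ?_
  refine Nat.dvd_of_mul_dvd_mul_left he0 ?_
  rw [Nat.mul_div_cancel' (Nat.gcd_dvd_left _ _), ← mul_assoc,
    Nat.mul_div_cancel' (Nat.gcd_dvd_right _ _)]
  exact hdvd

/-- **The class of `(0) - (∞)` has order the numerator of `(p - 1) / 12`.** -/
theorem addOrderOf_cuspCls (hp5 : 5 ≤ p) :
    addOrderOf (cuspCls p) = eisensteinNumerator p :=
  Nat.dvd_antisymm (addOrderOf_dvd p hp5) (dvd_of_nsmul_eq_zero p (addOrderOf_nsmul_eq_zero _))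

/-- The class is rational. -/
theorem gal_cuspCls (σ : GQ) : σ • (cuspCls p : JZero (1 * p)) = cuspCls p := by
  rw [cuspCls, galois_smul_pic0_def, SemilinearAut.pic0_smul_mk]
  refine congrArg Pic0.mk (Subtype.ext ?_)
  show galAut (1 * p) Qb σ • (Finsupp.single (zero p) (1 : ℤ) - Finsupp.single (infty p) 1) = _
  rw [smul_sub, SemilinearAut.smul_single, SemilinearAut.smul_single, gal_zero, gal_infty]
  rfl

end FA.CuspClass

end
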