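import Fermat.Agent.EisReducible.TorsionLattice
import Fermat.Agent.ModField.Semistable.ConjLattice
import Fermat.Agent.ModField.Semistable.ComplexConj
import Fermat.Agent.JTorsion.GoodRedAll
import Fermat.Agent.LocalDef.Qbar

/-!
# Rational torsion of `J₀(N)` and complex conjugation on torsion

A rational torsion class is killed by `1 + ℓ - T_ℓ` for the primes `ℓ` prime to the level and its
order, by the congruence relation. For an odd prime `l` complex conjugation moves some class of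
order `l` as soon as there is a cusp form.
-/

set_option autoImplicit false
set_option linter.style.haveILetI false
set_option linter.unusedSectionVars false
set_option synthInstance.maxHeartbeats 400000
set_option maxHeartbeats 1000000

noncomputable section

open ModularCurve FA.JTorsion FA.ModField

namespace FA.CuspClass

local notation "Qb" => AlgebraicClosure ℚ
local notation "GQ" => AlgebraicClosure ℚ ≃ₐ[ℚ] AlgebraicClosure ℚ

variable [Algebra Qb ℂ] (N : ℕ) [NeZero N]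

/-- **The congruence relation on a fixed torsion class.** -/
theorem heckeT_smul_of_fixed (n : ℕ) [NeZero n] (q : ModN N (∅ : Set ℕ) n)
    (hfix : ∀ σ : GQ, σ • toTors N (∅ : Set ℕ) n q = toTors N (∅ : Set ℕ) n q) {ℓ : ℕ}
    (hℓ : ℓ.Prime) (hℓN : ¬ ℓ ∣ N) (hℓn : ¬ ℓ ∣ n) :
    CuspForm.heckeAlgebra.T (k := 2) hℓ hℓN (Set.notMem_empty ℓ) • q = (1 + ℓ) • q := by
  obtain ⟨A, hA⟩ := FA.Deform.exists_liesOverPrime hℓ
  obtain ⟨σ, hσ⟩ := FA.Deform.exists_isFrobeniusAt hℓ hA
  have hg : ∀ τ : GQ, galMod N (∅ : Set ℕ) n τ q = q := fun τ =>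
    toTors_injective N (∅ : Set ℕ) n ((toTors_galMod N (∅ : Set ℕ) n τ q).trans (hfix τ))
  have h := galMod_frobenius N (∅ : Set ℕ) n (goodRed_all N) hℓ hℓN hℓn hA
    (Set.notMem_empty ℓ) hσ q
  rw [hg, hg] at h
  rw [← h, add_smul, one_smul]

/-- A fixed torsion class is killed by `1 + ℓ - a` when `T_ℓ` is multiplication by `a`. -/
theorem zsmul_eq_zero_of_fixed {ℓ : ℕ} (hℓ : ℓ.Prime) (hℓN : ¬ ℓ ∣ N) {a : ℤ}
    (hT : CuspForm.heckeTLin (N := N) 2 hℓ hℓN = (a : ℂ) • 1) {x : JZero N}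
    (hx : IsOfFinAddOrder x) (hℓx : ¬ ℓ ∣ addOrderOf x) (hfix : ∀ σ : GQ, σ • x = x) :
    (1 + (ℓ : ℤ) - a) • x = 0 := by
  haveI : NeZero (addOrderOf x) := ⟨hx.addOrderOf_pos.ne'⟩
  obtain ⟨q, hq⟩ := FA.EisReducible.exists_toTors_eq_of_nsmul N (addOrderOf x) x
    (addOrderOf_nsmul_eq_zero x)
  have hTa : CuspForm.heckeAlgebra.T (k := 2) hℓ hℓN (Set.notMem_empty ℓ) =
      (a : CuspForm.heckeAlgebra N 2 (∅ : Set ℕ)) := Subtype.ext (by
    rw [CuspForm.heckeAlgebra.coe_T, hT, Int.cast_smul_eq_zsmul, zsmul_one]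
    exact (map_intCast (CuspForm.heckeAlgebra N 2 (∅ : Set ℕ)).val a).symm)
  have h := heckeT_smul_of_fixed N _ q (by rw [hq]; exact hfix) hℓ hℓN hℓx
  rw [hTa, Int.cast_smul_eq_zsmul] at h
  have h2 := congrArg (toTors N (∅ : Set ℕ) (addOrderOf x)) h
  rw [map_zsmul, map_nsmul, hq, ← natCast_zsmul] at h2
  rw [sub_smul, h2, Nat.cast_add, Nat.cast_one, sub_self]

theorem latMod_eq_zero_of_zsmul {r : ℤ} (hr : r ≠ 0) {x : LatMod N (∅ : Set ℕ)}
    (h : r • x = 0) : x = 0 := by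
  refine (LatMod.val N _).injective ?_
  rw [map_zero]
  refine Subtype.ext (AddMonoidHom.ext fun g => ?_)
  have h1 := congrArg (LatMod.val N _) h
  rw [map_zsmul, map_zero] at h1
  have h2 : r * (LatMod.val N (∅ : Set ℕ) x).1 g = 0 := by
    simpa using DFunLike.congr_fun (congrArg Subtype.val h1) g
  exact (mul_eq_zero.1 h2).resolve_left hr

/-- **Complex conjugation moves a class of order `l`**, `l` an odd prime. -/
theorem exists_moved_by_conj (l : ℕ) [hl : Fact l.Prime] (hl2 : l ≠ 2)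
    [Nontrivial (CuspForm (CongruenceSubgroup.Gamma0 N) 2)] {c : GQ} (hc : IsConj Qb c) :
    haveI : NeZero l := ⟨hl.out.ne_zero⟩
    ∃ y : ModN N (∅ : Set ℕ) l, galMod N (∅ : Set ℕ) l c y ≠ y := by
  haveI : NeZero l := ⟨hl.out.ne_zero⟩
  by_contra hall
  push Not at hall
  set P := jPart N 1
  haveI : Module.Finite ℤ ↥(P.restrictScalars ℤ) := inferInstance
  have hdiv : ∀ x ∈ P, ∃ z ∈ P, x = (l : ℤ) • z := by
    intro x hx
    have hjx : jLat N (∅ : Set ℕ) x = x := by
      rw [show jLat N (∅ : Set ℕ) x = (1 : ℤ) • x from hx, one_smul]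
    have h := hall (Submodule.Quotient.mk x)
    rw [galMod_conj hc, hjx, Submodule.Quotient.eq, mem_nMultiples] at h
    obtain ⟨z, hz⟩ := h
    obtain ⟨k, hk⟩ := hl.out.odd_of_ne_two hl2
    rw [← natCast_zsmul] at hz
    have hjz : jLat N (∅ : Set ℕ) z = z := by
      refine sub_eq_zero.1 (latMod_eq_zero_of_zsmul N (Int.natCast_ne_zero.2 hl.out.ne_zero) ?_)
      rw [smul_sub, ← map_zsmul, hz, map_sub, map_neg, hjx, sub_self]
    refine ⟨x + (k : ℤ) • z, ?_, ?_⟩
    · show jLat N (∅ : Set ℕ) _ = (1 : ℤ) • _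
      rw [map_add, map_zsmul, hjx, hjz, one_smul]
    · rw [smul_add, smul_comm, hz, hk, Nat.cast_add, Nat.cast_mul, Nat.cast_one, Nat.cast_ofNat,
        add_smul, mul_smul, one_smul, two_smul, smul_sub, smul_neg]
      abel
  obtain ⟨r, hr, hr0⟩ := Submodule.exists_sub_one_mem_and_smul_eq_zero_of_fg_of_le_smul
    (Ideal.span {(l : ℤ)}) (P.restrictScalars ℤ) (Module.Finite.iff_fg.1 inferInstance)
    fun x hx => by
      obtain ⟨z, hz, rfl⟩ := hdiv x hx
      exact Submodule.smul_mem_smul (Ideal.mem_span_singleton_self _) hz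
  have hr' : r ≠ 0 := fun h0 => by
    rw [h0, zero_sub, Ideal.neg_mem_iff, Ideal.mem_span_singleton] at hr
    exact hl.out.one_lt.ne' (by simpa using Int.natAbs_dvd_natAbs.2 hr)
  have h1 : (1 : CuspForm.heckeAlgebra N 2 (∅ : Set ℕ)) = 0 :=
    eq_zero_of_jPart N (Or.inl rfl) fun x hx => by
      rw [one_smul]
      exact latMod_eq_zero_of_zsmul N hr' (hr0 x hx)
  obtain ⟨f, hf⟩ := exists_ne (0 : CuspForm (CongruenceSubgroup.Gamma0 N) 2)
  exact hf (LinearMap.congr_fun (congrArg Subtype.val h1) f)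

end FA.CuspClass

end
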