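import Fermat.Agent.CuspClass.Nineteen

/-!
# Rational torsion of `J₀(17)`

`T₃ = 0` on the line of cusp forms of level `17`, so rational torsion is killed by `4`; and were all
classes killed by `2` rational, the square of Frobenius at `3`, which is `-3` on the classes killed
by `8`, would fix a half of the cuspidal class of order `4`. So rational torsion is cyclic of
order `4`.
-/

set_option autoImplicit false
set_option linter.style.haveILetI false
set_option linter.unusedSectionVars false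
set_option synthInstance.maxHeartbeats 400000
set_option maxHeartbeats 2000000

noncomputable section

open ModularCurve AlgebraicCurve FA.JTorsion FA.ModField FA.Level CongruenceSubgroup

namespace FA.CuspClass

local notation "Qb" => AlgebraicClosure ℚ
local notation "GQ" => AlgebraicClosure ℚ ≃ₐ[ℚ] AlgebraicClosure ℚ

theorem finrank_cuspForm_seventeen : Module.finrank ℂ (CuspForm (Gamma0 17) 2) = 1 := by
  have h20 := (Fermat.Agent.S20.result 17).trans FA.Ribet.genusFormula_17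
  exact_mod_cast h20

theorem heckeTLin_seventeen_three :
    CuspForm.heckeTLin (N := 17) 2 Nat.prime_three (by norm_num) = ((0 : ℤ) : ℂ) • 1 := by
  have p17 : Nat.Prime 17 := by norm_num
  obtain ⟨f, hf, hfl⟩ := FA.Ribet.exists_eigenform_of_natAbs (E := FA.Ribet.curve17) (i := 0)
    (j := 1) (N := 17) p17 (by decide) (Or.inl rfl) (by decide) (by norm_num) p17.prime.squarefree
  refine heckeTLin_of_line finrank_cuspForm_seventeen hf.qCoeff_one _ _ ?_
  rw [hfl 3 Nat.prime_three (by norm_num), FA.Ribet.curve17_three]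

variable [Algebra Qb ℂ]

/-- **Rational torsion of `J₀(17)` is killed by four.** -/
theorem four_nsmul_eq_zero {x : JZero 17} (hx : IsOfFinAddOrder x)
    (hfix : ∀ σ : GQ, σ • x = x) : (4 : ℕ) • x = 0 := by
  haveI : Fact (Nat.Prime 17) := ⟨by norm_num⟩
  obtain ⟨a, m, hm, hn⟩ :=
    Nat.exists_eq_pow_mul_and_not_dvd hx.addOrderOf_pos.ne' 3 (by norm_num)
  have e1 : (4 : ℕ) • 3 ^ a • x = 0 := by
    have h := zsmul_eq_zero_of_fixed 17 Nat.prime_three (by norm_num)
      heckeTLin_seventeen_three (x := 3 ^ a • x) hx.nsmul (fun h => hm (h.trans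
        (addOrderOf_dvd_of_nsmul_eq_zero (by
          rw [smul_smul, mul_comm, ← hn, addOrderOf_nsmul_eq_zero]))))
      (gal_nsmul 17 hfix _)
    rw [show (1 : ℤ) + ((3 : ℕ) : ℤ) - 0 = ((4 : ℕ) : ℤ) by norm_num, natCast_zsmul] at h
    exact h
  have e2 : (4 : ℕ) • m • x = 0 := by
    obtain ⟨Pinf, P0, hdeg, -, -, -, hc, hiff⟩ :=
      FA.Summary.prime_level_rational_torsion_odd (p := 17) (by norm_num)
    obtain ⟨k, hk⟩ := AddSubgroup.mem_zmultiples_iff.1 ((hiff (3 ^ a) (Odd.pow (by decide))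
      (m • x) (by rw [smul_smul, ← hn, addOrderOf_nsmul_eq_zero])).1 (gal_nsmul 17 hfix _))
    refine addOrderOf_dvd_iff_nsmul_eq_zero.1 ?_
    rw [← hk]
    refine (addOrderOf_dvd_of_mem_zmultiples (AddSubgroup.zsmul_mem_zmultiples _ k)).trans ?_
    rw [hc]
    decide
  refine AddMonoid.addOrderOf_eq_one_iff.1 (Nat.eq_one_of_dvd_coprimes
    ((Nat.prime_three.coprime_iff_not_dvd.2 hm).pow_left a)
    (addOrderOf_dvd_of_nsmul_eq_zero ?_) (addOrderOf_dvd_of_nsmul_eq_zero ?_))
  · rw [smul_comm]; exact e1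
  · rw [smul_comm]; exact e2

/-- The square of Frobenius at `3` is `-3` on classes killed by `8`. -/
theorem frobenius_sq {A : ValuationSubring Qb} (hA : A.LiesOverPrime 3) {σ : GQ}
    (hσ : A.IsFrobeniusAt σ 3) {y : JZero 17} (hy : (8 : ℕ) • y = 0) :
    σ • σ • y + (3 : ℕ) • y = 0 := by
  obtain ⟨q, rfl⟩ := FA.EisReducible.exists_toTors_eq_of_nsmul 17 8 y hy
  have hT : CuspForm.heckeAlgebra.T (k := 2) Nat.prime_three (show ¬ 3 ∣ 17 by norm_num)
      (Set.notMem_empty 3) = (0 : CuspForm.heckeAlgebra 17 2 (∅ : Set ℕ)) := Subtype.ext (by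
    rw [CuspForm.heckeAlgebra.coe_T, heckeTLin_seventeen_three, Int.cast_zero, zero_smul]
    exact (map_zero (CuspForm.heckeAlgebra 17 2 (∅ : Set ℕ)).val).symm)
  have h := galMod_frobenius 17 (∅ : Set ℕ) 8 (goodRed_all 17) Nat.prime_three
    (show ¬ 3 ∣ 17 by norm_num) (show ¬ 3 ∣ 8 by norm_num) hA (Set.notMem_empty 3) hσ q
  rw [hT, zero_smul] at h
  have h2 := congrArg (galMod 17 (∅ : Set ℕ) 8 σ) h
  rw [map_zero, map_add, map_nsmul, ← Module.End.mul_apply (galMod 17 (∅ : Set ℕ) 8 σ)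
    (galMod 17 (∅ : Set ℕ) 8 σ⁻¹), ← map_mul, mul_inv_cancel, map_one, Module.End.one_apply] at h2
  have h3 := congrArg (toTors 17 (∅ : Set ℕ) 8) h2
  rwa [map_add, map_nsmul, map_zero, toTors_galMod, toTors_galMod] at h3

/-- **A rational class of order four generates the rational torsion of `J₀(17)`.** -/
theorem mem_zmultiples_seventeen {c : JZero 17} (hc : addOrderOf c = 4)
    (hcfix : ∀ σ : GQ, σ • c = c) {x : JZero 17} (hx : IsOfFinAddOrder x)
    (hxfix : ∀ σ : GQ, σ • x = x) : x ∈ AddSubgroup.zmultiples c := by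
  classical
  haveI : Fact (Nat.Prime 17) := ⟨by norm_num⟩
  by_contra hxc
  have h4 := four_nsmul_eq_zero hx hxfix
  have hc4 : (4 : ℕ) • c = 0 := by rw [← hc, addOrderOf_nsmul_eq_zero]
  have hc2 : (2 : ℕ) • c ≠ 0 := fun h => by
    have := Nat.le_of_dvd two_pos (addOrderOf_dvd_of_nsmul_eq_zero h)
    omega
  have hmemc : ∀ k : ℕ, k • c ∈ AddSubgroup.zmultiples c := fun k =>
    AddSubgroup.nsmul_mem _ (AddSubgroup.mem_zmultiples c) k
  obtain ⟨e, he2, hefix, he0, hec⟩ : ∃ e : JZero 17, (2 : ℕ) • e = 0 ∧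
      (∀ σ : GQ, σ • e = e) ∧ e ≠ 0 ∧ e ≠ (2 : ℕ) • c := by
    by_cases h2 : (2 : ℕ) • x = 0
    · exact ⟨x, h2, hxfix, fun h => hxc (h ▸ zero_mem _), fun h => hxc (h ▸ hmemc 2)⟩
    by_cases h2c : (2 : ℕ) • x = (2 : ℕ) • c
    · refine ⟨x - c, by rw [nsmul_sub, h2c, sub_self], fun σ => ?_, fun h => hxc ?_,
        fun h => hxc ?_⟩
      · exact (smul_sub σ x c).trans (congrArg₂ (· - ·) (hxfix σ) (hcfix σ))
      · rw [sub_eq_zero.1 h]; exact AddSubgroup.mem_zmultiples c
      · rw [sub_eq_iff_eq_add.1 h]; exact add_mem (hmemc 2) (AddSubgroup.mem_zmultiples c)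
    · exact ⟨(2 : ℕ) • x, by rw [smul_smul]; exact h4, gal_nsmul 17 hxfix 2, h2, h2c⟩
  haveI : Fact (Nat.Prime 2) := ⟨Nat.prime_two⟩
  let T : AddSubgroup (JZero 17) := tors (lvlGamma0 17) Qb 2
  haveI : Finite T := tors_finite (lvlGamma0 17) Qb 2
  let F : AddSubgroup T :=
    { carrier := {y : T | ∀ σ : GQ, σ • ((y : JZero 17)) = (y : JZero 17)}
      add_mem' := fun {y z} hy hz σ => by
        rw [AddSubgroup.coe_add]
        exact (smul_add σ (y : JZero 17) (z : JZero 17)).trans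
          (congrArg₂ (· + ·) (hy σ) (hz σ))
      zero_mem' := fun σ => by
        rw [ZeroMemClass.coe_zero]
        exact smul_zero σ
      neg_mem' := fun {y} hy σ => by
        rw [NegMemClass.coe_neg]
        exact (smul_neg σ (y : JZero 17)).trans (congrArg Neg.neg (hy σ)) }
  have hcard : Nat.card T = 2 ^ 2 := by
    have h : Nat.card T = 2 ^ (2 * FA.Curve.genus Qb (levelField 17 Qb)) :=
      FA.PicTors.natCard_torsion_of_functionField FA.PicTors.countComplex
        (isFunctionField_level Qb 17) 2 (NeZero.ne 2)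
    rwa [curveGenus_level Qb 17, finrank_cuspForm_seventeen, mul_one] at h
  have hmem : ∀ {y : JZero 17}, (2 : ℕ) • y = 0 → y ∈ T := fun {y} h =>
    Pic0.mem_torsion.2 ((natCast_zsmul y 2).trans h)
  have hcc : (2 : ℕ) • (2 : ℕ) • c = 0 := by rw [smul_smul]; exact hc4
  let a : F := ⟨⟨(2 : ℕ) • c, hmem hcc⟩, gal_nsmul 17 hcfix 2⟩
  let b : F := ⟨⟨e, hmem he2⟩, hefix⟩
  have h3 : 3 ≤ Nat.card F := by
    haveI : Fintype F := Fintype.ofFinite F
    have hset : ({0, a, b} : Finset F).card = 3 := by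
      have h0a : (0 : F) ≠ a := fun h => hc2 (congrArg (fun z : F => ((z : T) : JZero 17)) h).symm
      have h0b : (0 : F) ≠ b := fun h => he0 (congrArg (fun z : F => ((z : T) : JZero 17)) h).symm
      have hab : a ≠ b := fun h => hec (congrArg (fun z : F => ((z : T) : JZero 17)) h).symm
      rw [Finset.card_insert_of_notMem (by simp [h0a, h0b]), Finset.card_pair hab]
    rw [← hset, Nat.card_eq_fintype_card]
    exact Finset.card_le_univ _
  have htop : F = ⊤ := AddSubgroup.eq_top_of_card_eq F (by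
    have hd : Nat.card F ∣ 2 ^ 2 := hcard ▸ AddSubgroup.card_addSubgroup_dvd_card F
    rw [hcard]
    have := Nat.le_of_dvd (by norm_num) hd
    interval_cases h : Nat.card F
    · exact absurd hd (by norm_num)
    · rfl)
  obtain ⟨y, hy⟩ := FA.JTorsion.jZero_exists_nsmul_eq 17 Nat.prime_two c
  obtain ⟨A, hA⟩ := FA.Deform.exists_liesOverPrime Nat.prime_three
  obtain ⟨σ, hσ⟩ := FA.Deform.exists_isFrobeniusAt Nat.prime_three hA
  have hy8 : (8 : ℕ) • y = 0 := by
    rw [show (8 : ℕ) = 4 * 2 from rfl, mul_smul, hy, hc4]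
  have hd2 : (2 : ℕ) • (σ • y - y) = 0 := by
    rw [nsmul_sub, hy]
    refine sub_eq_zero.2 ?_
    rw [← hcfix σ, ← hy]
    exact ((DistribSMul.toAddMonoidHom (JZero 17) σ).map_nsmul 2 y).symm
  have hdfix : σ • (σ • y - y) = σ • y - y :=
    (htop ▸ AddSubgroup.mem_top _ : (⟨_, hmem hd2⟩ : T) ∈ F) σ
  have hss : σ • σ • y = y := by
    have h1 : σ • σ • y - σ • y = σ • y - y := (smul_sub σ (σ • y) y).symm.trans hdfix
    calc σ • σ • y = (σ • σ • y - σ • y) + (σ • y - y) + y := by abel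
      _ = (2 : ℕ) • (σ • y - y) + y := by rw [h1, two_nsmul]
      _ = y := by rw [hd2, zero_add]
  have h := frobenius_sq hA hσ hy8
  rw [hss] at h
  refine hc2 ?_
  rw [← hy, smul_smul, show 2 * 2 = 3 + 1 from rfl, succ_nsmul, add_comm]
  exact h

end FA.CuspClass

end
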