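import Fermat.Agent.CuspClass.EisensteinThree
import Fermat.Agent.CuspClass.LevelPrimeTorsion
import Fermat.Agent.Root.SummaryPrimeLevelTorsionGroup

/-!
# The odd rational torsion of `J₀(p)`

With the value at `U_p` of an Eisenstein system known modulo `3` as well, the Eisenstein ideal
kills the rational torsion of order prime to `2 p`, and the rational classes killed by an odd
prime `l ≠ p` form a line: they are multiples of the cuspidal class.
-/

set_option autoImplicit false
set_option linter.style.haveILetI false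
set_option linter.unusedSectionVars false
set_option synthInstance.maxHeartbeats 400000
set_option maxHeartbeats 1600000

noncomputable section

open ModularCurve FA.JTorsion FA.Mazur FA.Eis CuspForm

namespace FA.CuspClass

local notation "Qb" => AlgebraicClosure ℚ
local notation "GQ" => AlgebraicClosure ℚ ≃ₐ[ℚ] AlgebraicClosure ℚ

section Kill

variable [Algebra Qb ℂ] {p : ℕ} [hp : Fact p.Prime] (n : ℕ) [NeZero n] (hp5 : 5 ≤ p)
  (hn : n.Coprime (2 * p)) {q₀ : ModN p (∅ : Set ℕ) n}
  (hfix : ∀ σ : GQ, σ • toTors p (∅ : Set ℕ) n q₀ = toTors p (∅ : Set ℕ) n q₀)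

include hn hp5 hfix

theorem tGen_smul_of_fixed_odd (r : Nat.Primes) (hr : (r : ℕ) ≠ p) :
    tGen p r • q₀ = (1 + (r : ℕ)) • q₀ := by
  have hrN : ¬ (r : ℕ) ∣ p := fun h => hr ((Nat.prime_dvd_prime_iff_eq r.2 hp.out).1 h)
  rw [show tGen p r = CuspForm.heckeAlgebra.T (k := 2) r.2 hrN (Set.notMem_empty _) from
    CuspForm.heckeEvalForms_heckeGen_of_not_dvd (ℓ := r) hrN]
  by_cases h2 : (r : ℕ) = 2
  · refine heckeT_smul_of_fixed p n q₀ hfix r.2 hrN fun h => ?_
    rw [h2] at h
    exact absurd (Nat.eq_one_of_dvd_coprimes hn h (by omega)) (by norm_num)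
  · haveI : Fact (r : ℕ).Prime := ⟨r.2⟩
    haveI : NeZero (r : ℕ) := ⟨r.2.ne_zero⟩
    refine toTors_injective p (∅ : Set ℕ) n ?_
    rw [toTors_T_smul p n r.2 hrN (Set.notMem_empty _), map_nsmul]
    exact hecke_eq_of_fixed p h2 hrN
      (isOfFinAddOrder_iff_nsmul_eq_zero.2 ⟨n, NeZero.pos n, nsmul_toTors p (∅ : Set ℕ) n q₀⟩) hfix

/-- **`U_p = 1` on the class.** -/
theorem level_smul_of_fixed_odd : tGen p ⟨p, hp.out⟩ • q₀ = q₀ := by
  classical
  set U := tGen p ⟨p, hp.out⟩
  by_contra hne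
  set z := U • q₀ - q₀ with hz
  have hz0 : z ≠ 0 := sub_ne_zero.2 hne
  have hUz : U • z = -z := by
    rw [hz, smul_sub, smul_smul, FA.EisReducible.tGen_level_sq, one_smul, neg_sub]
  have hTz : ∀ r : Nat.Primes, (r : ℕ) ≠ p → tGen p r • z = (1 + (r : ℕ)) • z := fun r hr => by
    rw [hz, smul_sub, smul_comm, tGen_smul_of_fixed_odd n hp5 hn hfix r hr, nsmul_sub,
      smul_comm (1 + (r : ℕ)) U]
  let I : Ideal (TAlg p) :=
    { carrier := {t | t • z = 0}
      add_mem' := fun {s t} (hs : s • z = 0) (ht : t • z = 0) =>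
        show (s + t) • z = 0 by rw [add_smul, hs, ht, add_zero]
      zero_mem' := zero_smul _ z
      smul_mem' := fun s t (ht : t • z = 0) =>
        show (s * t) • z = 0 by rw [mul_smul, ht, smul_zero] }
  have hI : I ≠ ⊤ := fun h => hz0 (by
    have h1 : (1 : TAlg p) • z = 0 := (h.symm ▸ Submodule.mem_top : (1 : TAlg p) ∈ I)
    rwa [one_smul] at h1)
  obtain ⟨m, hm, hIm⟩ := Ideal.exists_le_maximal I hI
  letI := Ideal.Quotient.field m
  set θ : TAlg p →+* TAlg p ⧸ m := Ideal.Quotient.mk m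
  have hkill : ∀ t : TAlg p, t • z = 0 → θ t = 0 := fun t ht =>
    Ideal.Quotient.eq_zero_iff_mem.2 (hIm ht)
  have hn0 : ((n : ℕ) : TAlg p ⧸ m) = 0 := by
    rw [← map_natCast θ]
    refine hkill _ ?_
    rw [Nat.cast_smul_eq_nsmul]
    exact toTors_injective p (∅ : Set ℕ) n (by rw [map_nsmul, nsmul_toTors, map_zero])
  obtain ⟨l, hlc⟩ := CharP.exists (TAlg p ⧸ m)
  have hln : l ∣ n := (CharP.cast_eq_zero_iff _ l n).1 hn0
  have hl : l.Prime := (CharP.char_is_prime_or_zero (TAlg p ⧸ m) l).resolve_right fun h =>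
    NeZero.ne n (zero_dvd_iff.1 (h ▸ hln))
  haveI := Fact.mk hl
  have hcop : ∀ d : ℕ, d ∣ 2 * p → l ≠ d := fun d hd h =>
    hl.one_lt.ne' (Nat.eq_one_of_dvd_coprimes hn hln (h ▸ hd))
  have h2 : l ≠ 2 := hcop 2 (dvd_mul_right 2 p)
  have heis : ∀ r : Nat.Primes, (r : ℕ) ≠ p →
      θ (tGen p r) = 1 + ((r : ℕ) : TAlg p ⧸ m) := fun r hr => by
    have h := hTz r hr
    rw [← Nat.cast_smul_eq_nsmul (TAlg p), ← sub_eq_zero, ← sub_smul] at h
    have h' := hkill _ h
    rwa [map_sub, sub_eq_zero, map_natCast, Nat.cast_add, Nat.cast_one] at h'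
  have hone : θ U = 1 := by
    by_cases h3 : l = 3
    · subst h3
      exact value_at_level_eq_one_three hp5 θ heis
    · have h4 : l ≠ 4 := fun h => by rw [h] at hl; norm_num at hl
      have := hl.two_le
      exact FA.EisReducible.value_at_level_eq_one (by omega) (hcop p (dvd_mul_left p 2)) θ heis
  have hneg : θ U + 1 = 0 := by
    rw [← map_one θ, ← map_add]
    exact hkill _ (by rw [add_smul, one_smul, hUz, neg_add_cancel])
  rw [hone, one_add_one_eq_two] at hneg
  exact h2 ((Nat.prime_dvd_prime_iff_eq hl Nat.prime_two).1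
    ((CharP.cast_eq_zero_iff (TAlg p ⧸ m) l 2).1 (by exact_mod_cast hneg)))

/-- **The numerator kills the class.** -/
theorem numerator_nsmul_of_fixed_odd : eisensteinNumerator p • q₀ = 0 := by
  have heval : ∀ x : HeckeAlg, heckeEvalForms p 2 x • q₀ =
      ((MvPolynomial.aeval (eisensteinSystem p) x : ℤ) : TAlg p) • q₀ := by
    intro x
    induction x using MvPolynomial.induction_on with
    | C r => simp
    | add x y hx hy => simp only [map_add, add_smul, hx, hy]; push_cast; rw [add_smul]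
    | mul_X x r hx =>
      have hr : tGen p r • q₀ = ((eisensteinSystem p r : ℤ) : TAlg p) • q₀ := by
        rw [eisensteinSystem_eq]
        split_ifs with h
        · rw [Int.cast_one, one_smul]
          have he : r = ⟨p, hp.out⟩ := Subtype.ext h
          rw [he]
          exact level_smul_of_fixed_odd n hp5 hn hfix
        · rw [tGen_smul_of_fixed_odd n hp5 hn hfix r h, ← Nat.cast_smul_eq_nsmul (TAlg p)]
          push_cast
          rfl
      simp only [map_mul, MvPolynomial.aeval_X, Int.cast_mul]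
      rw [show heckeEvalForms p 2 (MvPolynomial.X r) = tGen p r from rfl, mul_smul, hr, smul_comm,
        hx, ← mul_smul, mul_comm, mul_smul]
  obtain ⟨e⟩ := FA.EisensteinPrime.quotient_equiv (p := p)
  have hmem : (eisensteinNumerator p : ↥(heckeLatticeAlgebra p ∅)) ∈
      Ideal.map (latEval p) (eisensteinIdeal p) := by
    rw [← Ideal.Quotient.eq_zero_iff_mem]
    apply e.injective
    simp
  obtain ⟨x, hx, hxn⟩ := (Ideal.mem_map_iff_of_surjective _ latEval_surjective).mp hmem
  have hxT : heckeEvalForms p 2 x = (eisensteinNumerator p : TAlg p) :=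
    (latticeRestrictHom_bijective p ∅ (FA.Period.hasIntegralStructure p 2)).1
      (hxn.trans (map_natCast _ _).symm)
  have h0 := heval x
  rwa [hxT, (mem_eigenIdeal_iff _ x).mp hx, Int.cast_zero, zero_smul,
    Nat.cast_smul_eq_nsmul] at h0

end Kill

section Main

open AlgebraicCurve FA.Curve FA.CurveRed FA.ModField

variable [Algebra Qb ℂ] {p : ℕ} [hp : Fact p.Prime] [NeZero p]

section Line

variable {l : ℕ} [hl : Fact l.Prime]

/-- **Multiplicity one**: the rational classes killed by an odd prime `l ≠ p` form a line. -/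
theorem exists_nsmul_eq_of_fixed_odd (hp5 : 5 ≤ p) (hl2 : l ≠ 2)
    (hlp : l ≠ p) {x y : JZero p} (hlx : l • x = 0)
    (hx : ∀ σ : GQ, σ • x = x) (hly : l • y = 0) (hy : ∀ σ : GQ, σ • y = y) (hy0 : y ≠ 0) :
    ∃ m : ℕ, x = m • y := by
  haveI : NeZero l := ⟨hl.out.ne_zero⟩
  have hlN : ¬ l ∣ p := fun h => hlp ((Nat.prime_dvd_prime_iff_eq hl.out hp.out).1 h)
  have hn : l.Coprime (2 * p) := by
    refine hl.out.coprime_iff_not_dvd.2 fun h => ?_
    rcases hl.out.dvd_mul.1 h with h | h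
    · exact hl2 ((Nat.prime_dvd_prime_iff_eq hl.out Nat.prime_two).1 h)
    · exact hlN h
  obtain ⟨B, hB⟩ := FA.Deform.exists_liesOverPrime hl.out
  haveI := residueAt_charP hB
  haveI : IsAlgClosed (IsLocalRing.ResidueField B) := FA.Frob.residueField_isAlgClosed B
  refine exists_nsmul_eq_aux B p (one_mul p).symm hl2 hlp hB
    (FA.CurveRed.Modular.reductionInputsModL p hl.out hlN B hB).1 ?_ ?_ hlx hx hly hy hy0
  · intro z hlz hz q _ hq hqp hql
    obtain ⟨q₀, rfl⟩ := FA.EisReducible.exists_toTors_eq_of_nsmul p l z hlz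
    have hqN : ¬ q ∣ p := fun h => hqp ((Nat.prime_dvd_prime_iff_eq hq hp.out).1 h)
    have h := tGen_smul_of_fixed_odd l hp5 hn hz ⟨q, hq⟩ hqp
    rw [show FA.Mazur.tGen p ⟨q, hq⟩ =
      CuspForm.heckeAlgebra.T (k := 2) hq hqN (Set.notMem_empty _) from
      CuspForm.heckeEvalForms_heckeGen_of_not_dvd (ℓ := ⟨q, hq⟩) hqN] at h
    have h' := congrArg (toTors p (∅ : Set ℕ) l) h
    rw [toTors_T_smul p l hq hqN, map_nsmul] at h'
    exact h'
  · intro z hlz hz
    obtain ⟨q₀, rfl⟩ := FA.EisReducible.exists_toTors_eq_of_nsmul p l z hlz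
    have h := level_smul_of_fixed_odd l hp5 hn hz
    rw [show FA.Mazur.tGen p ⟨p, hp.out⟩ =
      CuspForm.heckeAlgebra.U (k := 2) hp.out (dvd_refl p) (Set.notMem_empty _) from
      CuspForm.heckeEvalForms_heckeGen_of_dvd (q := ⟨p, hp.out⟩) (dvd_refl p)] at h
    have h' := congrArg (toTors p (∅ : Set ℕ) l) h
    rw [toTors_U_smul p l hp.out (dvd_refl p)] at h'
    exact h'

end Line

theorem mem_zmultiples_of_fixed_odd (hp5 : 5 ≤ p) {c : JZero p}
    (hc : addOrderOf c = eisensteinNumerator p) (hcfix : ∀ σ : GQ, σ • c = c) :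
    ∀ (d : ℕ) (x : JZero p), d.Coprime (2 * p) → d • x = 0 → (∀ σ : GQ, σ • x = x) →
      x ∈ AddSubgroup.zmultiples c := by
  intro d
  induction d using Nat.strong_induction_on with
  | _ d ih =>
    intro x hd hdx hx
    rcases eq_or_ne d 1 with rfl | hd1
    · rw [one_smul] at hdx
      rw [hdx]
      exact zero_mem _
    have hd0 : d ≠ 0 := fun h => by
      rw [h, Nat.coprime_zero_left] at hd
      omega
    have hpos : 0 < addOrderOf x :=
      (isOfFinAddOrder_iff_nsmul_eq_zero.2 ⟨d, Nat.pos_of_ne_zero hd0, hdx⟩).addOrderOf_pos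
    have hxd := addOrderOf_dvd_of_nsmul_eq_zero hdx
    rcases (Nat.le_of_dvd (Nat.pos_of_ne_zero hd0) hxd).lt_or_eq with hlt | heq
    · exact ih _ hlt x (hd.coprime_dvd_left hxd) (addOrderOf_nsmul_eq_zero x) hx
    obtain ⟨l, hl, e, rfl⟩ := Nat.exists_prime_and_dvd hd1
    haveI := Fact.mk hl
    have hl2p : ∀ t, t ∣ 2 * p → l ≠ t := fun t ht h =>
      hl.one_lt.ne' (Nat.eq_one_of_dvd_coprimes hd (dvd_mul_right l e) (h ▸ ht))
    haveI : NeZero (l * e) := ⟨hd0⟩
    obtain ⟨q₀, hq₀⟩ := FA.EisReducible.exists_toTors_eq_of_nsmul p (l * e) x hdx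
    obtain ⟨f, hf⟩ : l * e ∣ eisensteinNumerator p := by
      conv_lhs => rw [← heq]
      exact addOrderOf_dvd_of_nsmul_eq_zero (by
        rw [← hq₀, ← map_nsmul,
          numerator_nsmul_of_fixed_odd _ hp5 hd (by rw [hq₀]; exact hx), map_zero])
    have he0 : e ≠ 0 := fun h => hd0 (by rw [h, mul_zero])
    have hkill : l • (e * f) • c = 0 := by
      rw [smul_smul, ← mul_assoc, ← hf, ← hc, addOrderOf_nsmul_eq_zero]
    have hne : (e * f) • c ≠ 0 := fun h => by
      have hn0 := eisensteinNumerator_ne_zero hp5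
      have hef : 0 < e * f := Nat.pos_of_ne_zero fun h0 => hn0 (by rw [hf, mul_assoc, h0, mul_zero])
      have := Nat.le_of_dvd hef (addOrderOf_dvd_of_nsmul_eq_zero h)
      rw [hc, hf, mul_assoc] at this
      nlinarith [hl.two_le]
    have hex : l • e • x = 0 := by rw [smul_smul, hdx]
    obtain ⟨m, hm⟩ := exists_nsmul_eq_of_fixed_odd hp5
      (hl2p 2 (dvd_mul_right 2 p)) (hl2p p (dvd_mul_left p 2)) hex
      (gal_nsmul p hx e) hkill (gal_nsmul p hcfix _) hne
    set y := x - (m * f) • c with hy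
    have hey : e • y = 0 := by
      rw [hy, nsmul_sub, hm, smul_smul, smul_smul,
        show e * (m * f) = m * (e * f) by ring, sub_self]
    have hmem : y ∈ AddSubgroup.zmultiples c :=
      ih e (lt_mul_left (Nat.pos_of_ne_zero he0) hl.one_lt) y
        (hd.coprime_dvd_left (dvd_mul_left e l)) hey fun σ => by
          refine (map_sub (DistribSMul.toAddMonoidHom (JZero p) σ) x ((m * f) • c)).trans ?_
          show σ • x - σ • ((m * f) • c) = _
          rw [hx, gal_nsmul p hcfix]
    have h := add_mem hmem (AddSubgroup.nsmul_mem _ (AddSubgroup.mem_zmultiples c) (m * f))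
    rwa [hy, sub_add_cancel] at h

/-- A rational class killed by an odd `M` has order prime to `2 p`. -/
theorem addOrderOf_coprime_of_fixed_odd (hp5 : 5 ≤ p) {M : ℕ} (hM : Odd M) {x : JZero p}
    (hMx : M • x = 0) (hfix : ∀ σ : GQ, σ • x = x) : (addOrderOf x).Coprime (2 * p) := by
  have hdM := addOrderOf_dvd_of_nsmul_eq_zero hMx
  refine Nat.Coprime.mul_right ((Nat.coprime_two_right.2 hM).coprime_dvd_left hdM) ?_
  refine (hp.out.coprime_iff_not_dvd.2 ?_).symm
  rintro ⟨e, he⟩
  have hpos : 0 < addOrderOf x := Nat.pos_of_dvd_of_pos hdM hM.pos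
  have h0 : e • x = 0 := eq_zero_of_fixed_level hp5
    (by rw [smul_smul, ← he, addOrderOf_nsmul_eq_zero]) (gal_nsmul p hfix e)
  have hpe : 0 < e := Nat.pos_of_ne_zero fun h => by rw [h, mul_zero] at he; omega
  have hle := Nat.le_of_dvd hpe (addOrderOf_dvd_of_nsmul_eq_zero h0)
  rw [he] at hle
  nlinarith

end Main

end FA.CuspClass

end
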